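import Fermat.Agent.S53.Defs

/-!
# S53, module (B): Burnside's theorem for 2-dimensional absolutely irreducible representations,
and existence of normalisation data.
-/

set_option autoImplicit false

namespace Fermat.Agent.S53

open IsLocalRing Module

section AlgClosed

variable {K W G : Type*} [Field K] [AddCommGroup W] [Module K W] [Monoid G]

/-- the span of the image of a monoid hom is closed under multiplication -/
lemma burnside_mul_mem (r : G →* Module.End K W) {a b : Module.End K W}
    (ha : a ∈ Submodule.span K (Set.range r)) (hb : b ∈ Submodule.span K (Set.range r)) :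
    a * b ∈ Submodule.span K (Set.range r) := by
  induction ha using Submodule.span_induction with
  | mem x hx =>
    obtain ⟨g, rfl⟩ := hx
    induction hb using Submodule.span_induction with
    | mem y hy =>
      obtain ⟨h, rfl⟩ := hy
      exact Submodule.subset_span ⟨g * h, by simp⟩
    | zero => simp
    | add y z _ _ hy hz => rw [mul_add]; exact Submodule.add_mem _ hy hz
    | smul c y _ hy => rw [mul_smul_comm]; exact Submodule.smul_mem _ c hy
  | zero => simp
  | add y z _ _ hy hz => rw [add_mul]; exact Submodule.add_mem _ hy hz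
  | smul c y _ hy => rw [smul_mul_assoc]; exact Submodule.smul_mem _ c hy

lemma burnside_one_mem (r : G →* Module.End K W) :
    (1 : Module.End K W) ∈ Submodule.span K (Set.range r) :=
  Submodule.subset_span ⟨1, by simp⟩

/-- orbit of a nonzero vector under the span is everything -/
lemma burnside_orbit (r : G →* Module.End K W)
    (hirr : ∀ U : Submodule K W, (∀ g : G, ∀ x ∈ U, r g x ∈ U) → U = ⊥ ∨ U = ⊤)
    {v : W} (hv : v ≠ 0) (w : W) :
    ∃ a ∈ Submodule.span K (Set.range r), a v = w := by
  set S := Submodule.span K (Set.range r) with hS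
  have key : S.map (LinearMap.applyₗ v) = ⊤ := by
    have hinv : ∀ g : G, ∀ x ∈ S.map (LinearMap.applyₗ v), r g x ∈ S.map (LinearMap.applyₗ v) := by
      rintro g x ⟨a, ha, rfl⟩
      exact ⟨r g * a, burnside_mul_mem r (Submodule.subset_span ⟨g, rfl⟩) ha, by simp⟩
    rcases hirr (S.map (LinearMap.applyₗ v)) hinv with h | h
    · exfalso
      apply hv
      have : v ∈ S.map (LinearMap.applyₗ v) := ⟨1, burnside_one_mem r, by simp⟩
      rw [h] at this
      simpa using this
    · exact h
  have : w ∈ S.map (LinearMap.applyₗ v) := by rw [key]; trivial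
  obtain ⟨a, ha, rfl⟩ := this
  exact ⟨a, ha, by simp⟩

/-- Burnside's theorem in dimension two over an algebraically closed field. -/
theorem burnside_algClosed [IsAlgClosed K] (hW : finrank K W = 2) (r : G →* Module.End K W)
    (hirr : ∀ U : Submodule K W, (∀ g : G, ∀ x ∈ U, r g x ∈ U) → U = ⊥ ∨ U = ⊤) :
    Submodule.span K (Set.range r) = ⊤ := by
  have : Module.Finite K W := Module.finite_of_finrank_eq_succ hW
  have : Nontrivial W := Module.nontrivial_of_finrank_pos (R := K) (by omega)
  set S := Submodule.span K (Set.range r) with hS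
  -- a nonzero element of `S` with nonzero kernel
  have h2 : ∃ t ∈ S, t ≠ 0 ∧ ∃ v : W, v ≠ 0 ∧ t v = 0 := by
    by_contra hcon
    push Not at hcon
    -- every element of S is a scalar
    have hscal : ∀ a ∈ S, ∃ μ : K, a = μ • (1 : Module.End K W) := by
      intro a ha
      obtain ⟨μ, hμ⟩ := Module.End.exists_eigenvalue a
      obtain ⟨v, hv⟩ := hμ.exists_hasEigenvector
      refine ⟨μ, ?_⟩
      by_contra hne
      have hmem : a - μ • (1 : Module.End K W) ∈ S :=
        Submodule.sub_mem _ ha (Submodule.smul_mem _ _ (burnside_one_mem r))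
      refine hcon _ hmem (sub_ne_zero.mpr hne) v hv.2 ?_
      simp [hv.apply_eq_smul]
    obtain ⟨v, hv⟩ := exists_ne (0 : W)
    have hinv : ∀ g : G, ∀ x ∈ (K ∙ v), r g x ∈ (K ∙ v) := by
      intro g x hx
      obtain ⟨μ, hμ⟩ := hscal (r g) (Submodule.subset_span ⟨g, rfl⟩)
      rw [hμ]
      simpa using Submodule.smul_mem _ μ hx
    rcases hirr (K ∙ v) hinv with h | h
    · exact hv (by simpa using h)
    · have := finrank_span_singleton (K := K) hv
      rw [h, finrank_top, hW] at this
      omega
  obtain ⟨t, htS, ht0, v, hv0, htv⟩ := h2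
  obtain ⟨w, hw⟩ : ∃ w, t w ≠ 0 := by
    by_contra hcon
    push Not at hcon
    exact ht0 (LinearMap.ext hcon)
  let f : S →ₗ[K] W := (LinearMap.applyₗ v).domRestrict S
  let g : LinearMap.ker f →ₗ[K] W := ((LinearMap.applyₗ w).domRestrict S).domRestrict (LinearMap.ker f)
  have hf : LinearMap.range f = ⊤ := by
    rw [LinearMap.range_eq_top]
    intro x
    obtain ⟨a, ha, hax⟩ := burnside_orbit r hirr hv0 x
    exact ⟨⟨a, ha⟩, by simpa [f] using hax⟩
  have hg : LinearMap.range g = ⊤ := by
    rw [LinearMap.range_eq_top]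
    intro x
    obtain ⟨a, ha, hax⟩ := burnside_orbit r hirr hw x
    refine ⟨⟨⟨a * t, burnside_mul_mem r ha htS⟩, ?_⟩, ?_⟩
    · simp [f, htv]
    · simpa [g] using hax
  have e1 := LinearMap.finrank_range_add_finrank_ker f
  have e2 := LinearMap.finrank_range_add_finrank_ker (K := K) (V := LinearMap.ker f) (V₂ := W) g
  rw [hf, finrank_top, hW] at e1
  rw [hg, finrank_top, hW] at e2
  have e3 : finrank K (Module.End K W) = 4 := by
    rw [Module.finrank_linearMap, hW]
  have e4 : finrank K S ≤ finrank K (Module.End K W) := Submodule.finrank_le S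
  apply Submodule.eq_top_of_finrank_eq
  omega

end AlgClosed

/-- Burnside: the image of an absolutely irreducible representation spans the endomorphism ring. -/
theorem span_range_eq_top {k : Type} [Field k] (ρ : ResidualGaloisRep k)
    (habs : ρ.IsAbsolutelyIrreducible) :
    Submodule.span k (Set.range ρ.ρ) = (⊤ : Submodule k (Module.End k ρ.V)) := by
  classical
  set K := AlgebraicClosure k with hKdef
  have hK : Submodule.span K (Set.range (ρ.baseChange K).ρ) = ⊤ :=
    burnside_algClosed (ρ.baseChange K).finrank_eq _ habs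
  by_contra hne
  obtain ⟨φ, hφ0, hφ⟩ := Submodule.exists_le_ker_of_lt_top _ (lt_top_iff_ne_top.mpr hne)
  let b := Module.finBasisOfFinrankEq k ρ.V ρ.finrank_eq
  let bK := Algebra.TensorProduct.basis K b
  let c : Fin 2 → Fin 2 → k := fun i j => φ ((LinearMap.toMatrix b b).symm (Matrix.single i j 1))
  have hφc : ∀ f, φ f = ∑ i, ∑ j, (LinearMap.toMatrix b b f) i j * c i j := by
    intro f
    conv_lhs => rw [← (LinearMap.toMatrix b b).symm_apply_apply f,
      Matrix.matrix_eq_sum_single (LinearMap.toMatrix b b f)]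
    simp only [map_sum]
    refine Finset.sum_congr rfl fun i _ => Finset.sum_congr rfl fun j _ => ?_
    have : Matrix.single i j (LinearMap.toMatrix b b f i j)
        = (LinearMap.toMatrix b b f i j) • Matrix.single i j (1 : k) := by
      simp [Matrix.smul_single]
    rw [this, map_smul, map_smul, smul_eq_mul]
  let ψ : Module.End K (ρ.baseChange K).V →ₗ[K] K :=
    { toFun := fun F => ∑ i, ∑ j, (LinearMap.toMatrix bK bK F) i j * algebraMap k K (c i j)
      map_add' := by
        intro F F'
        simp [add_mul, Finset.sum_add_distrib]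
      map_smul' := by
        intro a F
        simp [mul_assoc]
        ring }
  have hψ : ∀ σ, ψ ((ρ.baseChange K).ρ σ) = 0 := by
    intro σ
    have h1 : (ρ.baseChange K).ρ σ = (ρ.ρ σ).baseChange K := rfl
    have h2 : φ (ρ.ρ σ) = 0 := hφ (Submodule.subset_span ⟨σ, rfl⟩)
    change ∑ i, ∑ j, (LinearMap.toMatrix bK bK ((ρ.baseChange K).ρ σ)) i j * algebraMap k K (c i j) = 0
    rw [h1, LinearMap.toMatrix_baseChange]
    rw [hφc] at h2
    have := congrArg (algebraMap k K) h2
    simpa using this
  have hψ0 : ψ = 0 := by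
    have : Submodule.span K (Set.range (ρ.baseChange K).ρ) ≤ LinearMap.ker ψ := by
      rw [Submodule.span_le]
      rintro _ ⟨σ, rfl⟩
      exact hψ σ
    rw [hK, top_le_iff, LinearMap.ker_eq_top] at this
    exact this
  have hc : ∀ i j, c i j = 0 := by
    intro i j
    have h1 : ψ ((LinearMap.toMatrix bK bK).symm (Matrix.single i j 1)) = 0 := by rw [hψ0]; rfl
    change ∑ i', ∑ j', (LinearMap.toMatrix bK bK ((LinearMap.toMatrix bK bK).symm
      (Matrix.single i j 1))) i' j' * algebraMap k K (c i' j') = 0 at h1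
    rw [LinearEquiv.apply_symm_apply] at h1
    have h2 : ∑ i', ∑ j', (Matrix.single i j (1 : K)) i' j' * algebraMap k K (c i' j')
        = algebraMap k K (c i j) := by
      fin_cases i <;> fin_cases j <;> simp [Matrix.single_apply]
    rw [h2] at h1
    exact (map_eq_zero (algebraMap k K)).mp h1
  apply hφ0
  ext f
  rw [hφc]
  simp [hc]

theorem exists_basis_normData (𝒪 : Type) [CommRing 𝒪] [IsLocalRing 𝒪]
    (ρbar : ResidualGaloisRep (ResidueField 𝒪)) (habs : ρbar.IsAbsolutelyIrreducible) :
    ∃ b : Module.Basis (Fin 2) (ResidueField 𝒪) ρbar.V, Nonempty (NormData 𝒪 (resMat ρbar b)) := by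
  classical
  let b := Module.finBasisOfFinrankEq (ResidueField 𝒪) ρbar.V ρbar.finrank_eq
  refine ⟨b, ?_⟩
  have hspan : Submodule.span (ResidueField 𝒪) (Set.range (resMat ρbar b)) = ⊤ := by
    have h := span_range_eq_top ρbar habs
    have h2 := congrArg (Submodule.map (LinearMap.toMatrix b b).toLinearMap) h
    rw [Submodule.map_span, Submodule.map_top, LinearEquiv.range, ← Set.range_comp] at h2
    exact h2
  have h1 : (!![1, 0; 0, 0] : M2 (ResidueField 𝒪)) ∈
      Submodule.span (ResidueField 𝒪) (Set.range (resMat ρbar b)) := by rw [hspan]; trivial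
  obtain ⟨c, hc⟩ := Finsupp.mem_span_range_iff_exists_finsupp.mp h1
  obtain ⟨x, rfl⟩ := Finsupp.mapRange_surjective (residue 𝒪) (map_zero _) (residue_surjective) c
  rw [Finsupp.sum_mapRange_index (by simp)] at hc
  obtain ⟨g0, hg0⟩ : ∃ g0, resMat ρbar b g0 1 0 ≠ 0 := by
    by_contra hcon
    push Not at hcon
    let e : M2 (ResidueField 𝒪) →ₗ[ResidueField 𝒪] ResidueField 𝒪 :=
      { toFun := fun M => M 1 0
        map_add' := fun _ _ => rfl
        map_smul' := fun _ _ => rfl }
    have hle : Submodule.span (ResidueField 𝒪) (Set.range (resMat ρbar b)) ≤ LinearMap.ker e := by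
      rw [Submodule.span_le]
      rintro _ ⟨σ, rfl⟩
      exact hcon σ
    rw [hspan] at hle
    have : (Matrix.single 1 0 1 : M2 (ResidueField 𝒪)) ∈ LinearMap.ker e := hle trivial
    have h3 : (Matrix.single 1 0 1 : M2 (ResidueField 𝒪)) 1 0 = 0 := this
    simp at h3
  obtain ⟨c0, hc0⟩ := residue_surjective (resMat ρbar b g0 1 0)
  exact ⟨⟨x, hc, g0, c0, hc0, hg0⟩⟩

end Fermat.Agent.S53
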