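import Mathlib
import Fermat.Prelude.Thm_IsAdicComplete_of_module_finite

set_option autoImplicit false

namespace Fermat.Agent.S53

open IsLocalRing

section Abstract

variable {P : Type} [CommRing P] (𝔛 : Ideal P)
  {B : Type} [CommRing B] (I : ℕ → Ideal B)
  (ψ : ∀ n, P →+* B ⧸ I n)

/-- one step of the successive approximation. -/
theorem cr_step
    (hcomp : ∀ (n : ℕ) (f : P) (x : B), ψ (n + 1) f = Ideal.Quotient.mk (I (n + 1)) x →
      ψ n f = Ideal.Quotient.mk (I n) x)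
    (hlift : ∀ n, ∀ x ∈ I n, ∃ h ∈ 𝔛 ^ n, ψ (n + 1) h = Ideal.Quotient.mk (I (n + 1)) x)
    (b : ℕ → B) (hb : ∀ n, b (n + 1) - b n ∈ I n)
    (m : ℕ) (f : P) (hf : ψ m f = Ideal.Quotient.mk _ (b m)) :
    ∃ f' : P, f' - f ∈ 𝔛 ^ m ∧ ψ (m + 1) f' = Ideal.Quotient.mk _ (b (m + 1)) := by
  obtain ⟨y, hy⟩ := Ideal.Quotient.mk_surjective (ψ (m + 1) f)
  have h1 : ψ m f = Ideal.Quotient.mk (I m) y := hcomp m f y hy.symm
  have h2 : y - b m ∈ I m := by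
    rw [← Ideal.Quotient.eq, ← h1, hf]
  have h3 : b (m + 1) - y ∈ I m := by
    have : b (m + 1) - y = (b (m + 1) - b m) - (y - b m) := by ring
    rw [this]
    exact (I m).sub_mem (hb m) h2
  obtain ⟨h, hh, hh'⟩ := hlift m _ h3
  refine ⟨f + h, by simpa using hh, ?_⟩
  rw [map_add, hh', ← hy, ← map_add]
  congr 1
  ring

/-- successive approximation: the core lemma. -/
theorem cr_exists_lift [IsAdicComplete 𝔛 P]
    (hker : ∀ n, 𝔛 ^ n ≤ RingHom.ker (ψ n))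
    (hcomp : ∀ (n : ℕ) (f : P) (x : B), ψ (n + 1) f = Ideal.Quotient.mk (I (n + 1)) x →
      ψ n f = Ideal.Quotient.mk (I n) x)
    (hlift : ∀ n, ∀ x ∈ I n, ∃ h ∈ 𝔛 ^ n, ψ (n + 1) h = Ideal.Quotient.mk (I (n + 1)) x)
    (b : ℕ → B) (hb : ∀ n, b (n + 1) - b n ∈ I n)
    (n : ℕ) (f₀ : P) (hf₀ : ψ n f₀ = Ideal.Quotient.mk _ (b n)) :
    ∃ f : P, f - f₀ ∈ 𝔛 ^ n ∧ ∀ m, n ≤ m → ψ m f = Ideal.Quotient.mk _ (b m) := by
  classical
  -- build the sequence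
  let T : ℕ → Type := fun k => {f : P // ψ (n + k) f = Ideal.Quotient.mk _ (b (n + k))}
  let step : ∀ k, T k → T (k + 1) := fun k f =>
    ⟨(cr_step 𝔛 I ψ hcomp hlift b hb (n + k) f.1 f.2).choose,
      (cr_step 𝔛 I ψ hcomp hlift b hb (n + k) f.1 f.2).choose_spec.2⟩
  have hstep : ∀ k (f : T k), (step k f).1 - f.1 ∈ 𝔛 ^ (n + k) := fun k f =>
    (cr_step 𝔛 I ψ hcomp hlift b hb (n + k) f.1 f.2).choose_spec.1
  let F : ∀ k, T k := fun k => Nat.rec (motive := T) ⟨f₀, hf₀⟩ step k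
  obtain ⟨g, hg0, hgs, hgψ⟩ : ∃ g : ℕ → P, g 0 = f₀ ∧ (∀ k, g (k + 1) - g k ∈ 𝔛 ^ (n + k)) ∧
      ∀ k, ψ (n + k) (g k) = Ideal.Quotient.mk _ (b (n + k)) :=
    ⟨fun k => (F k).1, rfl, fun k => hstep k (F k), fun k => (F k).2⟩
  clear_value F
  clear F hstep step T
  -- the Cauchy sequence
  let G : ℕ → P := fun m => g (m - n)
  have hG : ∀ m, G m ≡ G (m + 1) [SMOD (𝔛 ^ m • ⊤ : Submodule P P)] := by
    intro m
    rw [SModEq.sub_mem, smul_eq_mul, Ideal.mul_top]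
    by_cases hm : n ≤ m
    · obtain ⟨k, rfl⟩ := Nat.exists_eq_add_of_le hm
      have e1 : n + k + 1 - n = k + 1 := by omega
      have e2 : n + k - n = k := by omega
      show g (n + k - n) - g (n + k + 1 - n) ∈ 𝔛 ^ (n + k)
      rw [e1, e2, ← neg_sub]
      exact (𝔛 ^ (n + k)).neg_mem (hgs k)
    · have e1 : m + 1 - n = 0 := by omega
      have e2 : m - n = 0 := by omega
      show g (m - n) - g (m + 1 - n) ∈ 𝔛 ^ m
      rw [e1, e2, sub_self]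
      exact zero_mem _
  have hGc : AdicCompletion.IsAdicCauchy 𝔛 P G := (AdicCompletion.isAdicCauchy_iff 𝔛 P G).2 hG
  obtain ⟨L, hL⟩ := IsPrecomplete.prec (I := 𝔛) (M := P) inferInstance hGc
  have hL' : ∀ m, G m - L ∈ 𝔛 ^ m := by
    intro m
    have := hL m
    rwa [SModEq.sub_mem, smul_eq_mul, Ideal.mul_top] at this
  refine ⟨L, ?_, ?_⟩
  · have := hL' n
    have e : G n = f₀ := by
      show g (n - n) = f₀
      rw [Nat.sub_self, hg0]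
    rw [e, ← neg_sub] at this
    simpa using (𝔛 ^ n).neg_mem this
  · intro m hm
    obtain ⟨k, rfl⟩ := Nat.exists_eq_add_of_le hm
    have h1 : ψ (n + k) (G (n + k) - L) = 0 := hker (n + k) (hL' (n + k))
    have h2 : ψ (n + k) (G (n + k)) = Ideal.Quotient.mk _ (b (n + k)) := by
      have e2 : n + k - n = k := by omega
      show ψ (n + k) (g (n + k - n)) = _
      rw [e2]
      exact hgψ k
    rw [map_sub, sub_eq_zero] at h1
    rw [← h1, h2]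

end Abstract

section Abstract2

variable {𝒪 : Type} [CommRing 𝒪] {P : Type} [CommRing P] [Algebra 𝒪 P] [IsNoetherianRing P]
  (𝔛 : Ideal P) [IsAdicComplete 𝔛 P]
  {B : Type} [CommRing B] [Algebra 𝒪 B] (I : ℕ → Ideal B)
  (ψ : ∀ n, P →ₐ[𝒪] B ⧸ I n)

omit [IsNoetherianRing P] in
theorem cr_comp_le
    (hcomp : ∀ (n : ℕ) (f : P) (x : B), ψ (n + 1) f = Ideal.Quotient.mk (I (n + 1)) x →
      ψ n f = Ideal.Quotient.mk (I n) x)
    {m n : ℕ} (hmn : m ≤ n) (f : P) (x : B) (h : ψ n f = Ideal.Quotient.mk (I n) x) :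
    ψ m f = Ideal.Quotient.mk (I m) x := by
  induction n, hmn using Nat.le_induction with
  | base => exact h
  | succ n hmn ih => exact ih (hcomp n f x h)

omit [IsNoetherianRing P] in
theorem cr_ker_eq
    (hker : ∀ n, 𝔛 ^ n ≤ RingHom.ker (ψ n))
    (hcomp : ∀ (n : ℕ) (f : P) (x : B), ψ (n + 1) f = Ideal.Quotient.mk (I (n + 1)) x →
      ψ n f = Ideal.Quotient.mk (I n) x)
    (hlift : ∀ n, ∀ x ∈ I n, ∃ h ∈ 𝔛 ^ n, ψ (n + 1) h = Ideal.Quotient.mk (I (n + 1)) x)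
    (n : ℕ) :
    RingHom.ker (ψ n) = 𝔛 ^ n ⊔ (⨅ m, RingHom.ker (ψ m)) := by
  apply le_antisymm
  · intro f hf
    obtain ⟨g, hg1, hg2⟩ := cr_exists_lift 𝔛 I (fun n => (ψ n : P →+* B ⧸ I n)) hker hcomp hlift
      (fun _ => 0) (fun _ => by simp) n f (by simpa using hf)
    have hgJ : g ∈ ⨅ m, RingHom.ker (ψ m) := by
      rw [Ideal.mem_iInf]
      intro m
      rw [RingHom.mem_ker]
      rcases le_total n m with h | h
      · simpa using hg2 m h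
      · have := cr_comp_le I ψ hcomp h g 0 (by simpa using hg2 n le_rfl)
        simpa using this
    have : f = -(g - f) + g := by ring
    rw [this]
    exact Ideal.add_mem _ (Ideal.mem_sup_left ((𝔛 ^ n).neg_mem hg1)) (Ideal.mem_sup_right hgJ)
  · exact sup_le (hker n) (iInf_le _ n)

theorem cr_abstract
    (hI1 : (I 1).IsMaximal)
    (hsurj : ∀ n, Function.Surjective (ψ n))
    (hker : ∀ n, 𝔛 ^ n ≤ RingHom.ker (ψ n))
    (hcomp : ∀ (n : ℕ) (f : P) (x : B), ψ (n + 1) f = Ideal.Quotient.mk (I (n + 1)) x →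
      ψ n f = Ideal.Quotient.mk (I n) x)
    (hlift : ∀ n, ∀ x ∈ I n, ∃ h ∈ 𝔛 ^ n, ψ (n + 1) h = Ideal.Quotient.mk (I (n + 1)) x) :
    ∃ (R : Type) (_ : CommRing R) (_ : IsLocalRing R) (_ : IsNoetherianRing R)
      (_ : IsAdicComplete (maximalIdeal R) R) (_ : Algebra 𝒪 R) (Θ : B →ₐ[𝒪] R),
      (∀ n, (maximalIdeal R ^ n).comap Θ = I n) ∧
      (∀ n, Function.Surjective (Ideal.Quotient.mk (maximalIdeal R ^ n) ∘ Θ)) := by
  classical
  set J : Ideal P := ⨅ m, RingHom.ker (ψ m) with hJ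
  have hJle : ∀ n, ∀ a ∈ J, ψ n a = 0 := fun n a ha => by
    have := (Ideal.mem_iInf.1 ha) n
    exact this
  let ψb : ∀ n, (P ⧸ J) →ₐ[𝒪] B ⧸ I n := fun n => Ideal.Quotient.liftₐ J (ψ n) (hJle n)
  have hψb : ∀ n f, ψb n (Ideal.Quotient.mk J f) = ψ n f := fun n f => rfl
  set 𝔐 : Ideal (P ⧸ J) := 𝔛.map (Ideal.Quotient.mk J) with h𝔐
  have hkerb : ∀ n, RingHom.ker (ψb n) = 𝔐 ^ n := by
    intro n
    ext r
    obtain ⟨f, rfl⟩ := Ideal.Quotient.mk_surjective r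
    rw [RingHom.mem_ker, hψb, h𝔐, ← Ideal.map_pow, Ideal.mem_quotient_iff_mem_sup,
      ← cr_ker_eq 𝔛 I ψ hker hcomp hlift n, RingHom.mem_ker]
  have hsurjb : ∀ n, Function.Surjective (ψb n) := fun n y => by
    obtain ⟨f, rfl⟩ := hsurj n y
    exact ⟨Ideal.Quotient.mk J f, rfl⟩
  have hmax : 𝔐.IsMaximal := by
    let _ := Ideal.Quotient.field (I 1)
    have := RingHom.ker_isMaximal_of_surjective (ψb 1 : (P ⧸ J) →+* B ⧸ I 1) (hsurjb 1)
    have e : RingHom.ker (ψb 1 : (P ⧸ J) →+* B ⧸ I 1) = 𝔐 := by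
      have := hkerb 1
      rw [pow_one] at this
      exact this
    rwa [e] at this
  have hcompl : IsAdicComplete 𝔐 (P ⧸ J) := by
    have h1 : IsAdicComplete 𝔛 (P ⧸ J) := IsAdicComplete.of_module_finite 𝔛 (P ⧸ J)
    exact (IsAdicComplete.map_algebraMap_iff (S := P ⧸ J) 𝔛 (P ⧸ J)).2 h1
  have hloc : IsLocalRing (P ⧸ J) := isLocalRing_of_isAdicComplete_maximal 𝔐
  have hmaxeq : maximalIdeal (P ⧸ J) = 𝔐 := (IsLocalRing.eq_maximalIdeal hmax).symm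
  -- the map Θ
  let Ψ : (P ⧸ J) →ₐ[𝒪] (∀ n, B ⧸ I n) := AlgHom.pi ψb
  let δ : B →ₐ[𝒪] (∀ n, B ⧸ I n) := AlgHom.pi
    (fun n => Ideal.Quotient.mkₐ 𝒪 (I n))
  have hΨinj : Function.Injective Ψ := by
    rw [injective_iff_map_eq_zero]
    intro r hr
    obtain ⟨f, rfl⟩ := Ideal.Quotient.mk_surjective r
    rw [Ideal.Quotient.eq_zero_iff_mem, hJ, Ideal.mem_iInf]
    intro n
    have := congrFun hr n
    exact this
  have hδ : ∀ b, δ b ∈ Ψ.range := by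
    intro b
    obtain ⟨f₀, hf₀⟩ := hsurj 0 (Ideal.Quotient.mk _ b)
    obtain ⟨f, -, hf⟩ := cr_exists_lift 𝔛 I (fun n => (ψ n : P →+* B ⧸ I n)) hker hcomp hlift
      (fun _ => b) (fun _ => by simp) 0 f₀ hf₀
    refine ⟨Ideal.Quotient.mk J f, ?_⟩
    funext n
    exact hf n (Nat.zero_le n)
  let Θ : B →ₐ[𝒪] (P ⧸ J) :=
    (AlgEquiv.ofInjective Ψ hΨinj).symm.toAlgHom.comp (δ.codRestrict Ψ.range hδ)
  have hΘ : ∀ n b, ψb n (Θ b) = Ideal.Quotient.mk (I n) b := by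
    intro n b
    have h1 : Ψ (Θ b) = δ b := by
      have := (AlgEquiv.ofInjective Ψ hΨinj).apply_symm_apply (δ.codRestrict Ψ.range hδ b)
      exact congrArg Subtype.val this
    exact congrFun h1 n
  refine ⟨P ⧸ J, inferInstance, hloc, inferInstance, hmaxeq ▸ hcompl, inferInstance, Θ, ?_, ?_⟩
  · intro n
    ext b
    rw [Ideal.mem_comap, hmaxeq, ← hkerb n, RingHom.mem_ker, hΘ, Ideal.Quotient.eq_zero_iff_mem]
  · intro n y
    obtain ⟨r, rfl⟩ := Ideal.Quotient.mk_surjective y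
    obtain ⟨b, hb⟩ := Ideal.Quotient.mk_surjective (ψb n r)
    refine ⟨b, ?_⟩
    rw [Function.comp_apply, Ideal.Quotient.eq, hmaxeq, ← hkerb n, RingHom.mem_ker, map_sub, hΘ, hb,
      sub_self]

end Abstract2

section Concrete

theorem cr_sup_pow_le {A : Type} [CommRing A] (a b : Ideal A) (j : ℕ) : (a ⊔ b) ^ j ≤ a ^ j ⊔ b := by
  induction j with
  | zero => simp
  | succ j ih =>
    rw [pow_succ, pow_succ]
    calc (a ⊔ b) ^ j * (a ⊔ b) ≤ (a ^ j ⊔ b) * (a ⊔ b) := Ideal.mul_mono_left ih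
      _ ≤ a ^ j * a ⊔ b := by
        rw [Ideal.sup_mul, Ideal.mul_sup, Ideal.mul_sup]
        refine sup_le (sup_le le_sup_left (le_sup_of_le_right Ideal.mul_le_right))
          (sup_le (le_sup_of_le_right Ideal.mul_le_left) (le_sup_of_le_right Ideal.mul_le_left))

variable {𝒪 : Type} [CommRing 𝒪]
  {B : Type} [CommRing B] [Algebra 𝒪 B] (I : ℕ → Ideal B) (𝔪 : Ideal B)

theorem cr_I2_le (hstep : ∀ n, I n ≤ I (n + 1) ⊔ 𝔪 ^ n) (n : ℕ) (hn : 2 ≤ n) :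
    I 2 ≤ I n ⊔ 𝔪 ^ 2 := by
  induction n, hn using Nat.le_induction with
  | base => exact le_sup_left
  | succ n hn ih =>
    refine ih.trans (sup_le ((hstep n).trans (sup_le le_sup_left ?_)) le_sup_right)
    exact le_sup_of_le_right (Ideal.pow_le_pow_right hn)

theorem cr_nak (D : Ideal B) (h : 𝔪 ≤ D ⊔ 𝔪 ^ 2) (j : ℕ) (hj : 1 ≤ j) : 𝔪 ≤ D ⊔ 𝔪 ^ j := by
  induction j, hj using Nat.le_induction with
  | base => simp
  | succ j hj ih =>
    refine ih.trans (sup_le le_sup_left ?_)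
    obtain ⟨i, rfl⟩ := Nat.exists_eq_add_of_le hj
    calc 𝔪 ^ (1 + i) = 𝔪 ^ i * 𝔪 := by rw [add_comm, pow_succ]
      _ ≤ 𝔪 ^ i * (D ⊔ 𝔪 ^ 2) := Ideal.mul_mono_right h
      _ ≤ D ⊔ 𝔪 ^ (1 + i + 1) := by
        rw [Ideal.mul_sup]
        refine sup_le (le_sup_of_le_left Ideal.mul_le_right) (le_sup_of_le_right ?_)
        rw [← pow_add]
        exact le_of_eq (by congr 1; omega)

theorem cr_m_le (hI1 : I 1 = 𝔪) (hpow : ∀ n, 𝔪 ^ n ≤ I n)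
    (hstep : ∀ n, I n ≤ I (n + 1) ⊔ 𝔪 ^ n) (𝔠 : Ideal B) (ht : 𝔪 ≤ 𝔠 ⊔ I 2) (n : ℕ) :
    𝔪 ≤ 𝔠 ⊔ I n := by
  rcases Nat.lt_or_ge n 2 with hn | hn
  · interval_cases n
    · have := hpow 0
      rw [pow_zero, Ideal.one_eq_top, top_le_iff] at this
      rw [this]; simp
    · rw [hI1]; exact le_sup_right
  · have h1 : 𝔪 ≤ (𝔠 ⊔ I n) ⊔ 𝔪 ^ 2 := by
      refine ht.trans (sup_le (le_sup_of_le_left le_sup_left) ?_)
      refine (cr_I2_le I 𝔪 hstep n hn).trans (sup_le (le_sup_of_le_left le_sup_right) le_sup_right)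
    have h2 := cr_nak 𝔪 (𝔠 ⊔ I n) h1 n (by omega)
    exact h2.trans (sup_le le_rfl (le_sup_of_le_right (hpow n)))

theorem cr_m_pow_le (hI1 : I 1 = 𝔪) (hpow : ∀ n, 𝔪 ^ n ≤ I n)
    (hstep : ∀ n, I n ≤ I (n + 1) ⊔ 𝔪 ^ n) (𝔠 : Ideal B) (ht : 𝔪 ≤ 𝔠 ⊔ I 2) (n j : ℕ) :
    𝔪 ^ j ≤ 𝔠 ^ j ⊔ I n :=
  (Ideal.pow_right_mono (cr_m_le I 𝔪 hI1 hpow hstep 𝔠 ht n) j).trans (cr_sup_pow_le _ _ _)

end Concrete

section Concrete2

variable {𝒪 : Type} [CommRing 𝒪]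
  {B : Type} [CommRing B] [Algebra 𝒪 B] (I : ℕ → Ideal B) (𝔪 : Ideal B)
  {d : ℕ} (t : Fin d → B)

theorem cr_map_vars :
    (MvPolynomial.idealOfVars (Fin d) 𝒪).map (MvPolynomial.aeval t : MvPolynomial (Fin d) 𝒪 →ₐ[𝒪] B)
      = Ideal.span (Set.range t) := by
  rw [Ideal.map_span, ← Set.range_comp]
  congr 2
  funext i
  simp

theorem cr_ev_mem_pow (htm : ∀ i, t i ∈ 𝔪) (j : ℕ) (q : MvPolynomial (Fin d) 𝒪)
    (hq : q ∈ MvPolynomial.idealOfVars (Fin d) 𝒪 ^ j) : MvPolynomial.aeval t q ∈ 𝔪 ^ j := by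
  have h1 : MvPolynomial.aeval t q ∈ (MvPolynomial.idealOfVars (Fin d) 𝒪 ^ j).map
      (MvPolynomial.aeval t : MvPolynomial (Fin d) 𝒪 →ₐ[𝒪] B) := Ideal.mem_map_of_mem _ hq
  rw [Ideal.map_pow, cr_map_vars] at h1
  refine Ideal.pow_right_mono ?_ j h1
  rw [Ideal.span_le]
  rintro _ ⟨i, rfl⟩
  exact htm i

theorem cr_approx (hres : Function.Surjective (Ideal.Quotient.mk 𝔪 ∘ algebraMap 𝒪 B))
    (htm : ∀ i, t i ∈ 𝔪) (j : ℕ) (c : B) (hc : c ∈ Ideal.span (Set.range t) ^ j) :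
    ∃ q ∈ MvPolynomial.idealOfVars (Fin d) 𝒪 ^ j, c - MvPolynomial.aeval t q ∈ 𝔪 ^ (j + 1) := by
  rw [← cr_map_vars (𝒪 := 𝒪), ← Ideal.map_pow] at hc
  refine Submodule.span_induction (p := fun c _ => ∃ q ∈ MvPolynomial.idealOfVars (Fin d) 𝒪 ^ j,
    c - MvPolynomial.aeval t q ∈ 𝔪 ^ (j + 1)) ?_ ?_ ?_ ?_ hc
  · rintro _ ⟨u, hu, rfl⟩
    exact ⟨u, hu, by simp⟩
  · exact ⟨0, zero_mem _, by simp⟩
  · rintro x y _ _ ⟨q1, h1, h1'⟩ ⟨q2, h2, h2'⟩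
    refine ⟨q1 + q2, add_mem h1 h2, ?_⟩
    have : x + y - MvPolynomial.aeval t (q1 + q2)
        = (x - MvPolynomial.aeval t q1) + (y - MvPolynomial.aeval t q2) := by
      rw [map_add]; ring
    rw [this]
    exact add_mem h1' h2'
  · rintro a x _ ⟨q, hq, hq'⟩
    obtain ⟨o, ho⟩ := hres (Ideal.Quotient.mk 𝔪 a)
    have ho' : a - algebraMap 𝒪 B o ∈ 𝔪 := by
      rw [← Ideal.Quotient.eq]; exact ho.symm
    refine ⟨MvPolynomial.C o * q, Ideal.mul_mem_left _ _ hq, ?_⟩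
    have : a • x - MvPolynomial.aeval t (MvPolynomial.C o * q)
        = a * (x - MvPolynomial.aeval t q) + (MvPolynomial.aeval t q) * (a - algebraMap 𝒪 B o) := by
      rw [map_mul, MvPolynomial.aeval_C, smul_eq_mul]; ring
    rw [this]
    refine add_mem (Ideal.mul_mem_left _ _ hq') ?_
    rw [pow_succ]
    exact Ideal.mul_mem_mul (cr_ev_mem_pow 𝔪 t htm j q hq) ho'

theorem cr_ev_surj (hI1 : I 1 = 𝔪) (hpow : ∀ n, 𝔪 ^ n ≤ I n)
    (hstep : ∀ n, I n ≤ I (n + 1) ⊔ 𝔪 ^ n)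
    (hres : Function.Surjective (Ideal.Quotient.mk 𝔪 ∘ algebraMap 𝒪 B))
    (htm : ∀ i, t i ∈ 𝔪) (ht : 𝔪 ≤ Ideal.span (Set.range t) ⊔ I 2) (n : ℕ) (b : B) :
    ∃ q : MvPolynomial (Fin d) 𝒪, b - MvPolynomial.aeval t q ∈ I n := by
  have key : ∀ j : ℕ, ∃ q : MvPolynomial (Fin d) 𝒪, b - MvPolynomial.aeval t q ∈ 𝔪 ^ j ⊔ I n := by
    intro j
    induction j with
    | zero => exact ⟨0, by simp⟩
    | succ j ih =>
      obtain ⟨q, hq⟩ := ih
      have hq2 : b - MvPolynomial.aeval t q ∈ Ideal.span (Set.range t) ^ j ⊔ I n :=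
        (sup_le (cr_m_pow_le I 𝔪 hI1 hpow hstep _ ht n j) le_sup_right) hq
      obtain ⟨c, hc, i, hi, hci⟩ := Submodule.mem_sup.1 hq2
      obtain ⟨q', -, hq'⟩ := cr_approx (𝒪 := 𝒪) 𝔪 t hres htm j c hc
      refine ⟨q + q', ?_⟩
      have : b - MvPolynomial.aeval t (q + q') = (c - MvPolynomial.aeval t q') + i := by
        rw [map_add]
        linear_combination -hci
      rw [this]
      exact add_mem (Ideal.mem_sup_left hq') (Ideal.mem_sup_right hi)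
  obtain ⟨q, hq⟩ := key n
  exact ⟨q, (sup_le (hpow n) le_rfl) hq⟩

end Concrete2

section Final

variable {𝒪 : Type} [CommRing 𝒪] [IsNoetherianRing 𝒪]
  {B : Type} [CommRing B] [Algebra 𝒪 B] (I : ℕ → Ideal B) (𝔪 : Ideal B)
  {d : ℕ} (t : Fin d → B)

/-- the evaluation `𝒪[X] → B ⧸ I n`. -/
noncomputable def crE (n : ℕ) : MvPolynomial (Fin d) 𝒪 →ₐ[𝒪] B ⧸ I n :=
  (Ideal.Quotient.mkₐ 𝒪 (I n)).comp (MvPolynomial.aeval t)

omit [IsNoetherianRing 𝒪] in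
theorem crE_apply (n : ℕ) (q : MvPolynomial (Fin d) 𝒪) :
    crE I t n q = Ideal.Quotient.mk (I n) (MvPolynomial.aeval t q) := rfl

omit [IsNoetherianRing 𝒪] in
theorem crE_eq_zero (hpow : ∀ n, 𝔪 ^ n ≤ I n) (htm : ∀ i, t i ∈ 𝔪) (n : ℕ)
    (q : MvPolynomial (Fin d) 𝒪) (hq : q ∈ MvPolynomial.idealOfVars (Fin d) 𝒪 ^ n) :
    crE I t n q = 0 := by
  rw [crE_apply, Ideal.Quotient.eq_zero_iff_mem]
  exact hpow n (cr_ev_mem_pow 𝔪 t htm n q hq)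

/-- the evaluation `𝒪⟦X⟧ → B ⧸ I n`. -/
noncomputable def crψ (hpow : ∀ n, 𝔪 ^ n ≤ I n) (htm : ∀ i, t i ∈ 𝔪) (n : ℕ) :
    MvPowerSeries (Fin d) 𝒪 →ₐ[𝒪] B ⧸ I n :=
  (Ideal.Quotient.liftₐ (MvPolynomial.idealOfVars (Fin d) 𝒪 ^ n) (crE I t n)
    (crE_eq_zero I 𝔪 t hpow htm n)).comp
    ((MvPowerSeries.truncTotalAlgHom (Fin d) 𝒪 n).restrictScalars 𝒪)

omit [IsNoetherianRing 𝒪] in
theorem crψ_apply (hpow : ∀ n, 𝔪 ^ n ≤ I n) (htm : ∀ i, t i ∈ 𝔪) (n : ℕ)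
    (f : MvPowerSeries (Fin d) 𝒪) :
    crψ I 𝔪 t hpow htm n f
      = Ideal.Quotient.mk (I n) (MvPolynomial.aeval t (MvPowerSeries.truncTotal n f)) := rfl

omit [IsNoetherianRing 𝒪] in
theorem crψ_coe (hpow : ∀ n, 𝔪 ^ n ≤ I n) (htm : ∀ i, t i ∈ 𝔪) (n : ℕ)
    (q : MvPolynomial (Fin d) 𝒪) :
    crψ I 𝔪 t hpow htm n (q : MvPowerSeries (Fin d) 𝒪) = crE I t n q := by
  have h := (MvPowerSeries.truncTotalAlgHom (Fin d) 𝒪 n).commutes q
  have h2 : (MvPowerSeries.truncTotalAlgHom (Fin d) 𝒪 n) (q : MvPowerSeries (Fin d) 𝒪)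
      = Ideal.Quotient.mk _ q := h
  show (Ideal.Quotient.liftₐ (MvPolynomial.idealOfVars (Fin d) 𝒪 ^ n) (crE I t n)
    (crE_eq_zero I 𝔪 t hpow htm n))
      ((MvPowerSeries.truncTotalAlgHom (Fin d) 𝒪 n) (q : MvPowerSeries (Fin d) 𝒪)) = _
  rw [h2]
  rfl

omit [IsNoetherianRing 𝒪] in
theorem cr_coe_mem_pow (n : ℕ) (q : MvPolynomial (Fin d) 𝒪)
    (hq : q ∈ MvPolynomial.idealOfVars (Fin d) 𝒪 ^ n) :
    (q : MvPowerSeries (Fin d) 𝒪) ∈
      (Ideal.span (Set.range MvPowerSeries.X) : Ideal (MvPowerSeries (Fin d) 𝒪)) ^ n := by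
  have h1 : (MvPolynomial.idealOfVars (Fin d) 𝒪).map
      (algebraMap (MvPolynomial (Fin d) 𝒪) (MvPowerSeries (Fin d) 𝒪))
      = Ideal.span (Set.range MvPowerSeries.X) := by
    rw [Ideal.map_span, ← Set.range_comp]
    congr 2
    funext i
    exact MvPolynomial.coe_X i
  rw [← h1, ← Ideal.map_pow]
  exact Ideal.mem_map_of_mem _ hq

omit [IsNoetherianRing 𝒪] in
theorem cr_pow_le_ker (hpow : ∀ n, 𝔪 ^ n ≤ I n) (htm : ∀ i, t i ∈ 𝔪) (n : ℕ) :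
    (Ideal.span (Set.range MvPowerSeries.X) : Ideal (MvPowerSeries (Fin d) 𝒪)) ^ n
      ≤ RingHom.ker (crψ I 𝔪 t hpow htm n) := by
  have h1 : (MvPolynomial.idealOfVars (Fin d) 𝒪).map
      (algebraMap (MvPolynomial (Fin d) 𝒪) (MvPowerSeries (Fin d) 𝒪))
      = Ideal.span (Set.range MvPowerSeries.X) := by
    rw [Ideal.map_span, ← Set.range_comp]
    congr 2
    funext i
    exact MvPolynomial.coe_X i
  rw [← h1, ← Ideal.map_pow, Ideal.map_le_iff_le_comap]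
  intro q hq
  rw [Ideal.mem_comap, RingHom.mem_ker]
  have := crψ_coe I 𝔪 t hpow htm n q
  rw [crE_eq_zero I 𝔪 t hpow htm n q hq] at this
  exact this

/-- **Part (F) of S53.** Construction of a complete noetherian local ring from a compatible tower
of quotients of a (huge) `𝒪`-algebra `B`. -/
theorem exists_completeRing [𝔪.IsMaximal] (hI1 : I 1 = 𝔪) (hanti : Antitone I)
    (hpow : ∀ n, 𝔪 ^ n ≤ I n) (hstep : ∀ n, I n ≤ I (n + 1) ⊔ 𝔪 ^ n)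
    (hres : Function.Surjective (Ideal.Quotient.mk 𝔪 ∘ algebraMap 𝒪 B))
    (htm : ∀ i, t i ∈ 𝔪) (ht : 𝔪 ≤ Ideal.span (Set.range t) ⊔ I 2) :
    ∃ (R : Type) (_ : CommRing R) (_ : IsLocalRing R) (_ : IsNoetherianRing R)
      (_ : IsAdicComplete (maximalIdeal R) R) (_ : Algebra 𝒪 R) (Θ : B →ₐ[𝒪] R),
      (∀ n, (maximalIdeal R ^ n).comap Θ = I n) ∧
      (∀ n, Function.Surjective (Ideal.Quotient.mk (maximalIdeal R ^ n) ∘ Θ)) := by
  have hsurjE : ∀ n, Function.Surjective (crE (𝒪 := 𝒪) I t n) := by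
    intro n y
    obtain ⟨b, rfl⟩ := Ideal.Quotient.mk_surjective y
    obtain ⟨q, hq⟩ := cr_ev_surj (𝒪 := 𝒪) I 𝔪 t hI1 hpow hstep hres htm ht n b
    refine ⟨q, ?_⟩
    rw [crE_apply, eq_comm, Ideal.Quotient.eq]
    exact hq
  refine cr_abstract (𝒪 := 𝒪) (P := MvPowerSeries (Fin d) 𝒪)
    (Ideal.span (Set.range MvPowerSeries.X)) I (crψ I 𝔪 t hpow htm) (hI1 ▸ inferInstance)
    ?_ (cr_pow_le_ker I 𝔪 t hpow htm) ?_ ?_
  · intro n y
    obtain ⟨q, rfl⟩ := hsurjE n y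
    exact ⟨q, crψ_coe I 𝔪 t hpow htm n q⟩
  · intro n f x h
    rw [crψ_apply, Ideal.Quotient.eq] at h ⊢
    have h1 : MvPolynomial.aeval t (MvPowerSeries.truncTotal n f - MvPowerSeries.truncTotal (n + 1) f)
        ∈ I n := hpow n (cr_ev_mem_pow 𝔪 t htm n _
      (MvPowerSeries.truncTotal_sub_truncTotal_mem_pow_idealOfVars le_rfl (Nat.le_succ n) f))
    have h2 := hanti (Nat.le_succ n) h
    have : MvPolynomial.aeval t (MvPowerSeries.truncTotal n f) - x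
        = MvPolynomial.aeval t (MvPowerSeries.truncTotal n f - MvPowerSeries.truncTotal (n + 1) f)
          + (MvPolynomial.aeval t (MvPowerSeries.truncTotal (n + 1) f) - x) := by
      rw [map_sub]; ring
    rw [this]
    exact add_mem h1 h2
  · intro n x hx
    have hx2 : x ∈ Ideal.span (Set.range t) ^ n ⊔ I (n + 1) :=
      (sup_le le_sup_right (cr_m_pow_le I 𝔪 hI1 hpow hstep _ ht (n + 1) n)) (hstep n hx)
    obtain ⟨c, hc, i, hi, hci⟩ := Submodule.mem_sup.1 hx2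
    have hc2 : Ideal.Quotient.mk (I (n + 1)) c ∈
        (MvPolynomial.idealOfVars (Fin d) 𝒪 ^ n).map (crE (𝒪 := 𝒪) I t (n + 1)) := by
      rw [← cr_map_vars (𝒪 := 𝒪), ← Ideal.map_pow] at hc
      have hle : (MvPolynomial.idealOfVars (Fin d) 𝒪 ^ n).map
          (MvPolynomial.aeval t : MvPolynomial (Fin d) 𝒪 →ₐ[𝒪] B) ≤
          ((MvPolynomial.idealOfVars (Fin d) 𝒪 ^ n).map (crE (𝒪 := 𝒪) I t (n + 1))).comap
            (Ideal.Quotient.mk (I (n + 1))) := by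
        rw [Ideal.map_le_iff_le_comap]
        intro q hq
        rw [Ideal.mem_comap, Ideal.mem_comap]
        exact Ideal.mem_map_of_mem (crE (𝒪 := 𝒪) I t (n + 1)) hq
      exact hle hc
    obtain ⟨q, hq, hq'⟩ := (Ideal.mem_map_iff_of_surjective _ (hsurjE (n + 1))).1 hc2
    refine ⟨q, cr_coe_mem_pow n q hq, ?_⟩
    rw [crψ_coe, hq', Ideal.Quotient.eq]
    have : c - x = -i := by linear_combination hci
    rw [this]
    exact neg_mem hi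

end Final

section Final2

variable {𝒪 : Type} [CommRing 𝒪] [IsNoetherianRing 𝒪] [IsLocalRing 𝒪]
  {B : Type} [CommRing B] [Algebra 𝒪 B] (I : ℕ → Ideal B) (𝔪 : Ideal B)
  {d : ℕ} (t : Fin d → B)

/-- Version of `exists_completeRing` for local `𝒪`, including the two facts on the structure map. -/
theorem exists_completeRing_local [𝔪.IsMaximal] (hI1 : I 1 = 𝔪) (hanti : Antitone I)
    (hpow : ∀ n, 𝔪 ^ n ≤ I n) (hstep : ∀ n, I n ≤ I (n + 1) ⊔ 𝔪 ^ n)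
    (hres : Function.Surjective (Ideal.Quotient.mk 𝔪 ∘ algebraMap 𝒪 B))
    (htm : ∀ i, t i ∈ 𝔪) (ht : 𝔪 ≤ Ideal.span (Set.range t) ⊔ I 2) :
    ∃ (R : Type) (_ : CommRing R) (_ : IsLocalRing R) (_ : IsNoetherianRing R)
      (_ : IsAdicComplete (maximalIdeal R) R) (_ : Algebra 𝒪 R)
      (_ : IsLocalHom (algebraMap 𝒪 R)) (Θ : B →ₐ[𝒪] R),
      Function.Surjective (IsLocalRing.residue R ∘ algebraMap 𝒪 R) ∧
      (∀ n, (maximalIdeal R ^ n).comap Θ = I n) ∧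
      (∀ n, Function.Surjective (Ideal.Quotient.mk (maximalIdeal R ^ n) ∘ Θ)) := by
  obtain ⟨R, _, _, _, _, _, Θ, h1, h2⟩ :=
    exists_completeRing (𝒪 := 𝒪) I 𝔪 t hI1 hanti hpow hstep hres htm ht
  have hΘ𝔪 : ∀ b, Θ b ∈ maximalIdeal R ↔ b ∈ 𝔪 := by
    intro b
    have := h1 1
    rw [pow_one, hI1] at this
    rw [← this, Ideal.mem_comap]
  have hloc : IsLocalHom (algebraMap 𝒪 R) := by
    constructor
    intro o ho
    by_contra hno
    have ho𝔪 : o ∈ maximalIdeal 𝒪 := (IsLocalRing.mem_maximalIdeal o).2 hno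
    -- kernel of `𝒪 → B ⧸ 𝔪` is the maximal ideal
    let _ := Ideal.Quotient.field 𝔪
    have hk : (RingHom.ker ((Ideal.Quotient.mk 𝔪).comp (algebraMap 𝒪 B))).IsMaximal :=
      RingHom.ker_isMaximal_of_surjective _ hres
    have hk' := IsLocalRing.eq_maximalIdeal hk
    rw [← hk', RingHom.mem_ker, RingHom.comp_apply, Ideal.Quotient.eq_zero_iff_mem] at ho𝔪
    have := (hΘ𝔪 _).2 ho𝔪
    rw [AlgHom.commutes] at this
    exact (IsLocalRing.mem_maximalIdeal _).1 this ho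
  refine ⟨R, inferInstance, inferInstance, inferInstance, inferInstance, inferInstance, hloc, Θ,
    ?_, h1, h2⟩
  intro y
  obtain ⟨r, rfl⟩ := IsLocalRing.residue_surjective y
  obtain ⟨b, hb⟩ := h2 1 (Ideal.Quotient.mk _ r)
  rw [Function.comp_apply, Ideal.Quotient.eq, pow_one] at hb
  obtain ⟨o, ho⟩ := hres (Ideal.Quotient.mk 𝔪 b)
  rw [Function.comp_apply, Ideal.Quotient.eq] at ho
  refine ⟨o, ?_⟩
  have h3 := (hΘ𝔪 _).2 ho
  rw [map_sub, AlgHom.commutes] at h3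
  have h4 : algebraMap 𝒪 R o - r ∈ maximalIdeal R := by
    have : algebraMap 𝒪 R o - r = (algebraMap 𝒪 R o - Θ b) + (Θ b - r) := by ring
    rw [this]
    exact add_mem h3 hb
  rw [Function.comp_apply, ← sub_eq_zero, ← map_sub, IsLocalRing.residue_eq_zero_iff]
  exact h4

end Final2

end Fermat.Agent.S53
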