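import Mathlib
import Fermat.Prelude.Thm_IsAdicComplete_of_module_finite
import Fermat.Agent.S53.CompleteRing

/-!
# S53, module (F): a complete noetherian local ring from a tower of ideals

Self-contained commutative algebra (the work is done in `CompleteRing.lean`).
-/

set_option autoImplicit false

namespace Fermat.Agent.S53

open IsLocalRing

theorem exists_complete_ring
    (𝒪 : Type) [CommRing 𝒪] [IsDomain 𝒪] [IsDiscreteValuationRing 𝒪]
    (B : Type) [CommRing B] [Algebra 𝒪 B]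
    (I : ℕ → Ideal B)
    (hmax : (I 1).IsMaximal)
    (hsurj : ∀ b : B, ∃ o : 𝒪, b - algebraMap 𝒪 B o ∈ I 1)
    (hloc : ∀ o ∈ maximalIdeal 𝒪, algebraMap 𝒪 B o ∈ I 1)
    (hanti : ∀ n, 1 ≤ n → I (n + 1) ≤ I n)
    (hpow : ∀ n, 1 ≤ n → (I 1) ^ n ≤ I n)
    (hstep : ∀ n, 1 ≤ n → I n ≤ I (n + 1) ⊔ (I 1) ^ n)
    (t : Finset B) (ht : ∀ b ∈ t, b ∈ I 1)
    (hgen : I 1 ≤ Ideal.span (t : Set B) ⊔ I 2) :
    ∃ (R : Type) (_ : CommRing R) (_ : IsLocalRing R) (_ : IsNoetherianRing R)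
      (_ : IsAdicComplete (maximalIdeal R) R) (_ : Algebra 𝒪 R) (Θ : B →ₐ[𝒪] R),
      (∀ n, 1 ≤ n → (maximalIdeal R ^ n).comap Θ = I n) ∧
      (∀ n, ∀ r : R, ∃ b : B, r - Θ b ∈ maximalIdeal R ^ n) := by
  classical
  let I' : ℕ → Ideal B := fun n => if n = 0 then ⊤ else I n
  have hI'0 : I' 0 = ⊤ := if_pos rfl
  have hI' : ∀ n, 1 ≤ n → I' n = I n := fun n hn => if_neg (by omega)
  let τ : Fin t.card → B := fun i => (t.equivFin.symm i : B)
  have hτrange : Set.range τ = (t : Set B) := by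
    ext b
    constructor
    · rintro ⟨i, rfl⟩
      exact (t.equivFin.symm i).2
    · intro hb
      exact ⟨t.equivFin ⟨b, hb⟩, by simp [τ]⟩
  have := hmax
  obtain ⟨R, i1, i2, i3, i4, i5, Θ, h1, h2⟩ := exists_completeRing (𝒪 := 𝒪) I' (I 1) τ
    (hI' 1 le_rfl)
    (antitone_nat_of_succ_le (fun n => by
      rcases Nat.eq_zero_or_pos n with rfl | hn
      · rw [hI'0]; exact le_top
      · rw [hI' n hn, hI' (n + 1) (by omega)]; exact hanti n hn))
    (fun n => by
      rcases Nat.eq_zero_or_pos n with rfl | hn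
      · rw [hI'0]; exact le_top
      · rw [hI' n hn]; exact hpow n hn)
    (fun n => by
      rcases Nat.eq_zero_or_pos n with rfl | hn
      · simp
      · rw [hI' n hn, hI' (n + 1) (by omega)]; exact hstep n hn)
    (fun y => by
      obtain ⟨b, rfl⟩ := Ideal.Quotient.mk_surjective y
      obtain ⟨o, ho⟩ := hsurj b
      exact ⟨o, by rw [Function.comp_apply, eq_comm, Ideal.Quotient.eq]; exact ho⟩)
    (fun i => ht _ (t.equivFin.symm i).2)
    (by rw [hτrange, hI' 2 (by omega)]; exact hgen)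
  refine ⟨R, i1, i2, i3, i4, i5, Θ, fun n hn => by rw [h1 n, hI' n hn], fun n r => ?_⟩
  obtain ⟨b, hb⟩ := h2 n (Ideal.Quotient.mk _ r)
  refine ⟨b, ?_⟩
  rw [← Ideal.Quotient.eq]
  exact hb.symm

end Fermat.Agent.S53
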