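import Fermat.Agent.S53.Univ3
import Fermat.Agent.S53.Burnside
import Fermat.Agent.S53.RingF

/-!
# S53, module (H): the hypotheses of the tower construction, and the final assembly
-/

set_option autoImplicit false
set_option linter.style.haveILetI false
set_option linter.unusedSectionVars false
set_option linter.overlappingInstances false

noncomputable section

namespace Fermat.Agent.S53

open IsLocalRing GaloisRep

variable {𝒪 : Type} [CommRing 𝒪] [IsLocalRing 𝒪] [Finite (ResidueField 𝒪)]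
variable (ρbar : ResidualGaloisRep (ResidueField 𝒪))
  (b : Module.Basis (Fin 2) (ResidueField 𝒪) ρbar.V)
  (nd : NormData 𝒪 (resMat ρbar b))
  {𝒟 : ∀ ⦃A : Type⦄ [CommRing A] [IsLocalRing A] [Algebra 𝒪 A], GaloisRepAdic A → Prop}
  (h𝒟 : IsDeformationCondition 𝒪 𝒟)

include h𝒟 in
/-- the residual representation itself is a normalized lift of type `𝒟` -/
theorem isNDLift_resMat (hbar : 𝒟 (GaloisRepAdic.ofResidualGaloisRep ρbar)) :
    IsNDLift nd 𝒟 (resMat ρbar b) := by
  have hc : IsCts (resMat ρbar b) := isCts_of_factors (factors_resMat ρbar b)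
  have hx : evalGA (resMat ρbar b) nd.x = !![1, 0; 0, 0] := nd.hx
  refine ⟨hc, (lifts_iff_algHom (AlgHom.id 𝒪 _) _ _).mpr fun σ i j => rfl, ⟨?_, ?_, ?_⟩, ?_⟩
  · rw [hx]; rfl
  · rw [hx]; rfl
  · exact nd.hc0.symm
  · refine h𝒟.of_isEquiv test_residueField
      ⟨{ toLinearEquiv := b.equivFun, map_apply := fun σ x => ?_ }⟩ hbar
    change b.equivFun (ρbar.ρ σ x) = (resMat ρbar b σ).mulVec (b.equivFun x)
    rw [resMat_apply]
    ext i
    have := LinearMap.toMatrix_mulVec_repr b b (ρbar.ρ σ) x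
    exact (congrFun this i).symm

lemma residueField_map_keps :
    ResidueField.map (algebraMap 𝒪 (Keps 𝒪)) =
      (residue (DualNumber (ResidueField 𝒪))).comp
        (algebraMap (ResidueField 𝒪) (DualNumber (ResidueField 𝒪))) := by
  apply Ideal.Quotient.ringHom_ext
  rfl

theorem tangentSet_finite (hfin : TangentFinite 𝒪 ρbar 𝒟) : (tangentSet nd 𝒟).Finite := by
  unfold TangentFinite at hfin
  have hres : ∀ ρ : tangentSet nd 𝒟, (toAdic ρ.1 ρ.2.cts).residual.IsEquiv
      (ρbar.baseChangeAlong ((residue (DualNumber (ResidueField 𝒪))).comp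
        (algebraMap (ResidueField 𝒪) (DualNumber (ResidueField 𝒪))))) := fun ρ => by
    have := residual_isEquiv_of_lifts ρbar b ρ.2.cts ρ.2.lifts
    rw [residueField_map_keps] at this
    exact this
  have : Finite (tangentSet nd 𝒟) := by
    refine @Finite.of_injective _ _ hfin
      (fun ρ => Quotient.mk _ ⟨toAdic ρ.1 ρ.2.cts, ρ.2.type, hres ρ⟩) ?_
    intro ρ ρ' h
    have h1 : (toAdic ρ.1 ρ.2.cts).IsEquiv (toAdic ρ'.1 ρ'.2.cts) := Quotient.exact h
    obtain ⟨Q, hQ⟩ := exists_conj_of_isEquiv h1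
    exact Subtype.ext
      (normalized_unique nd ρ.1 ρ'.1 ρ.2.lifts ρ'.2.lifts ρ.2.norm ρ'.2.norm Q hQ).symm
  exact Set.toFinite _

end Fermat.Agent.S53

end
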