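import Fermat.Agent.S53.Dict

/-!
# S53, module (D0): tools for Artinian test algebras
-/

set_option autoImplicit false
set_option linter.style.haveILetI false
set_option linter.unusedSectionVars false

noncomputable section

namespace Fermat.Agent.S53

open IsLocalRing GaloisRep

variable {𝒪 : Type} [CommRing 𝒪] [IsLocalRing 𝒪]

section General

variable {C : Type} [CommRing C] [IsLocalRing C] [Algebra 𝒪 C] [IsLocalHom (algebraMap 𝒪 C)]

/-- any `𝒪`-algebra hom to the residue field of `𝒪` computes the residue map -/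
lemma map_algHom_eq_residue (π : C →ₐ[𝒪] ResidueField 𝒪) (c : C) :
    ResidueField.map (algebraMap 𝒪 C) (π c) = residue C c := by
  obtain ⟨o, ho⟩ := residue_surjective (π c)
  have h1 : π (c - algebraMap 𝒪 C o) = 0 := by
    rw [map_sub, AlgHom.commutes, ← ho]; exact sub_self _
  have h2 : c - algebraMap 𝒪 C o ∈ maximalIdeal C := by
    rw [mem_maximalIdeal, mem_nonunits_iff]
    intro hu
    have := hu.map π
    rw [h1] at this
    exact not_isUnit_zero this
  rw [← ho, ResidueField.map_residue]
  rw [← residue_eq_zero_iff, map_sub, sub_eq_zero] at h2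
  exact h2.symm

lemma algHom_eq_zero_iff (π : C →ₐ[𝒪] ResidueField 𝒪) (c : C) :
    π c = 0 ↔ c ∈ maximalIdeal C := by
  rw [← residue_eq_zero_iff, ← map_algHom_eq_residue π c,
    map_eq_zero (ResidueField.map (algebraMap 𝒪 C))]

lemma lifts_iff_algHom (π : C →ₐ[𝒪] ResidueField 𝒪) (rb : GQ →* M2 (ResidueField 𝒪))
    (ρ : GQ →* M2 C) : Lifts rb ρ ↔ ∀ σ i j, π (ρ σ i j) = rb σ i j := by
  unfold Lifts
  simp only [← map_algHom_eq_residue π]
  exact ⟨fun h σ i j => (ResidueField.map (algebraMap 𝒪 C)).injective (h σ i j),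
    fun h σ i j => by rw [h]⟩

end General

section Resk

variable {A : Type} [CommRing A] [IsLocalRing A] [Algebra 𝒪 A] [IsLocalHom (algebraMap 𝒪 A)]

/-- the canonical `𝒪`-algebra hom `A → k` when `𝒪 → A / m` is surjective -/
def resk (hs : Function.Surjective (residue A ∘ algebraMap 𝒪 A)) : A →ₐ[𝒪] ResidueField 𝒪 :=
  have hb : Function.Bijective (ResidueField.map (algebraMap 𝒪 A)) :=
    ⟨(ResidueField.map (algebraMap 𝒪 A)).injective, fun x => by
      obtain ⟨o, ho⟩ := hs x
      exact ⟨residue 𝒪 o, by rw [ResidueField.map_residue]; exact ho⟩⟩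
  { ((RingEquiv.ofBijective _ hb).symm : ResidueField A →+* ResidueField 𝒪).comp (residue A) with
    commutes' := fun o => by
      change (RingEquiv.ofBijective _ hb).symm (residue A (algebraMap 𝒪 A o)) = residue 𝒪 o
      rw [RingEquiv.symm_apply_eq]
      exact (ResidueField.map_residue _ _).symm }

end Resk

section Local

/-- `𝒪`-algebra homs into a local algebra with residue field `k` are local. -/
lemma isLocalHom_of_algHom {A A' : Type} [CommRing A] [IsLocalRing A] [Algebra 𝒪 A]
    [CommRing A'] [IsLocalRing A'] [Algebra 𝒪 A']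
    (hs : Function.Surjective (residue A' ∘ algebraMap 𝒪 A')) (f : A →ₐ[𝒪] A') :
    IsLocalHom (f : A →+* A') := by
  constructor
  intro a ha
  by_contra hna
  have hsurj : Function.Surjective ((residue A').comp (f : A →+* A')) := fun x => by
    obtain ⟨o, ho⟩ := hs x
    exact ⟨algebraMap 𝒪 A o, by simpa using ho⟩
  have hmax : (RingHom.ker ((residue A').comp (f : A →+* A'))).IsMaximal :=
    RingHom.ker_isMaximal_of_surjective _ hsurj
  have heq := IsLocalRing.eq_maximalIdeal hmax
  have : a ∈ RingHom.ker ((residue A').comp (f : A →+* A')) := by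
    rw [heq]; exact hna
  rw [RingHom.mem_ker, RingHom.comp_apply, residue_eq_zero_iff] at this
  exact this ha

end Local

section Crit

variable [Finite (ResidueField 𝒪)]

lemma finite_of_test {A : Type} [CommRing A] [IsLocalRing A] [Algebra 𝒪 A]
    (hA : IsArtinianTestAlgebra 𝒪 A) : Finite A := by
  haveI := hA.isLocalHom
  haveI := hA.isArtinian
  haveI : Finite (ResidueField A) :=
    Finite.of_surjective (ResidueField.map (algebraMap 𝒪 A)) fun x => by
      obtain ⟨o, ho⟩ := hA.residue_surjective x
      exact ⟨residue 𝒪 o, by rw [ResidueField.map_residue]; exact ho⟩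
  obtain ⟨n, hn⟩ := (isArtinianRing_iff_isNilpotent_maximalIdeal A).mp hA.isArtinian
  haveI : Finite (A ⧸ (⊥ : Ideal A)) := finite_quotient_iff.mpr ⟨n, by rw [hn]; exact le_refl _⟩
  exact Finite.of_equiv _ (RingEquiv.quotientBot A).toEquiv

omit [Finite (ResidueField 𝒪)] in
/-- criterion for being a (local) Artinian test algebra -/
theorem test_of_algHom (C : Type) [CommRing C] [Algebra 𝒪 C] [Finite C]
    (π : C →ₐ[𝒪] ResidueField 𝒪) (hπ : ∀ c, π c = 0 → IsNilpotent c) :
    ∃ _ : IsLocalRing C, IsArtinianTestAlgebra 𝒪 C := by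
  haveI : Nontrivial C := ⟨⟨0, 1, fun h => by
    have := congrArg π h
    rw [map_zero, map_one] at this
    exact zero_ne_one this⟩⟩
  have hunit : ∀ c, π c ≠ 0 → IsUnit c := by
    intro c hc
    obtain ⟨o, ho⟩ := residue_surjective (π c)
    have ho' : IsUnit o := by
      by_contra hno
      exact hc (by rw [← ho]; exact (residue_eq_zero_iff o).mpr hno)
    have h1 : π (c - algebraMap 𝒪 C o) = 0 := by
      rw [map_sub, AlgHom.commutes, ← ho]; exact sub_self _
    have h2 := (hπ _ h1).isUnit_add_left_of_commute (ho'.map (algebraMap 𝒪 C)) (Commute.all _ _)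
    simpa using h2
  have hloc : IsLocalRing C := IsLocalRing.of_isUnit_or_isUnit_one_sub_self fun c => by
    by_cases hc : π c = 0
    · right; apply hunit; rw [map_sub, map_one, hc, sub_zero]; exact one_ne_zero
    · left; exact hunit c hc
  refine ⟨hloc, ⟨⟨fun o ho => ?_⟩, fun x => ?_, inferInstance⟩⟩
  · by_contra hno
    have := ho.map π
    rw [AlgHom.commutes] at this
    exact this.ne_zero ((residue_eq_zero_iff o).mpr hno)
  · obtain ⟨c, rfl⟩ := residue_surjective x
    obtain ⟨o, ho⟩ := residue_surjective (π c)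
    refine ⟨o, ?_⟩
    have h1 : π (c - algebraMap 𝒪 C o) = 0 := by
      rw [map_sub, AlgHom.commutes, ← ho]; exact sub_self _
    have h2 : c - algebraMap 𝒪 C o ∈ maximalIdeal C := by
      rw [mem_maximalIdeal, mem_nonunits_iff]
      intro hu
      have := hu.map π
      rw [h1] at this
      exact not_isUnit_zero this
    rw [← residue_eq_zero_iff, map_sub, sub_eq_zero] at h2
    exact h2.symm

end Crit

end Fermat.Agent.S53

end
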