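import Mathlib

/-!
# S53, module (G0): general lemmas on complete local rings
-/

set_option autoImplicit false
set_option linter.style.haveILetI false
set_option linter.unusedSectionVars false

noncomputable section

namespace Fermat.Agent.S53

open IsLocalRing

lemma eq_zero_of_forall_mem_pow {A : Type} [CommRing A] (𝔞 : Ideal A) [IsHausdorff 𝔞 A] (x : A)
    (h : ∀ n, x ∈ 𝔞 ^ n) : x = 0 := by
  apply IsHausdorff.haus (I := 𝔞) inferInstance
  intro n
  rw [SModEq.zero, smul_eq_mul, Ideal.mul_top]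
  exact h n

lemma henselianLocalRing_of_complete (A : Type) [CommRing A] [IsLocalRing A]
    [IsAdicComplete (maximalIdeal A) A] : HenselianLocalRing A where
  is_henselian f hf a₀ h₁ h₂ :=
    HenselianRing.is_henselian (I := maximalIdeal A) f hf a₀ h₁ (h₂.map _)

lemma map_pow_mem_of_isLocalHom {R A : Type} [CommRing R] [IsLocalRing R] [CommRing A]
    [IsLocalRing A] (φ : R →+* A) [IsLocalHom φ] (n : ℕ) {r : R} (hr : r ∈ maximalIdeal R ^ n) :
    φ r ∈ maximalIdeal A ^ n := by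
  have hmap : (maximalIdeal R ^ n).map φ ≤ maximalIdeal A ^ n := by
    rw [Ideal.map_pow]
    exact Ideal.pow_right_mono (Ideal.map_le_iff_le_comap.mpr fun a ha =>
      Ideal.mem_comap.mpr (map_nonunit φ a ha)) n
  exact hmap (Ideal.mem_map_of_mem φ hr)

/-- Universal property of a ring `R` in which the image of `B` is dense: a hom `e : B → A` into a
complete ring which is compatible with the filtrations extends to `R`. -/
theorem exists_lift_of_dense {𝒪 B R A : Type} [CommRing 𝒪] [CommRing B] [CommRing R] [CommRing A]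
    [Algebra 𝒪 B] [Algebra 𝒪 R] [Algebra 𝒪 A] (𝔯 : Ideal R) (𝔞 : Ideal A) [IsAdicComplete 𝔞 A]
    (Θ : B →ₐ[𝒪] R) (hdense : ∀ n, ∀ r : R, ∃ b : B, r - Θ b ∈ 𝔯 ^ n)
    (e : B →ₐ[𝒪] A) (he : ∀ n b, Θ b ∈ 𝔯 ^ n → e b ∈ 𝔞 ^ n) :
    ∃ φ : R →ₐ[𝒪] A, φ.comp Θ = e := by
  let s : ∀ n, B →+* R ⧸ 𝔯 ^ n := fun n => (Ideal.Quotient.mk (𝔯 ^ n)).comp (Θ : B →+* R)
  have hs : ∀ n, Function.Surjective (s n) := fun n c => by
    obtain ⟨r, rfl⟩ := Ideal.Quotient.mk_surjective c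
    obtain ⟨b, hb⟩ := hdense n r
    exact ⟨b, (Ideal.Quotient.eq.mpr hb).symm⟩
  let e' : ∀ n, B →+* A ⧸ 𝔞 ^ n := fun n => (Ideal.Quotient.mk (𝔞 ^ n)).comp (e : B →+* A)
  have hker : ∀ n, RingHom.ker (s n) ≤ RingHom.ker (e' n) := fun n b hb => by
    rw [RingHom.mem_ker] at hb ⊢
    exact Ideal.Quotient.eq_zero_iff_mem.mpr (he n b (Ideal.Quotient.eq_zero_iff_mem.mp hb))
  let g : ∀ n, R ⧸ 𝔯 ^ n →+* A ⧸ 𝔞 ^ n := fun n => RingHom.liftOfSurjective (s n) (hs n) ⟨e' n, hker n⟩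
  have hg : ∀ n b, g n (s n b) = e' n b := fun n b =>
    RingHom.liftOfSurjective_comp_apply (s n) (hs n) ⟨e' n, hker n⟩ b
  let f : ∀ n, R →+* A ⧸ 𝔞 ^ n := fun n => (g n).comp (Ideal.Quotient.mk (𝔯 ^ n))
  have hf' : ∀ n r b, r - Θ b ∈ 𝔯 ^ n → f n r = e' n b := fun n r b h => by
    rw [← hg n b]
    change g n (Ideal.Quotient.mk _ r) = g n (Ideal.Quotient.mk _ (Θ b))
    rw [Ideal.Quotient.eq.mpr h]
  have hf : ∀ {m n : ℕ} (hle : m ≤ n), (Ideal.Quotient.factorPow 𝔞 hle).comp (f n) = f m := by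
    intro m n hle
    ext r
    obtain ⟨b, hb⟩ := hdense n r
    rw [RingHom.comp_apply, hf' n r b hb, hf' m r b (Ideal.pow_le_pow_right hle hb)]
    rfl
  let φ : R →+* A := IsAdicComplete.liftRingHom 𝔞 f hf
  have hφ : ∀ b, φ (Θ b) = e b := fun b => by
    rw [← sub_eq_zero]
    apply eq_zero_of_forall_mem_pow 𝔞
    intro n
    rw [← Ideal.Quotient.eq_zero_iff_mem, map_sub, sub_eq_zero,
      IsAdicComplete.mk_liftRingHom 𝔞 f hf n, hf' n (Θ b) b (by simp)]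
    rfl
  refine ⟨{ φ with commutes' := fun o => ?_ }, ?_⟩
  · change φ (algebraMap 𝒪 R o) = algebraMap 𝒪 A o
    rw [← Θ.commutes, hφ, e.commutes]
  · ext b
    exact hφ b

end Fermat.Agent.S53

end
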