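import Mathlib
import Fermat.Prelude.Def_GaloisRep_DeformationRingData
import Fermat.Prelude.Def_GaloisRep_DeformationCondition

/-!
# S53: basic definitions (matrix representations, normalisation data)
-/

set_option autoImplicit false

noncomputable section

namespace Fermat.Agent.S53

open IsLocalRing

/-- The absolute Galois group of `ℚ`. -/
abbrev GQ : Type := AlgebraicClosure ℚ ≃ₐ[ℚ] AlgebraicClosure ℚ

/-- `2 × 2` matrices. -/
abbrev M2 (A : Type) : Type := Matrix (Fin 2) (Fin 2) A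

section Cts

variable {A : Type} [CommRing A] [IsLocalRing A]

/-- adic continuity of a matrix representation -/
def IsCts (ρ : GQ →* M2 A) : Prop :=
  ∀ n : ℕ, ∃ L : IntermediateField ℚ (AlgebraicClosure ℚ), FiniteDimensional ℚ L ∧
    ∀ σ : GQ, (∀ x ∈ L, σ x = x) → ∀ i j, (ρ σ - 1) i j ∈ maximalIdeal A ^ n

end Cts

/-- push a matrix representation forward along a ring hom -/
def mapRep {A B : Type} [CommRing A] [CommRing B] (φ : A →+* B) (ρ : GQ →* M2 A) : GQ →* M2 B :=
  ((φ.mapMatrix : M2 A →+* M2 B) : M2 A →* M2 B).comp ρ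

@[simp] lemma mapRep_apply {A B : Type} [CommRing A] [CommRing B] (φ : A →+* B) (ρ : GQ →* M2 A)
    (σ : GQ) (i j : Fin 2) : mapRep φ ρ σ i j = φ (ρ σ i j) := rfl

/-- conjugate a matrix representation by an invertible matrix: `σ ↦ Q * ρ σ * Q⁻¹` -/
def conjRep {A : Type} [CommRing A] (Q : (M2 A)ˣ) (ρ : GQ →* M2 A) : GQ →* M2 A where
  toFun σ := (Q : M2 A) * ρ σ * ((Q⁻¹ : (M2 A)ˣ) : M2 A)
  map_one' := by simp
  map_mul' σ τ := by
    simp only [map_mul]
    calc (Q : M2 A) * (ρ σ * ρ τ) * ((Q⁻¹ : (M2 A)ˣ) : M2 A)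
        = (Q : M2 A) * ρ σ * (1 : M2 A) * ρ τ * ((Q⁻¹ : (M2 A)ˣ) : M2 A) := by
          simp [mul_assoc]
      _ = _ := by
          rw [← Units.inv_mul Q]; simp [mul_assoc]

lemma conjRep_apply {A : Type} [CommRing A] (Q : (M2 A)ˣ) (ρ : GQ →* M2 A) (σ : GQ) :
    conjRep Q ρ σ = (Q : M2 A) * ρ σ * ((Q⁻¹ : (M2 A)ˣ) : M2 A) := rfl

section Norm

variable (𝒪 : Type) [CommRing 𝒪] [IsLocalRing 𝒪]

/-- Normalisation data for a residual matrix representation `rb`. -/
structure NormData (rb : GQ →* M2 (ResidueField 𝒪)) where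
  /-- an element of the group algebra whose image under `rb` is `diag(1,0)` -/
  x : GQ →₀ 𝒪
  hx : (x.sum fun g c => (residue 𝒪 c) • rb g) = !![1, 0; 0, 0]
  /-- a group element with non-zero lower-left entry -/
  g0 : GQ
  c0 : 𝒪
  hc0 : residue 𝒪 c0 = rb g0 1 0
  hc0' : rb g0 1 0 ≠ 0

variable {𝒪}

/-- evaluate a matrix representation on an element of the group algebra `𝒪[G]` -/
def evalGA {A : Type} [CommRing A] [Algebra 𝒪 A] (ρ : GQ →* M2 A) (x : GQ →₀ 𝒪) : M2 A :=
  x.sum fun g c => (algebraMap 𝒪 A c) • ρ g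

/-- `ρ` reduces to `rb` modulo the maximal ideal. -/
def Lifts (rb : GQ →* M2 (ResidueField 𝒪)) {A : Type} [CommRing A] [IsLocalRing A] [Algebra 𝒪 A]
    [IsLocalHom (algebraMap 𝒪 A)] (ρ : GQ →* M2 A) : Prop :=
  ∀ σ i j, residue A (ρ σ i j) = ResidueField.map (algebraMap 𝒪 A) (rb σ i j)

/-- `ρ` is in normal form with respect to the normalisation data. -/
def IsNormalized {rb : GQ →* M2 (ResidueField 𝒪)} (nd : NormData 𝒪 rb)
    {A : Type} [CommRing A] [Algebra 𝒪 A] (ρ : GQ →* M2 A) : Prop :=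
  evalGA ρ nd.x 0 1 = 0 ∧ evalGA ρ nd.x 1 0 = 0 ∧ ρ nd.g0 1 0 = algebraMap 𝒪 A nd.c0

end Norm

section Residual

/-- matrix form of a residual representation in a basis -/
def resMat {k : Type} [Field k] (ρ : ResidualGaloisRep k) (b : Module.Basis (Fin 2) k ρ.V) :
    GQ →* M2 k :=
  ((LinearMap.toMatrixAlgEquiv b : Module.End k ρ.V ≃ₐ[k] M2 k) : Module.End k ρ.V →* M2 k).comp ρ.ρ

lemma resMat_apply {k : Type} [Field k] (ρ : ResidualGaloisRep k) (b : Module.Basis (Fin 2) k ρ.V)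
    (σ : GQ) : resMat ρ b σ = LinearMap.toMatrix b b (ρ.ρ σ) := rfl

end Residual

section Keps

variable (𝒪 : Type) [CommRing 𝒪] [IsLocalRing 𝒪]

/-- The dual numbers over the residue field, as a type synonym carrying the `𝒪`-algebra
structure used in `GaloisRep.TangentFinite`. -/
def Keps : Type := DualNumber (ResidueField 𝒪)

instance : CommRing (Keps 𝒪) := inferInstanceAs (CommRing (DualNumber (ResidueField 𝒪)))

instance : IsLocalRing (Keps 𝒪) := inferInstanceAs (IsLocalRing (DualNumber (ResidueField 𝒪)))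

instance : Algebra 𝒪 (Keps 𝒪) :=
  ((algebraMap (ResidueField 𝒪) (DualNumber (ResidueField 𝒪))).comp
      (algebraMap 𝒪 (ResidueField 𝒪))).toAlgebra

end Keps

end Fermat.Agent.S53

end
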