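import Fermat.Agent.S53.Defs

/-!
# S53, module (A): dictionary between matrix representations and `GaloisRepAdic`
-/

set_option autoImplicit false

noncomputable section

namespace Fermat.Agent.S53

open IsLocalRing
open scoped TensorProduct

section Basic

variable {A : Type} [CommRing A]

/-- a vector with coordinates in `I` lies in `I • ⊤` -/
lemma mem_smul_top_of_forall_mem (I : Ideal A) (w : Fin 2 → A) (hw : ∀ i, w i ∈ I) :
    w ∈ I • (⊤ : Submodule A (Fin 2 → A)) := by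
  have : w = w 0 • (Pi.single 0 1 : Fin 2 → A) + w 1 • (Pi.single 1 1 : Fin 2 → A) := by
    ext i; fin_cases i <;> simp
  rw [this]
  exact Submodule.add_mem _ (Submodule.smul_mem_smul (hw 0) Submodule.mem_top)
    (Submodule.smul_mem_smul (hw 1) Submodule.mem_top)

lemma repr_mem_of_mem_smul_top {V : Type} [AddCommGroup V] [Module A V]
    (b : Module.Basis (Fin 2) A V) (I : Ideal A) (x : V) (hx : x ∈ I • (⊤ : Submodule A V))
    (i : Fin 2) : b.repr x i ∈ I := by
  refine Submodule.smul_induction_on (p := fun x => b.repr x i ∈ I) hx ?_ ?_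
  · intro a ha w _
    simp only [map_smul, Finsupp.smul_apply, smul_eq_mul]
    exact I.mul_mem_right _ ha
  · intro x y hx hy
    simp only [map_add, Finsupp.add_apply]
    exact I.add_mem hx hy

/-- the monoid hom `M2 A →* End (Fin 2 → A)` -/
def toEnd : M2 A →* Module.End A (Fin 2 → A) :=
  ((Matrix.toLinAlgEquiv' : M2 A ≃ₐ[A] Module.End A (Fin 2 → A)) : M2 A →* _)

lemma toEnd_apply (M : M2 A) (v : Fin 2 → A) : toEnd M v = M.mulVec v := rfl

end Basic

section Adic

variable {A : Type} [CommRing A] [IsLocalRing A]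

/-- the `GaloisRepAdic` attached to a continuous matrix representation -/
def toAdic (ρ : GQ →* M2 A) (h : IsCts ρ) : GaloisRepAdic A where
  V := Fin 2 → A
  finrank_eq := by simp
  ρ := toEnd.comp ρ
  isAdicContinuous := by
    intro n
    obtain ⟨L, hL, h1⟩ := h n
    refine ⟨L, hL, fun σ hσ v => ?_⟩
    apply mem_smul_top_of_forall_mem
    intro i
    have : (toEnd.comp ρ) σ v - v = (ρ σ - 1).mulVec v := by
      rw [Matrix.sub_mulVec, Matrix.one_mulVec]; rfl
    rw [this, Matrix.mulVec, dotProduct]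
    exact Ideal.sum_mem _ fun j _ => Ideal.mul_mem_right _ _ (h1 σ hσ i j)

@[simp] lemma toAdic_ρ_apply (ρ : GQ →* M2 A) (h : IsCts ρ) (σ : GQ) (v : Fin 2 → A) :
    (toAdic ρ h).ρ σ v = (ρ σ).mulVec v := rfl

/-- every `GaloisRepAdic` is equivalent to a matrix representation -/
theorem exists_toAdic (r : GaloisRepAdic A) :
    ∃ (ρ : GQ →* M2 A) (h : IsCts ρ), r.IsEquiv (toAdic ρ h) := by
  classical
  let b : Module.Basis (Fin 2) A r.V := Module.finBasisOfFinrankEq A r.V r.finrank_eq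
  let ρ : GQ →* M2 A :=
    ((LinearMap.toMatrixAlgEquiv b : Module.End A r.V ≃ₐ[A] M2 A) : Module.End A r.V →* M2 A).comp r.ρ
  have hρ : ∀ σ, ρ σ = LinearMap.toMatrix b b (r.ρ σ) := fun σ => rfl
  have h : IsCts ρ := by
    intro n
    obtain ⟨L, hL, h1⟩ := r.isAdicContinuous n
    refine ⟨L, hL, fun σ hσ i j => ?_⟩
    have := repr_mem_of_mem_smul_top b _ _ (h1 σ hσ (b j)) i
    rw [Matrix.sub_apply, hρ, LinearMap.toMatrix_apply, Matrix.one_apply]
    rw [map_sub, Finsupp.sub_apply, Module.Basis.repr_self, Finsupp.single_apply] at this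
    convert this using 2
    simp [eq_comm]
  refine ⟨ρ, h, ⟨{ toLinearEquiv := b.equivFun, map_apply := fun σ x => ?_ }⟩⟩
  change b.equivFun (r.ρ σ x) = (ρ σ).mulVec (b.equivFun x)
  rw [hρ]
  ext i
  have := LinearMap.toMatrix_mulVec_repr b b (r.ρ σ) x
  exact (congrFun this i).symm

end Adic

section BaseChange

/-- The standard identification `K ⊗[A] (Fin 2 → A) ≃ (Fin 2 → K)` intertwines base change of
matrices. -/
lemma piScalarRight_baseChange {A K : Type} [CommRing A] [CommRing K] [Algebra A K] (M : M2 A)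
    (x : K ⊗[A] (Fin 2 → A)) :
    TensorProduct.piScalarRight A K K (Fin 2) ((toEnd M).baseChange K x) =
      (M.map (algebraMap A K)).mulVec (TensorProduct.piScalarRight A K K (Fin 2) x) := by
  induction x using TensorProduct.induction_on with
  | zero => simp
  | tmul c v =>
    rw [LinearMap.baseChange_tmul, TensorProduct.piScalarRight_apply,
      TensorProduct.piScalarRightHom_tmul, TensorProduct.piScalarRight_apply,
      TensorProduct.piScalarRightHom_tmul]
    ext i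
    simp only [toEnd_apply, Matrix.mulVec, dotProduct, Fin.sum_univ_two, Matrix.map_apply,
      Algebra.smul_def, map_add, map_mul]
    ring
  | add x y hx hy => simp only [map_add, hx, hy, Matrix.mulVec_add]

variable {A B : Type} [CommRing A] [IsLocalRing A] [CommRing B] [IsLocalRing B]

lemma IsCts.mapRep {ρ : GQ →* M2 A} (h : IsCts ρ) (φ : A →+* B) (hφ : IsLocalHom φ) :
    IsCts (mapRep φ ρ) := by
  intro n
  obtain ⟨L, hL, h1⟩ := h n
  refine ⟨L, hL, fun σ hσ i j => ?_⟩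
  have hmap : (maximalIdeal A ^ n).map φ ≤ maximalIdeal B ^ n := by
    rw [Ideal.map_pow]
    exact Ideal.pow_right_mono (Ideal.map_le_iff_le_comap.mpr fun a ha =>
      Ideal.mem_comap.mpr (haveI := hφ; map_nonunit φ a ha)) n
  have h2 := hmap (Ideal.mem_map_of_mem φ (h1 σ hσ i j))
  have h3 : (Fermat.Agent.S53.mapRep φ ρ σ - 1) i j = φ ((ρ σ - 1) i j) := by
    simp only [Matrix.sub_apply, mapRep_apply, map_sub, Matrix.one_apply]
    split_ifs <;> simp
  rw [h3]; exact h2

/-- base change of `toAdic` is `toAdic` of the mapped representation -/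
theorem toAdic_baseChangeAlong (ρ : GQ →* M2 A) (h : IsCts ρ) (φ : A →+* B) (hφ : IsLocalHom φ) :
    ((toAdic ρ h).baseChangeAlong φ hφ).IsEquiv (toAdic (mapRep φ ρ) (h.mapRep φ hφ)) := by
  let _ : Algebra A B := φ.toAlgebra
  refine ⟨{ toLinearEquiv := TensorProduct.piScalarRight A B B (Fin 2), map_apply := fun σ x => ?_ }⟩
  exact piScalarRight_baseChange (ρ σ) x

end BaseChange

section Conj

variable {A : Type} [CommRing A] [IsLocalRing A]

lemma IsCts.conjRep {ρ : GQ →* M2 A} (h : IsCts ρ) (Q : (M2 A)ˣ) : IsCts (conjRep Q ρ) := by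
  intro n
  obtain ⟨L, hL, h1⟩ := h n
  refine ⟨L, hL, fun σ hσ i j => ?_⟩
  have h3 : Fermat.Agent.S53.conjRep Q ρ σ - 1
      = (Q : M2 A) * (ρ σ - 1) * ((Q⁻¹ : (M2 A)ˣ) : M2 A) := by
    rw [conjRep_apply, mul_sub, sub_mul, mul_one, Units.mul_inv]
  rw [h3, Matrix.mul_apply]
  refine Ideal.sum_mem _ fun l _ => Ideal.mul_mem_right _ _ ?_
  rw [Matrix.mul_apply]
  exact Ideal.sum_mem _ fun l' _ => Ideal.mul_mem_left _ _ (h1 σ hσ l' l)

theorem toAdic_isEquiv_conjRep (ρ : GQ →* M2 A) (h : IsCts ρ) (Q : (M2 A)ˣ) :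
    (toAdic ρ h).IsEquiv (toAdic (conjRep Q ρ) (h.conjRep Q)) := by
  have h1 : toEnd (Q : M2 A) ∘ₗ toEnd ((Q⁻¹ : (M2 A)ˣ) : M2 A) = LinearMap.id := by
    change toEnd (Q : M2 A) * toEnd ((Q⁻¹ : (M2 A)ˣ) : M2 A) = 1
    rw [← map_mul, Units.mul_inv, map_one]
  have h2 : toEnd ((Q⁻¹ : (M2 A)ˣ) : M2 A) ∘ₗ toEnd (Q : M2 A) = LinearMap.id := by
    change toEnd ((Q⁻¹ : (M2 A)ˣ) : M2 A) * toEnd (Q : M2 A) = 1
    rw [← map_mul, Units.inv_mul, map_one]
  let f : (Fin 2 → A) ≃ₗ[A] (Fin 2 → A) := LinearEquiv.ofLinearMap (toEnd (Q : M2 A))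
      (toEnd ((Q⁻¹ : (M2 A)ˣ) : M2 A)) h1 h2
  have key : ∀ (σ : GQ) (x : Fin 2 → A), (Q : M2 A).mulVec ((ρ σ).mulVec x)
      = (Fermat.Agent.S53.conjRep Q ρ σ).mulVec ((Q : M2 A).mulVec x) := fun σ x => by
    rw [conjRep_apply, Matrix.mulVec_mulVec, Matrix.mulVec_mulVec, mul_assoc, mul_assoc,
      Units.inv_mul, mul_one]
  exact ⟨{ toLinearEquiv := f, map_apply := fun σ x => key σ x }⟩

theorem exists_conj_of_isEquiv {ρ ρ' : GQ →* M2 A} {h : IsCts ρ} {h' : IsCts ρ'}
    (e : (toAdic ρ h).IsEquiv (toAdic ρ' h')) : ∃ Q : (M2 A)ˣ, ρ' = conjRep Q ρ := by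
  obtain ⟨e⟩ := e
  let f : (Fin 2 → A) ≃ₗ[A] (Fin 2 → A) := e.toLinearEquiv
  have hf : ∀ σ x, f ((ρ σ).mulVec x) = (ρ' σ).mulVec (f x) := e.map_apply
  let Q : (M2 A)ˣ :=
    { val := LinearMap.toMatrix' (f : (Fin 2 → A) →ₗ[A] (Fin 2 → A))
      inv := LinearMap.toMatrix' (f.symm : (Fin 2 → A) →ₗ[A] (Fin 2 → A))
      val_inv := by rw [← LinearMap.toMatrix'_comp]; simp
      inv_val := by rw [← LinearMap.toMatrix'_comp]; simp }
  refine ⟨Q, ?_⟩
  ext1 σ
  rw [conjRep_apply]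
  have h1 : (Q : M2 A) * ρ σ = ρ' σ * (Q : M2 A) := by
    apply Matrix.toLin'.injective
    refine LinearMap.ext fun x => ?_
    rw [Matrix.toLin'_mul, Matrix.toLin'_mul]
    simp only [LinearMap.comp_apply, Matrix.toLin'_apply]
    have h2 : ∀ y, (Q : M2 A).mulVec y = f y := fun y => by
      change (LinearMap.toMatrix' (f : (Fin 2 → A) →ₗ[A] (Fin 2 → A))).mulVec y = f y
      rw [← Matrix.toLin'_apply, Matrix.toLin'_toMatrix']; rfl
    rw [h2, h2, hf]
  rw [h1, mul_assoc, Units.mul_inv, mul_one]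

end Conj

section Res

variable {K : Type} [Field K]

/-- the `ResidualGaloisRep` attached to a matrix representation over a field -/
def toRes (r : GQ →* M2 K) (h : GaloisFactorsThroughFiniteLevel r) : ResidualGaloisRep K where
  V := Fin 2 → K
  finrank_eq := by simp
  ρ := toEnd.comp r
  factorsThroughFiniteLevel := by
    obtain ⟨L, hL, h1⟩ := h
    exact ⟨L, hL, fun σ hσ => by rw [MonoidHom.comp_apply, h1 σ hσ, map_one]⟩

lemma factors_resMat (ρ : ResidualGaloisRep K) (b : Module.Basis (Fin 2) K ρ.V) :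
    GaloisFactorsThroughFiniteLevel (resMat ρ b) := by
  obtain ⟨L, hL, h1⟩ := ρ.factorsThroughFiniteLevel
  exact ⟨L, hL, fun σ hσ => by rw [resMat, MonoidHom.comp_apply, h1 σ hσ, map_one]⟩

theorem isEquiv_toRes_resMat (ρ : ResidualGaloisRep K) (b : Module.Basis (Fin 2) K ρ.V) :
    ρ.IsEquiv (toRes (resMat ρ b) (factors_resMat ρ b)) := by
  refine ⟨{ toLinearEquiv := b.equivFun, map_apply := fun σ x => ?_ }⟩
  change b.equivFun (ρ.ρ σ x) = (resMat ρ b σ).mulVec (b.equivFun x)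
  rw [resMat_apply]
  ext i
  have := LinearMap.toMatrix_mulVec_repr b b (ρ.ρ σ) x
  exact (congrFun this i).symm

lemma factors_mapRep {K' : Type} [Field K'] {r : GQ →* M2 K}
    (h : GaloisFactorsThroughFiniteLevel r) (ι : K →+* K') :
    GaloisFactorsThroughFiniteLevel (mapRep ι r) := by
  obtain ⟨L, hL, h1⟩ := h
  exact ⟨L, hL, fun σ hσ => by rw [mapRep, MonoidHom.comp_apply, h1 σ hσ, map_one]⟩

theorem toRes_baseChangeAlong {K' : Type} [Field K'] (r : GQ →* M2 K)
    (h : GaloisFactorsThroughFiniteLevel r) (ι : K →+* K') :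
    ((toRes r h).baseChangeAlong ι).IsEquiv (toRes (mapRep ι r) (factors_mapRep h ι)) := by
  let _ : Algebra K K' := ι.toAlgebra
  refine ⟨{ toLinearEquiv := TensorProduct.piScalarRight K K' K' (Fin 2),
            map_apply := fun σ x => ?_ }⟩
  exact piScalarRight_baseChange (r σ) x

theorem toRes_isEquiv_of_eq {r r' : GQ →* M2 K} {h : GaloisFactorsThroughFiniteLevel r}
    {h' : GaloisFactorsThroughFiniteLevel r'} (e : r = r') : (toRes r h).IsEquiv (toRes r' h') := by
  subst e; exact ⟨ResidualGaloisRep.Equiv.refl _⟩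

theorem exists_conj_of_isEquiv_toRes {r r' : GQ →* M2 K} {h : GaloisFactorsThroughFiniteLevel r}
    {h' : GaloisFactorsThroughFiniteLevel r'}
    (e : (toRes r h).IsEquiv (toRes r' h')) : ∃ Q : (M2 K)ˣ, r' = conjRep Q r := by
  obtain ⟨e⟩ := e
  let f : (Fin 2 → K) ≃ₗ[K] (Fin 2 → K) := e.toLinearEquiv
  have hf : ∀ σ x, f ((r σ).mulVec x) = (r' σ).mulVec (f x) := e.map_apply
  let Q : (M2 K)ˣ :=
    { val := LinearMap.toMatrix' (f : (Fin 2 → K) →ₗ[K] (Fin 2 → K))
      inv := LinearMap.toMatrix' (f.symm : (Fin 2 → K) →ₗ[K] (Fin 2 → K))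
      val_inv := by rw [← LinearMap.toMatrix'_comp]; simp
      inv_val := by rw [← LinearMap.toMatrix'_comp]; simp }
  refine ⟨Q, ?_⟩
  ext1 σ
  rw [conjRep_apply]
  have h1 : (Q : M2 K) * r σ = r' σ * (Q : M2 K) := by
    apply Matrix.toLin'.injective
    refine LinearMap.ext fun x => ?_
    rw [Matrix.toLin'_mul, Matrix.toLin'_mul]
    simp only [LinearMap.comp_apply, Matrix.toLin'_apply]
    have h2 : ∀ y, (Q : M2 K).mulVec y = f y := fun y => by
      change (LinearMap.toMatrix' (f : (Fin 2 → K) →ₗ[K] (Fin 2 → K))).mulVec y = f y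
      rw [← Matrix.toLin'_apply, Matrix.toLin'_toMatrix']; rfl
    rw [h2, h2, hf]
  rw [h1, mul_assoc, Units.mul_inv, mul_one]

end Res

section Residual

variable {A : Type} [CommRing A] [IsLocalRing A]

lemma factors_residue {ρ : GQ →* M2 A} (h : IsCts ρ) :
    GaloisFactorsThroughFiniteLevel (mapRep (residue A) ρ) := by
  obtain ⟨L, hL, h1⟩ := h 1
  refine ⟨L, hL, fun σ hσ => ?_⟩
  ext i j
  have := h1 σ hσ i j
  rw [pow_one, ← residue_eq_zero_iff, Matrix.sub_apply, map_sub, sub_eq_zero] at this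
  rw [mapRep_apply, this, Matrix.one_apply, Matrix.one_apply]
  split_ifs <;> simp

theorem toAdic_residual (ρ : GQ →* M2 A) (h : IsCts ρ) :
    (toAdic ρ h).residual.IsEquiv (toRes (mapRep (residue A) ρ) (factors_residue h)) := by
  refine ⟨{ toLinearEquiv := TensorProduct.piScalarRight A (ResidueField A) (ResidueField A) (Fin 2),
            map_apply := fun σ x => ?_ }⟩
  exact piScalarRight_baseChange (ρ σ) x

end Residual

section LiftsSec

variable {𝒪 : Type} [CommRing 𝒪] [IsLocalRing 𝒪]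
variable {A : Type} [CommRing A] [IsLocalRing A] [Algebra 𝒪 A] [IsLocalHom (algebraMap 𝒪 A)]

lemma lifts_iff (rb : GQ →* M2 (ResidueField 𝒪)) (ρ : GQ →* M2 A) :
    Lifts rb ρ ↔ mapRep (residue A) ρ = mapRep (ResidueField.map (algebraMap 𝒪 A)) rb := by
  constructor
  · intro h; ext σ i j; exact h σ i j
  · intro h σ i j
    have := congrFun (congrFun (DFunLike.congr_fun h σ) i) j
    exact this

/-- every invertible matrix over the residue field lifts to an invertible matrix -/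
lemma exists_unit_lift (Qb : (M2 (ResidueField A))ˣ) :
    ∃ Q : (M2 A)ˣ, Units.map ((residue A).mapMatrix : M2 A →+* M2 (ResidueField A)).toMonoidHom Q
      = Qb := by
  choose f hf using fun i j => residue_surjective ((Qb : M2 (ResidueField A)) i j)
  let Q0 : M2 A := Matrix.of f
  have hQ0 : (residue A).mapMatrix Q0 = (Qb : M2 (ResidueField A)) := by
    ext i j; exact hf i j
  have hdet : IsUnit Q0.det := by
    have h1 : residue A Q0.det = (Qb : M2 (ResidueField A)).det := by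
      rw [RingHom.map_det, hQ0]
    have h2 : IsUnit (Qb : M2 (ResidueField A)).det :=
      (Matrix.isUnit_iff_isUnit_det _).mp Qb.isUnit
    rw [← h1] at h2
    exact isUnit_of_map_unit (residue A) _ h2
  obtain ⟨Q, hQ⟩ := (Matrix.isUnit_iff_isUnit_det _).mpr hdet
  refine ⟨Q, Units.ext ?_⟩
  rw [Units.coe_map, hQ]
  exact hQ0

lemma mapRep_conjRep {A B : Type} [CommRing A] [CommRing B] (φ : A →+* B) (Q : (M2 A)ˣ)
    (ρ : GQ →* M2 A) :
    mapRep φ (conjRep Q ρ) =
      conjRep (Units.map (φ.mapMatrix : M2 A →+* M2 B).toMonoidHom Q) (mapRep φ ρ) := by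
  ext1 σ
  rw [conjRep_apply, ← map_inv]
  change φ.mapMatrix (conjRep Q ρ σ) = φ.mapMatrix Q * φ.mapMatrix (ρ σ) * φ.mapMatrix _
  rw [conjRep_apply, map_mul, map_mul]

variable (ρbar : ResidualGaloisRep (ResidueField 𝒪))
  (b : Module.Basis (Fin 2) (ResidueField 𝒪) ρbar.V)

/-- the target of the residual condition, in matrix form -/
theorem baseChangeAlong_isEquiv_toRes :
    (ρbar.baseChangeAlong (ResidueField.map (algebraMap 𝒪 A))).IsEquiv
      (toRes (mapRep (ResidueField.map (algebraMap 𝒪 A)) (resMat ρbar b))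
        (factors_mapRep (factors_resMat ρbar b) _)) := by
  obtain ⟨e⟩ := isEquiv_toRes_resMat ρbar b
  obtain ⟨e'⟩ := toRes_baseChangeAlong (resMat ρbar b) (factors_resMat ρbar b)
    (ResidueField.map (algebraMap 𝒪 A))
  exact ⟨(e.baseChangeAlong _).trans e'⟩

theorem residual_isEquiv_of_lifts {ρ : GQ →* M2 A} (h : IsCts ρ) (hl : Lifts (resMat ρbar b) ρ) :
    (toAdic ρ h).residual.IsEquiv
      (ρbar.baseChangeAlong (ResidueField.map (algebraMap 𝒪 A))) := by
  obtain ⟨e1⟩ := toAdic_residual ρ h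
  obtain ⟨e2⟩ := baseChangeAlong_isEquiv_toRes (A := A) ρbar b
  obtain ⟨e3⟩ := toRes_isEquiv_of_eq (h := factors_residue h)
    (h' := factors_mapRep (factors_resMat ρbar b) _) ((lifts_iff _ _).mp hl)
  exact ⟨(e1.trans e3).trans e2.symm⟩

theorem exists_conj_lifts {ρ : GQ →* M2 A} (h : IsCts ρ)
    (he : (toAdic ρ h).residual.IsEquiv
      (ρbar.baseChangeAlong (ResidueField.map (algebraMap 𝒪 A)))) :
    ∃ Q : (M2 A)ˣ, Lifts (resMat ρbar b) (conjRep Q ρ) := by
  obtain ⟨e1⟩ := toAdic_residual ρ h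
  obtain ⟨e2⟩ := baseChangeAlong_isEquiv_toRes (A := A) ρbar b
  obtain ⟨e⟩ := he
  obtain ⟨Qb, hQb⟩ := exists_conj_of_isEquiv_toRes ⟨(e1.symm.trans e).trans e2⟩
  obtain ⟨Q, hQ⟩ := exists_unit_lift Qb
  refine ⟨Q, ?_⟩
  rw [lifts_iff, mapRep_conjRep, hQ, hQb]

end LiftsSec

end Fermat.Agent.S53

end
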