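import Fermat.Agent.S53.Lift

/-!
# S53, module (D2): the big polynomial ring, objects, and Good ideals
-/

set_option autoImplicit false
set_option linter.style.haveILetI false
set_option linter.unusedSectionVars false

noncomputable section

namespace Fermat.Agent.S53

open IsLocalRing GaloisRep

variable {𝒪 : Type} [CommRing 𝒪] [IsLocalRing 𝒪]
variable {rb : GQ →* M2 (ResidueField 𝒪)}

variable (𝒪) in
/-- the big polynomial ring on the matrix entries -/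
abbrev BigB : Type := MvPolynomial (GQ × Fin 2 × Fin 2) 𝒪

section EvalHom

variable {A A' : Type} [CommRing A] [Algebra 𝒪 A] [CommRing A'] [Algebra 𝒪 A']

/-- evaluation of the big polynomial ring at a matrix representation -/
def evalHom (ρ : GQ →* M2 A) : BigB 𝒪 →ₐ[𝒪] A :=
  MvPolynomial.aeval fun p : GQ × Fin 2 × Fin 2 => ρ p.1 p.2.1 p.2.2

@[simp] lemma evalHom_X (ρ : GQ →* M2 A) (σ : GQ) (i j : Fin 2) :
    evalHom (𝒪 := 𝒪) ρ (MvPolynomial.X (σ, i, j)) = ρ σ i j := by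
  simp [evalHom]

lemma comp_evalHom (f : A →ₐ[𝒪] A') (ρ : GQ →* M2 A) :
    f.comp (evalHom ρ) = evalHom (mapRep (f : A →+* A') ρ) := by
  apply MvPolynomial.algHom_ext
  rintro ⟨σ, i, j⟩
  simp

lemma evalHom_mapRep_apply (f : A →ₐ[𝒪] A') (ρ : GQ →* M2 A) (b : BigB 𝒪) :
    evalHom (mapRep (f : A →+* A') ρ) b = f (evalHom ρ b) := by
  rw [← comp_evalHom]; rfl

/-- two algebra homs agreeing on the entries of `ρ` agree on the range of `evalHom ρ` -/
lemma mapRep_injective_of_surjective {ρ : GQ →* M2 A} (hs : Function.Surjective (evalHom (𝒪 := 𝒪) ρ))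
    {f g : A →ₐ[𝒪] A'} (h : mapRep (f : A →+* A') ρ = mapRep (g : A →+* A') ρ) : f = g := by
  ext a
  obtain ⟨b, rfl⟩ := hs a
  rw [← evalHom_mapRep_apply, ← evalHom_mapRep_apply, h]

/-- corestriction of a matrix representation to a subalgebra containing its entries -/
def corestrict (C : Subalgebra 𝒪 A) (ρ : GQ →* M2 A) (h : ∀ σ i j, ρ σ i j ∈ C) : GQ →* M2 C where
  toFun σ := Matrix.of fun i j => ⟨ρ σ i j, h σ i j⟩
  map_one' := by
    ext i j
    simp only [Matrix.of_apply, map_one, Matrix.one_apply]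
    split_ifs <;> simp
  map_mul' σ τ := by
    ext i j
    simp only [Matrix.of_apply, map_mul, Matrix.mul_apply, Fin.sum_univ_two]
    simp

lemma mapRep_corestrict (C : Subalgebra 𝒪 A) (ρ : GQ →* M2 A) (h : ∀ σ i j, ρ σ i j ∈ C) :
    mapRep (C.val : C →+* A) (corestrict C ρ h) = ρ := by
  ext σ i j; rfl

/-- the product of two matrix representations -/
def prodRep (ρ : GQ →* M2 A) (ρ' : GQ →* M2 A') : GQ →* M2 (A × A') where
  toFun σ := Matrix.of fun i j => (ρ σ i j, ρ' σ i j)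
  map_one' := by
    ext i j <;> simp only [Matrix.of_apply, map_one, Matrix.one_apply] <;> split_ifs <;> simp
  map_mul' σ τ := by
    ext i j <;> simp [Matrix.mul_apply, Fin.sum_univ_two]

lemma mapRep_fst_prodRep (ρ : GQ →* M2 A) (ρ' : GQ →* M2 A') :
    mapRep (AlgHom.fst 𝒪 A A' : A × A' →+* A) (prodRep ρ ρ') = ρ := by
  ext σ i j; rfl

lemma mapRep_snd_prodRep (ρ : GQ →* M2 A) (ρ' : GQ →* M2 A') :
    mapRep (AlgHom.snd 𝒪 A A' : A × A' →+* A') (prodRep ρ ρ') = ρ' := by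
  ext σ i j; rfl

end EvalHom

/-- objects: Artinian test algebras with a normalized lift of type `𝒟` -/
structure NDObj (nd : NormData 𝒪 rb)
    (𝒟 : ∀ ⦃A : Type⦄ [CommRing A] [IsLocalRing A] [Algebra 𝒪 A], GaloisRepAdic A → Prop) :
    Type 1 where
  A : Type
  [cr : CommRing A]
  [lr : IsLocalRing A]
  [alg : Algebra 𝒪 A]
  [lh : IsLocalHom (algebraMap 𝒪 A)]
  test : IsArtinianTestAlgebra 𝒪 A
  ρ : GQ →* M2 A
  lift : IsNDLift nd 𝒟 ρ

attribute [instance] NDObj.cr NDObj.lr NDObj.alg NDObj.lh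

/-- Good ideals of the big polynomial ring -/
def Good (nd : NormData 𝒪 rb)
    (𝒟 : ∀ ⦃A : Type⦄ [CommRing A] [IsLocalRing A] [Algebra 𝒪 A], GaloisRepAdic A → Prop)
    (I : Ideal (BigB 𝒪)) : Prop :=
  ∃ X : NDObj nd 𝒟, Function.Surjective (evalHom (𝒪 := 𝒪) X.ρ) ∧
    RingHom.ker (evalHom (𝒪 := 𝒪) X.ρ) = I

section Closure

variable [Finite (ResidueField 𝒪)]
variable {nd : NormData 𝒪 rb}
  {𝒟 : ∀ ⦃A : Type⦄ [CommRing A] [IsLocalRing A] [Algebra 𝒪 A], GaloisRepAdic A → Prop}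
  (h𝒟 : IsDeformationCondition 𝒪 𝒟)

lemma NDObj.isNilpotent_of_mem (X : NDObj nd 𝒟) {a : X.A} (ha : a ∈ maximalIdeal X.A) :
    IsNilpotent a := by
  haveI := X.test.isArtinian
  obtain ⟨n, hn⟩ := (isArtinianRing_iff_isNilpotent_maximalIdeal X.A).mp X.test.isArtinian
  exact ⟨n, by have := Ideal.pow_mem_pow ha n; rw [hn] at this; exact this⟩

/-- the canonical map to the residue field -/
def NDObj.resk (X : NDObj nd 𝒟) : X.A →ₐ[𝒪] ResidueField 𝒪 :=
  Fermat.Agent.S53.resk X.test.residue_surjective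

include h𝒟 in
/-- (D3) the kernel of the evaluation at any object is Good -/
theorem good_ker (X : NDObj nd 𝒟) : Good nd 𝒟 (RingHom.ker (evalHom (𝒪 := 𝒪) X.ρ)) := by
  haveI : Finite X.A := finite_of_test X.test
  let C : Subalgebra 𝒪 X.A := (evalHom (𝒪 := 𝒪) X.ρ).range
  let π : C →ₐ[𝒪] ResidueField 𝒪 := X.resk.comp C.val
  have hπ : ∀ c, π c = 0 → IsNilpotent c := by
    intro c hc
    have h1 : (c : X.A) ∈ maximalIdeal X.A := (algHom_eq_zero_iff X.resk _).mp hc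
    obtain ⟨n, hn⟩ := X.isNilpotent_of_mem h1
    exact ⟨n, Subtype.ext (by simpa using hn)⟩
  obtain ⟨hloc, htest⟩ := test_of_algHom C π hπ
  haveI := htest.isLocalHom
  have hmem : ∀ σ i j, X.ρ σ i j ∈ C := fun σ i j => ⟨MvPolynomial.X (σ, i, j), evalHom_X _ _ _ _⟩
  let ρC := corestrict C X.ρ hmem
  have hmap : mapRep (C.val : C →+* X.A) ρC = X.ρ := mapRep_corestrict C X.ρ hmem
  have hlift : IsNDLift nd 𝒟 ρC :=
    IsNDLift.of_map_injective h𝒟 htest X.test C.val Subtype.val_injective (by rw [hmap]; exact X.lift)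
  have hval : ∀ b, ((evalHom (𝒪 := 𝒪) ρC b : C) : X.A) = evalHom X.ρ b := fun b => by
    have := evalHom_mapRep_apply C.val ρC b
    rw [hmap] at this
    exact this.symm
  refine ⟨⟨C, htest, ρC, hlift⟩, ?_, ?_⟩
  · rintro ⟨c, b, rfl⟩
    exact ⟨b, Subtype.ext (hval b)⟩
  · ext b
    rw [RingHom.mem_ker, RingHom.mem_ker]
    change evalHom ρC b = 0 ↔ evalHom X.ρ b = 0
    rw [← hval b]
    exact ⟨fun h => by rw [h]; rfl, fun h => Subtype.ext h⟩

include h𝒟 in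
/-- (D2) ideals above a Good ideal are Good -/
theorem Good.of_le {I J : Ideal (BigB 𝒪)} (hI : Good nd 𝒟 I) (hIJ : I ≤ J) (hJ : J ≠ ⊤) :
    Good nd 𝒟 J := by
  obtain ⟨X, hs, hk⟩ := hI
  haveI : Finite X.A := finite_of_test X.test
  let 𝔞 : Ideal X.A := J.map (evalHom (𝒪 := 𝒪) X.ρ)
  have hcomap : 𝔞.comap (evalHom (𝒪 := 𝒪) X.ρ) = J := by
    rw [Ideal.comap_map_of_surjective _ hs, ← RingHom.ker_eq_comap_bot]
    change J ⊔ RingHom.ker (evalHom (𝒪 := 𝒪) X.ρ) = J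
    rw [hk]
    exact sup_eq_left.mpr hIJ
  have h𝔞 : 𝔞 ≠ ⊤ := fun h => hJ (by rw [← hcomap, h, Ideal.comap_top])
  have h𝔞' : ∀ a ∈ 𝔞, X.resk a = 0 := fun a ha =>
    (algHom_eq_zero_iff X.resk a).mpr (le_maximalIdeal h𝔞 ha)
  let π : (X.A ⧸ 𝔞) →ₐ[𝒪] ResidueField 𝒪 := Ideal.Quotient.liftₐ 𝔞 X.resk h𝔞'
  have hπ : ∀ c, π c = 0 → IsNilpotent c := by
    intro c hc
    obtain ⟨a, rfl⟩ := Ideal.Quotient.mk_surjective c
    have h1 : X.resk a = 0 := hc
    exact (X.isNilpotent_of_mem ((algHom_eq_zero_iff X.resk a).mp h1)).map (Ideal.Quotient.mk 𝔞)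
  haveI : Finite (X.A ⧸ 𝔞) := Finite.of_surjective _ (Ideal.Quotient.mk_surjective (I := 𝔞))
  obtain ⟨hloc, htest⟩ := test_of_algHom (X.A ⧸ 𝔞) π hπ
  haveI := htest.isLocalHom
  let q : X.A →ₐ[𝒪] X.A ⧸ 𝔞 := Ideal.Quotient.mkₐ 𝒪 𝔞
  have hlift : IsNDLift nd 𝒟 (mapRep (q : X.A →+* X.A ⧸ 𝔞) X.ρ) :=
    IsNDLift.map h𝒟 X.test htest X.lift q
  refine ⟨⟨X.A ⧸ 𝔞, htest, _, hlift⟩, ?_, ?_⟩
  · intro c
    obtain ⟨a, rfl⟩ := Ideal.Quotient.mk_surjective c
    obtain ⟨b, rfl⟩ := hs a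
    exact ⟨b, evalHom_mapRep_apply q X.ρ b⟩
  · ext b
    rw [RingHom.mem_ker, ← hcomap, Ideal.mem_comap]
    change evalHom (mapRep (q : X.A →+* X.A ⧸ 𝔞) X.ρ) b = 0 ↔ _
    rw [evalHom_mapRep_apply]
    exact Ideal.Quotient.eq_zero_iff_mem

omit [Finite (ResidueField 𝒪)] in
lemma test_residueField : IsArtinianTestAlgebra 𝒪 (ResidueField 𝒪) where
  isLocalHom := (inferInstance : IsLocalHom (residue 𝒪))
  residue_surjective := fun x => by
    obtain ⟨y, rfl⟩ := residue_surjective x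
    obtain ⟨o, rfl⟩ := residue_surjective y
    exact ⟨o, rfl⟩
  isArtinian := inferInstance

omit [Finite (ResidueField 𝒪)] in
lemma type_congr {A : Type} [CommRing A] [IsLocalRing A] [Algebra 𝒪 A] {ρ ρ' : GQ →* M2 A}
    (e : ρ = ρ') {h : IsCts ρ} {h' : IsCts ρ'} (ht : 𝒟 (toAdic ρ h)) : 𝒟 (toAdic ρ' h') := by
  subst e; exact ht

omit [Finite (ResidueField 𝒪)] in
lemma NDObj.resk_ρ (X : NDObj nd 𝒟) (σ : GQ) (i j : Fin 2) : X.resk (X.ρ σ i j) = rb σ i j :=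
  (lifts_iff_algHom X.resk rb X.ρ).mp X.lift.lifts σ i j

include h𝒟 in
/-- (D1) Good ideals are closed under intersection -/
theorem Good.inf {I I' : Ideal (BigB 𝒪)} (hI : Good nd 𝒟 I) (hI' : Good nd 𝒟 I') :
    Good nd 𝒟 (I ⊓ I') := by
  obtain ⟨X, hs, hk⟩ := hI
  obtain ⟨X', hs', hk'⟩ := hI'
  haveI : Finite X.A := finite_of_test X.test
  haveI : Finite X'.A := finite_of_test X'.test
  let fA : X.A × X'.A →ₐ[𝒪] ResidueField 𝒪 := X.resk.comp (AlgHom.fst 𝒪 X.A X'.A)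
  let fB : X.A × X'.A →ₐ[𝒪] ResidueField 𝒪 := X'.resk.comp (AlgHom.snd 𝒪 X.A X'.A)
  let P : Subalgebra 𝒪 (X.A × X'.A) := AlgHom.equalizer fA fB
  have hP : ∀ z : X.A × X'.A, z ∈ P ↔ X.resk z.1 = X'.resk z.2 := fun z => Iff.rfl
  let π : P →ₐ[𝒪] ResidueField 𝒪 := fA.comp P.val
  have hπ : ∀ c, π c = 0 → IsNilpotent c := by
    rintro ⟨⟨a, a'⟩, hc⟩ h0
    have h1 : X.resk a = 0 := h0
    have h2 : X'.resk a' = 0 := by rw [← (hP _).mp hc]; exact h1
    obtain ⟨n, hn⟩ := X.isNilpotent_of_mem ((algHom_eq_zero_iff X.resk a).mp h1)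
    obtain ⟨n', hn'⟩ := X'.isNilpotent_of_mem ((algHom_eq_zero_iff X'.resk a').mp h2)
    refine ⟨n + n', Subtype.ext (Prod.ext ?_ ?_)⟩
    · change a ^ (n + n') = 0
      rw [pow_add, hn, zero_mul]
    · change a' ^ (n + n') = 0
      rw [pow_add, hn', mul_zero]
  obtain ⟨hloc, htest⟩ := test_of_algHom P π hπ
  haveI := htest.isLocalHom
  have hmem : ∀ σ i j, prodRep X.ρ X'.ρ σ i j ∈ P := fun σ i j => by
    rw [hP]
    change X.resk (X.ρ σ i j) = X'.resk (X'.ρ σ i j)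
    rw [X.resk_ρ, X'.resk_ρ]
  let ρP := corestrict P (prodRep X.ρ X'.ρ) hmem
  let pA : P →ₐ[𝒪] X.A := (AlgHom.fst 𝒪 X.A X'.A).comp P.val
  let pB : P →ₐ[𝒪] X'.A := (AlgHom.snd 𝒪 X.A X'.A).comp P.val
  have hpA : IsLocalHom (pA : P →+* X.A) := isLocalHom_of_algHom X.test.residue_surjective pA
  have hpB : IsLocalHom (pB : P →+* X'.A) := isLocalHom_of_algHom X'.test.residue_surjective pB
  have hmA : mapRep (pA : P →+* X.A) ρP = X.ρ := by ext σ i j; rfl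
  have hmB : mapRep (pB : P →+* X'.A) ρP = X'.ρ := by ext σ i j; rfl
  haveI := X.test.isArtinian
  haveI := X'.test.isArtinian
  have hcts : IsCts ρP := by
    obtain ⟨L, hL, h1⟩ := X.lift.cts.factors
    obtain ⟨L', hL', h1'⟩ := X'.lift.cts.factors
    refine isCts_of_factors ⟨L ⊔ L', IntermediateField.finiteDimensional_sup L L', fun σ hσ => ?_⟩
    have e1 := h1 σ fun x hx => hσ x ((le_sup_left : L ≤ L ⊔ L') hx)
    have e2 := h1' σ fun x hx => hσ x ((le_sup_right : L' ≤ L ⊔ L') hx)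
    ext i j
    · change X.ρ σ i j = ((1 : M2 P) i j : X.A × X'.A).1
      rw [e1, Matrix.one_apply, Matrix.one_apply]; split_ifs <;> rfl
    · change X'.ρ σ i j = ((1 : M2 P) i j : X.A × X'.A).2
      rw [e2, Matrix.one_apply, Matrix.one_apply]; split_ifs <;> rfl
  have hlifts : Lifts rb ρP := by
    rw [lifts_iff_algHom π]
    intro σ i j
    exact X.resk_ρ σ i j
  have hnorm : IsNormalized nd ρP := by
    obtain ⟨a1, a2, a3⟩ := X.lift.norm
    obtain ⟨b1, b2, b3⟩ := X'.lift.norm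
    have eA := evalGA_mapRep pA ρP nd.x
    have eB := evalGA_mapRep pB ρP nd.x
    rw [hmA] at eA
    rw [hmB] at eB
    refine ⟨Subtype.ext (Prod.ext ?_ ?_), Subtype.ext (Prod.ext ?_ ?_),
      Subtype.ext (Prod.ext a3 b3)⟩
    · rw [eA] at a1; exact a1
    · rw [eB] at b1; exact b1
    · rw [eA] at a2; exact a2
    · rw [eB] at b2; exact b2
  have htype : 𝒟 (toAdic ρP hcts) := by
    obtain ⟨eA⟩ := toAdic_baseChangeAlong ρP hcts _ hpA
    obtain ⟨eB⟩ := toAdic_baseChangeAlong ρP hcts _ hpB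
    refine h𝒟.of_fibreProduct X.test X'.test test_residueField htest X.resk X'.resk pA pB hpA hpB
      ?_ ?_ ?_ (h𝒟.of_isEquiv X.test ⟨eA.symm⟩ (type_congr hmA.symm X.lift.type))
      (h𝒟.of_isEquiv X'.test ⟨eB.symm⟩ (type_congr hmB.symm X'.lift.type))
    · ext ⟨z, hz⟩
      exact (hP z).mp hz
    · rintro ⟨z, hz⟩ ⟨z', hz'⟩ h
      exact Subtype.ext h
    · intro a a' h
      exact ⟨⟨(a, a'), (hP _).mpr h⟩, rfl, rfl⟩
  have hgood := good_ker h𝒟 (⟨P, htest, ρP, ⟨hcts, hlifts, hnorm, htype⟩⟩ : NDObj nd 𝒟)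
  convert hgood using 1
  ext b
  rw [Ideal.mem_inf, ← hk, ← hk', RingHom.mem_ker, RingHom.mem_ker, RingHom.mem_ker]
  change evalHom X.ρ b = 0 ∧ evalHom X'.ρ b = 0 ↔ evalHom ρP b = 0
  have e1 := evalHom_mapRep_apply pA ρP b
  have e2 := evalHom_mapRep_apply pB ρP b
  rw [hmA] at e1
  rw [hmB] at e2
  rw [e1, e2]
  constructor
  · rintro ⟨h1, h2⟩
    exact Subtype.ext (Prod.ext h1 h2)
  · intro h
    rw [h]
    exact ⟨map_zero _, map_zero _⟩

end Closure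

end Fermat.Agent.S53

end
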