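import Mathlib

/-!
# S53, module (N): generation of Artinian local algebras
-/

set_option autoImplicit false
set_option linter.style.haveILetI false
set_option linter.unusedSectionVars false

namespace Fermat.Agent.S53

open IsLocalRing

/-- If `A` is a local `𝒪`-algebra with nilpotent finitely generated maximal ideal `m`, with
`𝒪 → A/m` surjective and `m ≤ span T + m²`, then `A` is generated by `T` as an `𝒪`-algebra. -/
theorem adjoin_eq_top_of_le_span_sup_sq {𝒪 A : Type} [CommRing 𝒪] [CommRing A] [IsLocalRing A]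
    [IsNoetherianRing A] [Algebra 𝒪 A]
    (hs : Function.Surjective (residue A ∘ algebraMap 𝒪 A))
    (n : ℕ) (hn : maximalIdeal A ^ n = ⊥)
    (T : Set A) (hT : ∀ x ∈ T, x ∈ maximalIdeal A)
    (hgen : maximalIdeal A ≤ Ideal.span T ⊔ maximalIdeal A ^ 2) :
    Algebra.adjoin 𝒪 T = ⊤ := by
  set m := maximalIdeal A with hm
  set S := Algebra.adjoin 𝒪 T with hS
  -- Step 1: `m ≤ span T`
  have h1 : m ≤ Ideal.span T := by
    apply Submodule.le_of_le_smul_of_le_jacobson_bot (I := m) (IsNoetherian.noetherian m)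
      (maximalIdeal_le_jacobson _)
    rw [smul_eq_mul, ← pow_two]
    exact hgen
  -- decomposition `a = o + m`
  have h0 : ∀ a : A, ∃ o : 𝒪, a - algebraMap 𝒪 A o ∈ m := by
    intro a
    obtain ⟨o, ho⟩ := hs (residue A a)
    refine ⟨o, ?_⟩
    rw [hm, ← residue_eq_zero_iff, map_sub, sub_eq_zero]
    exact ho.symm
  -- the key property
  let C : ℕ → A → Prop := fun j x => ∃ s ∈ S, s ∈ m ^ j ∧ x - s ∈ m ^ (j + 1)
  have hadd : ∀ j x y, C j x → C j y → C j (x + y) := by
    rintro j x y ⟨s, hs1, hs2, hs3⟩ ⟨s', hs1', hs2', hs3'⟩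
    refine ⟨s + s', S.add_mem hs1 hs1', Ideal.add_mem _ hs2 hs2', ?_⟩
    have : x + y - (s + s') = (x - s) + (y - s') := by ring
    rw [this]
    exact Ideal.add_mem _ hs3 hs3'
  have hC1 : ∀ z ∈ m, C 1 z := by
    intro z hz
    have hz' := h1 hz
    induction hz' using Submodule.span_induction with
    | mem x hx =>
      exact ⟨x, Algebra.subset_adjoin hx, by rw [pow_one]; exact hT x hx, by simp⟩
    | zero => exact ⟨0, S.zero_mem, Ideal.zero_mem _, by simp⟩
    | add x y hx hy ihx ihy =>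
      exact hadd 1 x y (ihx (Ideal.span_le.mpr hT hx)) (ihy (Ideal.span_le.mpr hT hy))
    | smul a x hx ih =>
      have hxm : x ∈ m := Ideal.span_le.mpr hT hx
      obtain ⟨s, hs1, hs2, hs3⟩ := ih hxm
      obtain ⟨o, ho⟩ := h0 a
      refine ⟨algebraMap 𝒪 A o * s, S.mul_mem (S.algebraMap_mem o) hs1,
        Ideal.mul_mem_left _ _ hs2, ?_⟩
      have : a • x - algebraMap 𝒪 A o * s = algebraMap 𝒪 A o * (x - s) + (a - algebraMap 𝒪 A o) * x := by
        rw [smul_eq_mul]; ring
      rw [this]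
      refine Ideal.add_mem _ (Ideal.mul_mem_left _ _ hs3) ?_
      rw [show (1 + 1 : ℕ) = 2 from rfl, pow_two]
      exact Ideal.mul_mem_mul ho hxm
  have hC : ∀ j, ∀ x ∈ m ^ j, C j x := by
    intro j
    induction j with
    | zero =>
      intro x _
      obtain ⟨o, ho⟩ := h0 x
      exact ⟨algebraMap 𝒪 A o, S.algebraMap_mem o, by simp, by simpa using ho⟩
    | succ j ih =>
      intro x hx
      rw [pow_succ] at hx
      refine Submodule.mul_induction_on hx ?_ (hadd (j + 1))
      intro y hy z hz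
      obtain ⟨s, hs1, hs2, hs3⟩ := ih y hy
      obtain ⟨s', hs1', hs2', hs3'⟩ := hC1 z hz
      refine ⟨s * s', S.mul_mem hs1 hs1', ?_, ?_⟩
      · rw [pow_succ]; rw [pow_one] at hs2'; exact Ideal.mul_mem_mul hs2 hs2'
      · have : y * z - s * s' = s * (z - s') + (y - s) * z := by ring
        rw [this]
        refine Ideal.add_mem _ ?_ ?_
        · have := Ideal.mul_mem_mul hs2 hs3'
          rwa [← pow_add] at this
        · have := Ideal.mul_mem_mul hs3 hz
          rwa [← pow_succ] at this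
  have hfin : ∀ j, ∀ a : A, ∃ s ∈ S, a - s ∈ m ^ j := by
    intro j
    induction j with
    | zero => intro a; exact ⟨0, S.zero_mem, by simp⟩
    | succ j ih =>
      intro a
      obtain ⟨s, hs1, hs2⟩ := ih a
      obtain ⟨s', hs1', _, hs3'⟩ := hC j _ hs2
      exact ⟨s + s', S.add_mem hs1 hs1', by rwa [← sub_sub]⟩
  rw [eq_top_iff]
  intro a _
  obtain ⟨s, hs1, hs2⟩ := hfin n a
  rw [hn, Ideal.mem_bot, sub_eq_zero] at hs2
  rw [hs2]; exact hs1

end Fermat.Agent.S53
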