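import Fermat.Agent.S53.Defs

/-!
# S53, module (E1): `𝒪`-algebra homs to the dual numbers separate `A / (m² + m_𝒪 A)`.
-/

set_option autoImplicit false

namespace Fermat.Agent.S53

open IsLocalRing

section

variable (𝒪 : Type) [CommRing 𝒪] [IsLocalRing 𝒪]
  (A : Type) [CommRing A] [IsLocalRing A] [Algebra 𝒪 A]

lemma tangent_bijective [IsLocalHom (algebraMap 𝒪 A)]
    (hs : Function.Surjective (IsLocalRing.residue A ∘ algebraMap 𝒪 A)) :
    Function.Bijective (ResidueField.map (algebraMap 𝒪 A)) :=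
  ⟨(ResidueField.map (algebraMap 𝒪 A)).injective, by
      intro y
      obtain ⟨c, hc⟩ := hs y
      exact ⟨residue 𝒪 c, by simpa using hc⟩⟩

/-- the residue map `A → k = ResidueField 𝒪` of an `𝒪`-algebra with the same residue field -/
noncomputable def tangentPi [IsLocalHom (algebraMap 𝒪 A)]
    (hs : Function.Surjective (IsLocalRing.residue A ∘ algebraMap 𝒪 A)) :
    A →+* ResidueField 𝒪 :=
  ((RingEquiv.ofBijective (ResidueField.map (algebraMap 𝒪 A))
    (tangent_bijective 𝒪 A hs)).symm : ResidueField A →+* ResidueField 𝒪).comp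
    (residue A)

variable {𝒪 A}

lemma tangentPi_algebraMap [IsLocalHom (algebraMap 𝒪 A)]
    (hs : Function.Surjective (IsLocalRing.residue A ∘ algebraMap 𝒪 A)) (c : 𝒪) :
    tangentPi 𝒪 A hs (algebraMap 𝒪 A c) = residue 𝒪 c := by
  unfold tangentPi
  simp only [RingHom.coe_comp, RingHom.coe_coe, Function.comp_apply]
  rw [RingEquiv.symm_apply_eq]
  simp

lemma tangentPi_eq_zero_iff [IsLocalHom (algebraMap 𝒪 A)]
    (hs : Function.Surjective (IsLocalRing.residue A ∘ algebraMap 𝒪 A)) (x : A) :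
    tangentPi 𝒪 A hs x = 0 ↔ x ∈ maximalIdeal A := by
  unfold tangentPi
  simp only [RingHom.coe_comp, RingHom.coe_coe, Function.comp_apply]
  rw [EmbeddingLike.map_eq_zero_iff, residue_eq_zero_iff]

lemma tangentPi_exists [IsLocalHom (algebraMap 𝒪 A)]
    (hs : Function.Surjective (IsLocalRing.residue A ∘ algebraMap 𝒪 A)) (x : A) :
    ∃ c : 𝒪, tangentPi 𝒪 A hs x = residue 𝒪 c ∧ x - algebraMap 𝒪 A c ∈ maximalIdeal A := by
  obtain ⟨c, hc⟩ := residue_surjective (tangentPi 𝒪 A hs x)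
  refine ⟨c, hc.symm, ?_⟩
  rw [← tangentPi_eq_zero_iff hs, map_sub, tangentPi_algebraMap, hc, sub_self]

lemma tangent_leibniz [IsLocalHom (algebraMap 𝒪 A)]
    (hs : Function.Surjective (IsLocalRing.residue A ∘ algebraMap 𝒪 A))
    (l : A →ₗ[𝒪] ResidueField 𝒪) (h1 : l 1 = 0) (hsq : ∀ x ∈ maximalIdeal A ^ 2, l x = 0)
    (x y : A) :
    l (x * y) = tangentPi 𝒪 A hs x * l y + tangentPi 𝒪 A hs y * l x := by
  obtain ⟨c, hc, hcx⟩ := tangentPi_exists hs x
  obtain ⟨d, hd, hdy⟩ := tangentPi_exists hs y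
  have hmem : (x - algebraMap 𝒪 A c) * (y - algebraMap 𝒪 A d) ∈ maximalIdeal A ^ 2 := by
    rw [pow_two]; exact Ideal.mul_mem_mul hcx hdy
  have h0 := hsq _ hmem
  have hexp : (x - algebraMap 𝒪 A c) * (y - algebraMap 𝒪 A d)
      = x * y - c • y - d • x + (c * d) • (1 : A) := by
    simp only [Algebra.smul_def, map_mul]
    ring
  rw [hexp, map_add, map_sub, map_sub, map_smul, map_smul, map_smul, h1, smul_zero, add_zero] at h0
  rw [hc, hd]
  have e1 : c • l y = residue 𝒪 c * l y := rfl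
  have e2 : d • l x = residue 𝒪 d * l x := rfl
  rw [e1, e2] at h0
  linear_combination h0

/-- the algebra hom `A → k[ε]` attached to an `𝒪`-linear functional `λ : A → k` killing `1` and
`m²`. -/
noncomputable def tangentHom [IsLocalHom (algebraMap 𝒪 A)]
    (hs : Function.Surjective (IsLocalRing.residue A ∘ algebraMap 𝒪 A))
    (l : A →ₗ[𝒪] ResidueField 𝒪) (h1 : l 1 = 0) (hsq : ∀ x ∈ maximalIdeal A ^ 2, l x = 0) :
    A →ₐ[𝒪] Keps 𝒪 where
  toFun x := (TrivSqZeroExt.inl (tangentPi 𝒪 A hs x) + TrivSqZeroExt.inr (l x) :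
    DualNumber (ResidueField 𝒪))
  map_one' := by
    rw [h1, map_one]
    simp
    rfl
  map_zero' := by
    simp
    rfl
  map_add' x y := by
    change (_ : DualNumber (ResidueField 𝒪)) = (_ + _ : DualNumber (ResidueField 𝒪))
    apply TrivSqZeroExt.ext <;> simp
  map_mul' x y := by
    change (_ : DualNumber (ResidueField 𝒪)) = (_ * _ : DualNumber (ResidueField 𝒪))
    apply TrivSqZeroExt.ext
    · simp
    · simp [tangent_leibniz hs l h1 hsq x y, mul_comm]
  commutes' c := by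
    change (_ : DualNumber (ResidueField 𝒪)) =
      algebraMap (ResidueField 𝒪) (DualNumber (ResidueField 𝒪)) (algebraMap 𝒪 (ResidueField 𝒪) c)
    have : l (algebraMap 𝒪 A c) = 0 := by
      rw [Algebra.algebraMap_eq_smul_one, map_smul, h1, smul_zero]
    rw [this, tangentPi_algebraMap]
    simp
    rfl

lemma tangentHom_apply [IsLocalHom (algebraMap 𝒪 A)]
    (hs : Function.Surjective (IsLocalRing.residue A ∘ algebraMap 𝒪 A))
    (l : A →ₗ[𝒪] ResidueField 𝒪) (h1 : l 1 = 0) (hsq : ∀ x ∈ maximalIdeal A ^ 2, l x = 0) (x : A) :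
    tangentHom hs l h1 hsq x = (TrivSqZeroExt.inl (tangentPi 𝒪 A hs x) + TrivSqZeroExt.inr (l x) :
    DualNumber (ResidueField 𝒪)) := rfl

end

theorem mem_sq_sup_of_forall_keps (𝒪 : Type) [CommRing 𝒪] [IsLocalRing 𝒪]
    (A : Type) [CommRing A] [IsLocalRing A] [Algebra 𝒪 A]
    (hA : GaloisRep.IsArtinianTestAlgebra 𝒪 A) (a : A)
    (h : ∀ f : A →ₐ[𝒪] Keps 𝒪, f a = 0) :
    a ∈ maximalIdeal A ^ 2 ⊔ (maximalIdeal 𝒪).map (algebraMap 𝒪 A) := by
  have := hA.isLocalHom
  have hs := hA.residue_surjective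
  set I : Ideal A := maximalIdeal A ^ 2 ⊔ (maximalIdeal 𝒪).map (algebraMap 𝒪 A) with hI
  -- `a` lies in the maximal ideal
  have ham : a ∈ maximalIdeal A := by
    have h0 := h (tangentHom hs 0 rfl (fun _ _ => rfl))
    rw [tangentHom_apply] at h0
    have h0' : (TrivSqZeroExt.inl (tangentPi 𝒪 A hs a) + TrivSqZeroExt.inr
      ((0 : A →ₗ[𝒪] ResidueField 𝒪) a) : DualNumber (ResidueField 𝒪)) = 0 := h0
    have := congrArg TrivSqZeroExt.fst h0'
    rw [← tangentPi_eq_zero_iff hs]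
    simpa using this
  by_contra haI
  -- the `𝒪`-submodule `I + 𝒪·1`
  let P : Submodule 𝒪 A := I.restrictScalars 𝒪 ⊔ Submodule.span 𝒪 {(1 : A)}
  have haP : a ∉ P := by
    intro haP
    obtain ⟨i, hi, z, hz, hiz⟩ := Submodule.mem_sup.mp haP
    obtain ⟨c, rfl⟩ := Submodule.mem_span_singleton.mp hz
    have hi' : i ∈ I := hi
    have him : i ∈ maximalIdeal A := by
      have hle : I ≤ maximalIdeal A := by
        refine sup_le (Ideal.pow_le_self two_ne_zero) ?_
        exact ((local_hom_TFAE (algebraMap 𝒪 A)).out 0 2).mp hA.isLocalHom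
      exact hle hi'
    have hc : algebraMap 𝒪 A c ∈ maximalIdeal A := by
      have : algebraMap 𝒪 A c = a - i := by
        rw [← hiz, Algebra.algebraMap_eq_smul_one]; ring
      rw [this]
      exact Ideal.sub_mem _ ham him
    have hc' : c ∈ maximalIdeal 𝒪 := by
      by_contra hcu
      have hu : IsUnit c := by simpa using hcu
      exact (mem_maximalIdeal _).mp hc (hu.map (algebraMap 𝒪 A))
    apply haI
    rw [← hiz, ← Algebra.algebraMap_eq_smul_one]
    exact Ideal.add_mem _ hi' (Ideal.mem_sup_right (Ideal.mem_map_of_mem _ hc'))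
  -- the quotient is a vector space over `k`
  have htors : Module.IsTorsionBySet 𝒪 (A ⧸ P) (maximalIdeal 𝒪 : Set 𝒪) := by
    rintro x ⟨c, hc⟩
    obtain ⟨y, rfl⟩ := Submodule.Quotient.mk_surjective _ x
    change c • Submodule.Quotient.mk y = 0
    rw [← Submodule.Quotient.mk_smul, Submodule.Quotient.mk_eq_zero]
    apply Submodule.mem_sup_left
    change c • y ∈ I
    rw [Algebra.smul_def]
    exact Ideal.mul_mem_right _ _ (Ideal.mem_sup_right (Ideal.mem_map_of_mem _ hc))
  let _ : Module (ResidueField 𝒪) (A ⧸ P) := htors.module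
  have : IsScalarTower 𝒪 (ResidueField 𝒪) (A ⧸ P) := htors.isScalarTower
  have hne : (Submodule.Quotient.mk a : A ⧸ P) ≠ 0 := by
    rwa [Ne, Submodule.Quotient.mk_eq_zero]
  obtain ⟨φ, hφ⟩ : ∃ φ : Module.Dual (ResidueField 𝒪) (A ⧸ P), φ (Submodule.Quotient.mk a) ≠ 0 := by
    by_contra hcon
    push Not at hcon
    exact hne ((Module.forall_dual_apply_eq_zero_iff (ResidueField 𝒪) _).mp hcon)
  let l : A →ₗ[𝒪] ResidueField 𝒪 := (φ.restrictScalars 𝒪).comp P.mkQ
  have hlP : ∀ x ∈ P, l x = 0 := by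
    intro x hx
    change φ (Submodule.Quotient.mk x) = 0
    rw [(Submodule.Quotient.mk_eq_zero P).mpr hx, map_zero]
  have h1 : l 1 = 0 := hlP 1 (Submodule.mem_sup_right (Submodule.mem_span_singleton_self _))
  have hsq : ∀ x ∈ maximalIdeal A ^ 2, l x = 0 := fun x hx =>
    hlP x (Submodule.mem_sup_left (Ideal.mem_sup_left hx : x ∈ I))
  have h0 := h (tangentHom hs l h1 hsq)
  rw [tangentHom_apply] at h0
  have h0' : (TrivSqZeroExt.inl (tangentPi 𝒪 A hs a) + TrivSqZeroExt.inr (l a) :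
    DualNumber (ResidueField 𝒪)) = 0 := h0
  have h2 := congrArg TrivSqZeroExt.snd h0'
  apply hφ
  have h3 : l a = 0 := by simpa using h2
  exact h3

end Fermat.Agent.S53
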