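import Fermat.Agent.S53.Good
import Fermat.Agent.S53.Tangent
import Fermat.Agent.S53.Nak

/-!
# S53, module (E): levels, tangent bound, the minimal Good ideals
-/

set_option autoImplicit false
set_option linter.style.haveILetI false
set_option linter.unusedSectionVars false

noncomputable section

namespace Fermat.Agent.S53

open IsLocalRing GaloisRep

variable {𝒪 : Type} [CommRing 𝒪] [IsLocalRing 𝒪]

instance instIsLocalHomResk : IsLocalHom (algebraMap 𝒪 (ResidueField 𝒪)) :=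
  (inferInstance : IsLocalHom (residue 𝒪))

variable (rb : GQ →* M2 (ResidueField 𝒪))

/-- the maximal ideal of the big polynomial ring cut out by `rb` -/
def mB : Ideal (BigB 𝒪) := RingHom.ker (evalHom (𝒪 := 𝒪) rb)

lemma evalHom_rb_surjective : Function.Surjective (evalHom (𝒪 := 𝒪) rb) := fun x => by
  obtain ⟨o, rfl⟩ := residue_surjective x
  exact ⟨algebraMap 𝒪 _ o, (evalHom rb).commutes o⟩

lemma mB_isMaximal : (mB rb).IsMaximal :=
  RingHom.ker_isMaximal_of_surjective _ (evalHom_rb_surjective rb)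

lemma exists_sub_mem_mB (b : BigB 𝒪) : ∃ o : 𝒪, b - algebraMap 𝒪 _ o ∈ mB rb := by
  obtain ⟨o, ho⟩ := residue_surjective (evalHom rb b)
  refine ⟨o, ?_⟩
  rw [mB, RingHom.mem_ker, map_sub, sub_eq_zero]
  change evalHom rb b = evalHom rb (algebraMap 𝒪 _ o)
  rw [AlgHom.commutes, ← ho]; rfl

lemma algebraMap_mem_mB {o : 𝒪} (ho : o ∈ maximalIdeal 𝒪) : algebraMap 𝒪 (BigB 𝒪) o ∈ mB rb := by
  rw [mB, RingHom.mem_ker]
  change evalHom rb (algebraMap 𝒪 _ o) = 0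
  rw [AlgHom.commutes]
  exact (residue_eq_zero_iff o).mpr ho

variable {rb}
variable {nd : NormData 𝒪 rb}
  {𝒟 : ∀ ⦃A : Type⦄ [CommRing A] [IsLocalRing A] [Algebra 𝒪 A], GaloisRepAdic A → Prop}

lemma NDObj.mapRep_resk (X : NDObj nd 𝒟) : mapRep (X.resk : X.A →+* ResidueField 𝒪) X.ρ = rb := by
  ext σ i j; exact X.resk_ρ σ i j

lemma NDObj.comap_maximalIdeal (X : NDObj nd 𝒟) :
    (maximalIdeal X.A).comap (evalHom (𝒪 := 𝒪) X.ρ) = mB rb := by
  ext b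
  rw [Ideal.mem_comap, ← algHom_eq_zero_iff X.resk, ← evalHom_mapRep_apply, X.mapRep_resk]
  rfl

lemma NDObj.map_mB (X : NDObj nd 𝒟) (hs : Function.Surjective (evalHom (𝒪 := 𝒪) X.ρ)) :
    (mB rb).map (evalHom (𝒪 := 𝒪) X.ρ) = maximalIdeal X.A := by
  rw [← X.comap_maximalIdeal, Ideal.map_comap_of_surjective _ hs]

lemma Good.le_mB {I : Ideal (BigB 𝒪)} (hI : Good nd 𝒟 I) : I ≤ mB rb := by
  obtain ⟨X, hs, rfl⟩ := hI
  rw [← X.comap_maximalIdeal]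
  intro b hb
  rw [Ideal.mem_comap, RingHom.mem_ker.mp hb]
  exact Ideal.zero_mem _

lemma Good.exists_pow_le {I : Ideal (BigB 𝒪)} (hI : Good nd 𝒟 I) : ∃ n, mB rb ^ n ≤ I := by
  obtain ⟨X, hs, rfl⟩ := hI
  haveI := X.test.isArtinian
  obtain ⟨n, hn⟩ := (isArtinianRing_iff_isNilpotent_maximalIdeal X.A).mp X.test.isArtinian
  refine ⟨n, ?_⟩
  rw [← Ideal.map_eq_bot_iff_le_ker, Ideal.map_pow]
  change ((mB rb).map (evalHom (𝒪 := 𝒪) X.ρ)) ^ n = ⊥
  rw [X.map_mB hs, hn]; rfl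

lemma good_mB (h0 : IsNDLift nd 𝒟 rb) : Good nd 𝒟 (mB rb) :=
  ⟨⟨ResidueField 𝒪, test_residueField, rb, h0⟩, evalHom_rb_surjective rb, rfl⟩

section KepsSec

variable (𝒪)

/-- the projection `k[ε] → k` as an `𝒪`-algebra hom -/
def kepsFst : Keps 𝒪 →ₐ[𝒪] ResidueField 𝒪 :=
  { (TrivSqZeroExt.fstHom (ResidueField 𝒪) (ResidueField 𝒪) (ResidueField 𝒪) :
      DualNumber (ResidueField 𝒪) →+* ResidueField 𝒪) with
    commutes' := fun _ => rfl }

instance instFiniteKeps [Finite (ResidueField 𝒪)] : Finite (Keps 𝒪) :=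
  inferInstanceAs (Finite (ResidueField 𝒪 × ResidueField 𝒪))

lemma test_keps [Finite (ResidueField 𝒪)] : IsArtinianTestAlgebra 𝒪 (Keps 𝒪) := by
  have hπ : ∀ c, kepsFst 𝒪 c = 0 → IsNilpotent c := by
    intro c hc
    refine ⟨2, ?_⟩
    have h1 : TrivSqZeroExt.fst (c : DualNumber (ResidueField 𝒪)) = 0 := hc
    have key : ∀ d : DualNumber (ResidueField 𝒪), TrivSqZeroExt.fst d = 0 → d ^ 2 = 0 := by
      intro d hd
      apply TrivSqZeroExt.ext
      · simp [pow_two, hd]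
      · simp [pow_two, hd]
    exact key c h1
  obtain ⟨_, h⟩ := test_of_algHom (Keps 𝒪) (kepsFst 𝒪) hπ
  exact h

instance instIsLocalHomKeps [Finite (ResidueField 𝒪)] : IsLocalHom (algebraMap 𝒪 (Keps 𝒪)) :=
  (test_keps 𝒪).isLocalHom

end KepsSec

section TangentIdeal

variable [Finite (ResidueField 𝒪)]

variable (nd 𝒟) in
/-- the set of normalized lifts of type `𝒟` to the dual numbers -/
def tangentSet : Set (GQ →* M2 (Keps 𝒪)) := {ρ | IsNDLift nd 𝒟 ρ}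

variable (nd 𝒟) in
/-- the ideal of elements killed by the evaluation at all tangent vectors -/
def tangentIdeal : Ideal (BigB 𝒪) :=
  RingHom.ker (RingHom.pi fun ρ : tangentSet nd 𝒟 => (evalHom (𝒪 := 𝒪) ρ.1 : BigB 𝒪 →+* Keps 𝒪))

lemma mem_tangentIdeal (b : BigB 𝒪) :
    b ∈ tangentIdeal nd 𝒟 ↔ ∀ ρ, IsNDLift nd 𝒟 ρ → evalHom (𝒪 := 𝒪) (A := Keps 𝒪) ρ b = 0 := by
  rw [tangentIdeal, RingHom.mem_ker]
  constructor
  · intro h ρ hρ
    exact congrFun h ⟨ρ, hρ⟩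
  · intro h
    funext ρ
    exact h ρ.1 ρ.2

lemma finite_quotient_tangentIdeal (hT : (tangentSet nd 𝒟).Finite) :
    Finite (BigB 𝒪 ⧸ tangentIdeal nd 𝒟) := by
  haveI : Finite (tangentSet nd 𝒟) := hT
  exact Finite.of_injective _ (RingHom.kerLift_injective
    (RingHom.pi fun ρ : tangentSet nd 𝒟 => (evalHom (𝒪 := 𝒪) ρ.1 : BigB 𝒪 →+* Keps 𝒪)))

/-- general: an ideal is finitely generated modulo an ideal of finite index -/
lemma exists_finset_le_span_sup {B : Type} [CommRing B] (𝔪 J : Ideal B) [Finite (B ⧸ J)] :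
    ∃ t : Finset B, (∀ b ∈ t, b ∈ 𝔪) ∧ 𝔪 ≤ Ideal.span (t : Set B) ⊔ J := by
  classical
  have hfin : (Ideal.Quotient.mk J '' (𝔪 : Set B)).Finite := Set.toFinite _
  choose! f hf using fun (s : B ⧸ J) (hs : s ∈ Ideal.Quotient.mk J '' (𝔪 : Set B)) => hs
  refine ⟨hfin.toFinset.image f, ?_, ?_⟩
  · intro b hb
    obtain ⟨s, hs, rfl⟩ := Finset.mem_image.mp hb
    exact (hf s (hfin.mem_toFinset.mp hs)).1
  · intro b hb
    have hs : Ideal.Quotient.mk J b ∈ Ideal.Quotient.mk J '' (𝔪 : Set B) := ⟨b, hb, rfl⟩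
    have h1 := (hf _ hs).2
    have h2 : b - f (Ideal.Quotient.mk J b) ∈ J := by
      rw [← Ideal.Quotient.eq_zero_iff_mem, map_sub, h1, sub_self]
    have h3 : f (Ideal.Quotient.mk J b) ∈ Ideal.span ((hfin.toFinset.image f : Finset B) : Set B) :=
      Ideal.subset_span (Finset.mem_coe.mpr (Finset.mem_image.mpr ⟨_, hfin.mem_toFinset.mpr hs, rfl⟩))
    have : b = f (Ideal.Quotient.mk J b) + (b - f (Ideal.Quotient.mk J b)) := by ring
    rw [this]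
    exact Ideal.add_mem _ (Ideal.mem_sup_left h3) (Ideal.mem_sup_right h2)

variable (h𝒟 : IsDeformationCondition 𝒪 𝒟)

include h𝒟 in
/-- (E4) -/
theorem tangentIdeal_le {I : Ideal (BigB 𝒪)} (hI : Good nd 𝒟 I) :
    tangentIdeal nd 𝒟 ≤ mB rb ^ 2 ⊔ (maximalIdeal 𝒪).map (algebraMap 𝒪 (BigB 𝒪)) ⊔ I := by
  obtain ⟨X, hs, rfl⟩ := hI
  intro b hb
  rw [mem_tangentIdeal] at hb
  have h1 : evalHom X.ρ b ∈ maximalIdeal X.A ^ 2 ⊔ (maximalIdeal 𝒪).map (algebraMap 𝒪 X.A) := by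
    apply mem_sq_sup_of_forall_keps 𝒪 X.A X.test
    intro f
    rw [← evalHom_mapRep_apply]
    exact hb _ (IsNDLift.map h𝒟 X.test (test_keps 𝒪) X.lift f)
  have h2 : maximalIdeal X.A ^ 2 ⊔ (maximalIdeal 𝒪).map (algebraMap 𝒪 X.A) =
      (mB rb ^ 2 ⊔ (maximalIdeal 𝒪).map (algebraMap 𝒪 (BigB 𝒪))).map (evalHom (𝒪 := 𝒪) X.ρ) := by
    rw [Ideal.map_sup, Ideal.map_pow, X.map_mB hs]
    congr 1
    change _ = Ideal.map (evalHom (𝒪 := 𝒪) X.ρ : BigB 𝒪 →+* X.A) _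
    rw [Ideal.map_map, AlgHom.comp_algebraMap]
  rw [h2] at h1
  have h3 := Ideal.mem_comap.mpr h1
  rw [Ideal.comap_map_of_surjective _ hs, ← RingHom.ker_eq_comap_bot] at h3
  exact h3

include h𝒟 in
/-- (E5) uniform generators of the maximal ideal modulo all Good ideals -/
theorem exists_generators [IsNoetherianRing 𝒪] (hT : (tangentSet nd 𝒟).Finite) :
    ∃ t : Finset (BigB 𝒪), (∀ b ∈ t, b ∈ mB rb) ∧
      ∀ I, Good nd 𝒟 I → mB rb ≤ Ideal.span (t : Set (BigB 𝒪)) ⊔ mB rb ^ 2 ⊔ I := by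
  classical
  haveI := finite_quotient_tangentIdeal hT
  obtain ⟨t₁, ht₁, hgen⟩ := exists_finset_le_span_sup (mB rb) (tangentIdeal nd 𝒟)
  obtain ⟨s, hs⟩ := (IsNoetherian.noetherian (maximalIdeal 𝒪) : (maximalIdeal 𝒪).FG)
  refine ⟨t₁ ∪ s.image (algebraMap 𝒪 (BigB 𝒪)), ?_, ?_⟩
  · intro b hb
    rcases Finset.mem_union.mp hb with hb | hb
    · exact ht₁ b hb
    · obtain ⟨o, ho, rfl⟩ := Finset.mem_image.mp hb
      exact algebraMap_mem_mB rb (by rw [← hs]; exact Ideal.subset_span ho)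
  · intro I hI
    have h1 : Ideal.span (t₁ : Set (BigB 𝒪)) ≤
        Ideal.span ((t₁ ∪ s.image (algebraMap 𝒪 (BigB 𝒪)) : Finset (BigB 𝒪)) : Set (BigB 𝒪)) :=
      Ideal.span_mono (by simp)
    have h2 : (maximalIdeal 𝒪).map (algebraMap 𝒪 (BigB 𝒪)) ≤
        Ideal.span ((t₁ ∪ s.image (algebraMap 𝒪 (BigB 𝒪)) : Finset (BigB 𝒪)) : Set (BigB 𝒪)) := by
      have hs' : maximalIdeal 𝒪 = Ideal.span (s : Set 𝒪) := hs.symm
      rw [hs', Ideal.map_span]
      exact Ideal.span_mono (by simp)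
    refine hgen.trans (sup_le (le_sup_of_le_left (le_sup_of_le_left h1)) ?_)
    refine (tangentIdeal_le h𝒟 hI).trans (sup_le (sup_le ?_ ?_) le_sup_right)
    · exact le_sup_of_le_left le_sup_right
    · exact le_sup_of_le_left (le_sup_of_le_left h2)

end TangentIdeal

section Bound

variable [Finite (ResidueField 𝒪)] [IsNoetherianRing 𝒪]

/-- the finitely generated polynomial ring mapping to `BigB` -/
abbrev SmallP (t : Finset (BigB 𝒪)) : Type := MvPolynomial t 𝒪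

/-- the structure map -/
def smallψ (t : Finset (BigB 𝒪)) : SmallP t →ₐ[𝒪] BigB 𝒪 :=
  MvPolynomial.aeval fun x : t => (x : BigB 𝒪)

variable (rb) in
/-- the maximal ideal of `SmallP` -/
def smalln (t : Finset (BigB 𝒪)) : Ideal (SmallP t) := (mB rb).comap (smallψ t)

lemma finite_quotient_smalln_pow (t : Finset (BigB 𝒪)) (n : ℕ) :
    Finite (SmallP t ⧸ smalln rb t ^ n) := by
  haveI : Finite (SmallP t ⧸ smalln rb t) := by
    have : smalln rb t = RingHom.ker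
        (((evalHom (𝒪 := 𝒪) rb).comp (smallψ t) : SmallP t →ₐ[𝒪] ResidueField 𝒪) :
          SmallP t →+* ResidueField 𝒪) := by
      ext x; rfl
    rw [this]
    exact Finite.of_injective _ (RingHom.kerLift_injective _)
  exact Ideal.finite_quotient_pow (IsNoetherian.noetherian _) n

/-- `SmallP t → BigB / I` is surjective for Good `I` -/
theorem exists_small_sub_mem {t : Finset (BigB 𝒪)} (ht : ∀ b ∈ t, b ∈ mB rb)
    {I : Ideal (BigB 𝒪)} (hI : Good nd 𝒟 I)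
    (hgen : mB rb ≤ Ideal.span (t : Set (BigB 𝒪)) ⊔ mB rb ^ 2 ⊔ I) (b : BigB 𝒪) :
    ∃ f : SmallP t, b - smallψ t f ∈ I := by
  obtain ⟨X, hs, rfl⟩ := hI
  haveI := X.test.isArtinian
  obtain ⟨n, hn⟩ := (isArtinianRing_iff_isNilpotent_maximalIdeal X.A).mp X.test.isArtinian
  have hmem : ∀ b ∈ mB rb, evalHom X.ρ b ∈ maximalIdeal X.A := fun b hb => by
    rw [← X.comap_maximalIdeal] at hb; exact hb
  have key := adjoin_eq_top_of_le_span_sup_sq (𝒪 := 𝒪) X.test.residue_surjective n hn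
    (Set.range fun x : t => evalHom X.ρ (x : BigB 𝒪))
    (by rintro _ ⟨x, rfl⟩; exact hmem _ (ht _ x.2))
    (by
      rw [← X.map_mB hs, ← Ideal.map_pow]
      have h1 := Ideal.map_mono (f := evalHom (𝒪 := 𝒪) X.ρ) hgen
      rw [Ideal.map_sup, Ideal.map_sup, Ideal.map_span] at h1
      have h2 : Ideal.map (evalHom (𝒪 := 𝒪) X.ρ) (RingHom.ker (evalHom (𝒪 := 𝒪) X.ρ)) = ⊥ :=
        (Ideal.map_eq_bot_iff_le_ker _).mpr le_rfl
      rw [h2, sup_bot_eq] at h1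
      refine h1.trans (sup_le_sup_right (Ideal.span_mono ?_) _)
      rintro _ ⟨x, hx, rfl⟩
      exact ⟨⟨x, hx⟩, rfl⟩)
  rw [Algebra.adjoin_range_eq_range_aeval] at key
  have h3 : evalHom X.ρ b ∈ (MvPolynomial.aeval (R := 𝒪)
      fun x : t => evalHom X.ρ (x : BigB 𝒪)).range := by rw [key]; trivial
  obtain ⟨f, hf⟩ := h3
  refine ⟨f, ?_⟩
  rw [RingHom.mem_ker, map_sub, sub_eq_zero]
  have h4 : (evalHom (𝒪 := 𝒪) X.ρ).comp (smallψ t) =
      MvPolynomial.aeval (R := 𝒪) fun x : t => evalHom X.ρ (x : BigB 𝒪) := by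
    apply MvPolynomial.algHom_ext
    intro x
    simp [smallψ]
  have h5 := DFunLike.congr_fun h4 f
  rw [AlgHom.comp_apply] at h5
  exact (h5.trans hf).symm

/-- the cardinality bound -/
theorem card_quotient_le {t : Finset (BigB 𝒪)} (ht : ∀ b ∈ t, b ∈ mB rb)
    {I : Ideal (BigB 𝒪)} (hI : Good nd 𝒟 I)
    (hgen : mB rb ≤ Ideal.span (t : Set (BigB 𝒪)) ⊔ mB rb ^ 2 ⊔ I) (n : ℕ) (hn : mB rb ^ n ≤ I) :
    Finite (BigB 𝒪 ⧸ I) ∧ Nat.card (BigB 𝒪 ⧸ I) ≤ Nat.card (SmallP t ⧸ smalln rb t ^ n) := by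
  haveI := finite_quotient_smalln_pow (rb := rb) t n
  let g : SmallP t ⧸ smalln rb t ^ n →+* BigB 𝒪 ⧸ I :=
    Ideal.Quotient.lift _ ((Ideal.Quotient.mk I).comp (smallψ t : SmallP t →+* BigB 𝒪)) (by
      intro a ha
      rw [RingHom.comp_apply, Ideal.Quotient.eq_zero_iff_mem]
      apply hn
      have h1 := Ideal.mem_map_of_mem (smallψ t : SmallP t →+* BigB 𝒪) ha
      rw [Ideal.map_pow] at h1
      exact Ideal.pow_right_mono Ideal.map_comap_le n h1)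
  have hg : Function.Surjective g := by
    intro c
    obtain ⟨b, rfl⟩ := Ideal.Quotient.mk_surjective c
    obtain ⟨f, hf⟩ := exists_small_sub_mem ht hI hgen b
    refine ⟨Ideal.Quotient.mk _ f, ?_⟩
    rw [Ideal.Quotient.lift_mk, RingHom.comp_apply]
    exact (Ideal.Quotient.eq.mpr hf).symm
  exact ⟨Finite.of_surjective g hg, Nat.card_le_card_of_surjective g hg⟩

variable (h𝒟 : IsDeformationCondition 𝒪 𝒟)

include h𝒟 in
/-- existence of the minimum Good ideal at level `n` -/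
theorem exists_min_good (h0 : IsNDLift nd 𝒟 rb) (hT : (tangentSet nd 𝒟).Finite) (n : ℕ)
    (hn : 1 ≤ n) :
    ∃ I, (Good nd 𝒟 I ∧ mB rb ^ n ≤ I) ∧ ∀ I', Good nd 𝒟 I' → mB rb ^ n ≤ I' → I ≤ I' := by
  obtain ⟨t, ht, hgen⟩ := exists_generators h𝒟 hT
  let S : Set ℕ := {c | ∃ I, (Good nd 𝒟 I ∧ mB rb ^ n ≤ I) ∧ c = Nat.card (BigB 𝒪 ⧸ I)}
  have hne : S.Nonempty := ⟨_, mB rb, ⟨good_mB h0, Ideal.pow_le_self (by omega)⟩, rfl⟩
  have hbdd : BddAbove S := ⟨Nat.card (SmallP t ⧸ smalln rb t ^ n), by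
    rintro _ ⟨I, ⟨hI, hIn⟩, rfl⟩
    exact (card_quotient_le ht hI (hgen I hI) n hIn).2⟩
  obtain ⟨I, ⟨hI, hIn⟩, hc⟩ := Nat.sSup_mem hne hbdd
  refine ⟨I, ⟨hI, hIn⟩, fun I' hI' hIn' => ?_⟩
  have hinf : Good nd 𝒟 (I ⊓ I') := hI.inf h𝒟 hI'
  have hinfn : mB rb ^ n ≤ I ⊓ I' := le_inf hIn hIn'
  have hle : Nat.card (BigB 𝒪 ⧸ (I ⊓ I')) ≤ Nat.card (BigB 𝒪 ⧸ I) := by
    rw [← hc]
    exact le_csSup hbdd ⟨_, ⟨hinf, hinfn⟩, rfl⟩
  haveI := (card_quotient_le ht hinf (hgen _ hinf) n hinfn).1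
  have hbij := Function.Surjective.bijective_of_nat_card_le
    (Ideal.Quotient.factor_surjective (inf_le_left : I ⊓ I' ≤ I)) hle
  intro b hb
  have h1 : Ideal.Quotient.factor (inf_le_left : I ⊓ I' ≤ I) (Ideal.Quotient.mk _ b) = 0 := by
    rw [Ideal.Quotient.factor_mk, Ideal.Quotient.eq_zero_iff_mem]; exact hb
  have h2 := hbij.1 (h1.trans (map_zero _).symm)
  rw [Ideal.Quotient.eq_zero_iff_mem] at h2
  exact h2.2

include h𝒟 in
/-- the tower of minimal Good ideals with all the properties needed for module (F) -/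
theorem exists_tower (h0 : IsNDLift nd 𝒟 rb) (hT : (tangentSet nd 𝒟).Finite) :
    ∃ (I : ℕ → Ideal (BigB 𝒪)) (t : Finset (BigB 𝒪)),
      I 1 = mB rb ∧
      (∀ n, 1 ≤ n → Good nd 𝒟 (I n)) ∧
      (∀ n, 1 ≤ n → ∀ I', Good nd 𝒟 I' → mB rb ^ n ≤ I' → I n ≤ I') ∧
      (∀ n, 1 ≤ n → I (n + 1) ≤ I n) ∧
      (∀ n, 1 ≤ n → (I 1) ^ n ≤ I n) ∧
      (∀ n, 1 ≤ n → I n ≤ I (n + 1) ⊔ (I 1) ^ n) ∧
      (∀ b ∈ t, b ∈ I 1) ∧
      I 1 ≤ Ideal.span (t : Set (BigB 𝒪)) ⊔ I 2 := by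
  obtain ⟨t, ht, hgen⟩ := exists_generators h𝒟 hT
  choose! I hI hmin using fun n (hn : 1 ≤ n) => exists_min_good h𝒟 h0 hT n hn
  have h1 : I 1 = mB rb :=
    le_antisymm (hI 1 le_rfl).1.le_mB (by have := (hI 1 le_rfl).2; rwa [pow_one] at this)
  refine ⟨I, t, h1, fun n hn => (hI n hn).1, hmin, ?_, ?_, ?_, ?_, ?_⟩
  · intro n hn
    exact hmin (n + 1) (by omega) _ (hI n hn).1
      ((Ideal.pow_le_pow_right (Nat.le_succ n)).trans (hI n hn).2)
  · intro n hn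
    rw [h1]; exact (hI n hn).2
  · intro n hn
    rw [h1]
    refine hmin n hn _ ((hI (n + 1) (by omega)).1.of_le h𝒟 le_sup_left ?_) le_sup_right
    have hle : I (n + 1) ⊔ mB rb ^ n ≤ mB rb :=
      sup_le (hI (n + 1) (by omega)).1.le_mB (Ideal.pow_le_self (by omega))
    intro htop
    exact (mB_isMaximal rb).ne_top (top_le_iff.mp (htop ▸ hle))
  · rw [h1]; exact ht
  · rw [h1]
    refine (hgen _ (hI 2 (by omega)).1).trans (sup_le (sup_le le_sup_left ?_) le_sup_right)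
    exact le_sup_of_le_right (hI 2 (by omega)).2

end Bound

end Fermat.Agent.S53

end
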