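import Fermat.Agent.S53.Artin

/-!
# S53, module (D1): normalized lifts of type `𝒟` and their functoriality
-/

set_option autoImplicit false
set_option linter.style.haveILetI false
set_option linter.unusedSectionVars false

noncomputable section

namespace Fermat.Agent.S53

open IsLocalRing GaloisRep

variable {𝒪 : Type} [CommRing 𝒪] [IsLocalRing 𝒪]
variable {rb : GQ →* M2 (ResidueField 𝒪)}

section EvalGA

variable {A A' : Type} [CommRing A] [Algebra 𝒪 A] [CommRing A'] [Algebra 𝒪 A']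

lemma evalGA_mapRep (f : A →ₐ[𝒪] A') (ρ : GQ →* M2 A) (x : GQ →₀ 𝒪) :
    evalGA (mapRep (f : A →+* A') ρ) x = (f : A →+* A').mapMatrix (evalGA ρ x) := by
  unfold evalGA
  rw [Finsupp.sum, Finsupp.sum, map_sum]
  refine Finset.sum_congr rfl fun g _ => ?_
  ext i j
  rw [Matrix.smul_apply, mapRep_apply, RingHom.mapMatrix_apply, Matrix.map_apply,
    Matrix.smul_apply, smul_eq_mul, smul_eq_mul, map_mul]
  congr 1
  exact (f.commutes _).symm

lemma IsNormalized.mapRep {nd : NormData 𝒪 rb} {ρ : GQ →* M2 A} (h : IsNormalized nd ρ)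
    (f : A →ₐ[𝒪] A') : IsNormalized nd (mapRep (f : A →+* A') ρ) := by
  obtain ⟨h1, h2, h3⟩ := h
  refine ⟨?_, ?_, ?_⟩
  · rw [evalGA_mapRep, RingHom.mapMatrix_apply, Matrix.map_apply, h1, map_zero]
  · rw [evalGA_mapRep, RingHom.mapMatrix_apply, Matrix.map_apply, h2, map_zero]
  · rw [mapRep_apply, h3]; exact f.commutes _

lemma IsNormalized.of_mapRep {nd : NormData 𝒪 rb} {ρ : GQ →* M2 A} (f : A →ₐ[𝒪] A')
    (hf : Function.Injective f) (h : IsNormalized nd (Fermat.Agent.S53.mapRep (f : A →+* A') ρ)) :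
    IsNormalized nd ρ := by
  obtain ⟨h1, h2, h3⟩ := h
  refine ⟨hf ?_, hf ?_, hf ?_⟩
  · rw [evalGA_mapRep, RingHom.mapMatrix_apply, Matrix.map_apply] at h1
    rw [map_zero]; exact h1
  · rw [evalGA_mapRep, RingHom.mapMatrix_apply, Matrix.map_apply] at h2
    rw [map_zero]; exact h2
  · rw [mapRep_apply] at h3
    rw [AlgHom.commutes]; exact h3

end EvalGA

section LiftsMap

variable {A A' : Type} [CommRing A] [IsLocalRing A] [Algebra 𝒪 A] [IsLocalHom (algebraMap 𝒪 A)]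
  [CommRing A'] [IsLocalRing A'] [Algebra 𝒪 A'] [IsLocalHom (algebraMap 𝒪 A')]

lemma Lifts.mapRep {ρ : GQ →* M2 A} (h : Lifts rb ρ)
    (hs : Function.Surjective (residue A' ∘ algebraMap 𝒪 A')) (f : A →ₐ[𝒪] A') :
    Lifts rb (mapRep (f : A →+* A') ρ) := by
  rw [lifts_iff_algHom (resk hs)]
  rw [lifts_iff_algHom ((resk hs).comp f)] at h
  exact h

lemma Lifts.of_mapRep {ρ : GQ →* M2 A}
    (hs : Function.Surjective (residue A' ∘ algebraMap 𝒪 A')) (f : A →ₐ[𝒪] A')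
    (h : Lifts rb (Fermat.Agent.S53.mapRep (f : A →+* A') ρ)) : Lifts rb ρ := by
  rw [lifts_iff_algHom (resk hs)] at h
  rw [lifts_iff_algHom ((resk hs).comp f)]
  exact h

end LiftsMap

section CtsArtin

variable {A : Type} [CommRing A] [IsLocalRing A]

lemma isCts_of_factors {ρ : GQ →* M2 A} (h : GaloisFactorsThroughFiniteLevel ρ) : IsCts ρ := by
  obtain ⟨L, hL, h1⟩ := h
  exact fun n => ⟨L, hL, fun σ hσ i j => by rw [h1 σ hσ, sub_self]; exact Ideal.zero_mem _⟩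

lemma IsCts.factors [IsArtinianRing A] {ρ : GQ →* M2 A} (h : IsCts ρ) :
    GaloisFactorsThroughFiniteLevel ρ := by
  obtain ⟨n, hn⟩ := (isArtinianRing_iff_isNilpotent_maximalIdeal A).mp inferInstance
  obtain ⟨L, hL, h1⟩ := h n
  refine ⟨L, hL, fun σ hσ => ?_⟩
  rw [← sub_eq_zero]
  ext i j
  have := h1 σ hσ i j
  rw [hn] at this
  exact this

end CtsArtin

/-- a normalized continuous lift of `rb` of type `𝒟` -/
structure IsNDLift (nd : NormData 𝒪 rb)
    (𝒟 : ∀ ⦃A : Type⦄ [CommRing A] [IsLocalRing A] [Algebra 𝒪 A], GaloisRepAdic A → Prop)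
    {A : Type} [CommRing A] [IsLocalRing A] [Algebra 𝒪 A] [IsLocalHom (algebraMap 𝒪 A)]
    (ρ : GQ →* M2 A) : Prop where
  cts : IsCts ρ
  lifts : Lifts rb ρ
  norm : IsNormalized nd ρ
  type : 𝒟 (toAdic ρ cts)

section Transfer

variable {nd : NormData 𝒪 rb}
  {𝒟 : ∀ ⦃A : Type⦄ [CommRing A] [IsLocalRing A] [Algebra 𝒪 A], GaloisRepAdic A → Prop}
  (h𝒟 : IsDeformationCondition 𝒪 𝒟)
variable {A A' : Type} [CommRing A] [IsLocalRing A] [Algebra 𝒪 A] [IsLocalHom (algebraMap 𝒪 A)]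
  [CommRing A'] [IsLocalRing A'] [Algebra 𝒪 A'] [IsLocalHom (algebraMap 𝒪 A')]

include h𝒟

theorem IsNDLift.map (hA : IsArtinianTestAlgebra 𝒪 A) (hA' : IsArtinianTestAlgebra 𝒪 A')
    {ρ : GQ →* M2 A} (h : IsNDLift nd 𝒟 ρ) (f : A →ₐ[𝒪] A') :
    IsNDLift nd 𝒟 (mapRep (f : A →+* A') ρ) := by
  have hf : IsLocalHom (f : A →+* A') := isLocalHom_of_algHom hA'.residue_surjective f
  refine ⟨h.cts.mapRep _ hf, h.lifts.mapRep hA'.residue_surjective f, h.norm.mapRep f, ?_⟩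
  exact h𝒟.of_isEquiv hA' (toAdic_baseChangeAlong ρ h.cts _ hf)
    (h𝒟.baseChangeAlong hA hA' f hf h.type)

theorem IsNDLift.of_map_injective (hA : IsArtinianTestAlgebra 𝒪 A)
    (hA' : IsArtinianTestAlgebra 𝒪 A') {ρ : GQ →* M2 A} (f : A →ₐ[𝒪] A')
    (hinj : Function.Injective f) (h : IsNDLift nd 𝒟 (mapRep (f : A →+* A') ρ)) :
    IsNDLift nd 𝒟 ρ := by
  have hf : IsLocalHom (f : A →+* A') := isLocalHom_of_algHom hA'.residue_surjective f
  haveI := hA'.isArtinian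
  have hc : IsCts ρ := by
    obtain ⟨L, hL, h1⟩ := h.cts.factors
    refine isCts_of_factors ⟨L, hL, fun σ hσ => ?_⟩
    ext i j
    apply hinj
    have := congrFun (congrFun (h1 σ hσ) i) j
    rw [mapRep_apply] at this
    change f (ρ σ i j) = f ((1 : M2 A) i j)
    rw [show f (ρ σ i j) = (f : A →+* A') (ρ σ i j) from rfl, this, Matrix.one_apply,
      Matrix.one_apply]
    split_ifs <;> simp
  refine ⟨hc, Lifts.of_mapRep hA'.residue_surjective f h.lifts, IsNormalized.of_mapRep f hinj h.norm,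
    ?_⟩
  obtain ⟨e⟩ := toAdic_baseChangeAlong ρ hc _ hf
  exact h𝒟.of_baseChangeAlong_injective hA hA' f hf hinj (h𝒟.of_isEquiv hA' ⟨e.symm⟩ h.type)

end Transfer

end Fermat.Agent.S53

end
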