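import Fermat.Agent.S53.Defs

/-!
# S53, module (C): normal forms of lifts (existence over Henselian local rings, uniqueness)
-/

set_option autoImplicit false
set_option linter.unusedSectionVars false
set_option linter.overlappingInstances false

namespace Fermat.Agent.S53

open IsLocalRing

variable {𝒪 : Type} [CommRing 𝒪] [IsLocalRing 𝒪] {rb : GQ →* M2 (ResidueField 𝒪)}

section General

variable {A : Type} [CommRing A]

lemma nf_conjRep_conjRep (Q₂ Q₁ : (M2 A)ˣ) (ρ : GQ →* M2 A) :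
    conjRep Q₂ (conjRep Q₁ ρ) = conjRep (Q₂ * Q₁) ρ := by
  ext σ : 1
  simp only [conjRep_apply, Units.val_mul, mul_inv_rev, mul_assoc]

lemma nf_evalGA_conjRep [Algebra 𝒪 A] (Q : (M2 A)ˣ) (ρ : GQ →* M2 A) (x : GQ →₀ 𝒪) :
    evalGA (conjRep Q ρ) x = (Q : M2 A) * evalGA ρ x * ((Q⁻¹ : (M2 A)ˣ) : M2 A) := by
  unfold evalGA Finsupp.sum
  rw [Finset.mul_sum, Finset.sum_mul]
  refine Finset.sum_congr rfl fun g _ => ?_
  beta_reduce
  rw [conjRep_apply, Matrix.mul_smul, Matrix.smul_mul]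

end General

section Local

variable {A : Type} [CommRing A] [IsLocalRing A] [Algebra 𝒪 A] [IsLocalHom (algebraMap 𝒪 A)]

lemma nf_residue_evalGA (nd : NormData 𝒪 rb) (ρ : GQ →* M2 A) (hl : Lifts rb ρ) :
    (residue A).mapMatrix (evalGA ρ nd.x) = !![1, 0; 0, 0] := by
  have h1 : (residue A).mapMatrix (evalGA ρ nd.x) =
      (ResidueField.map (algebraMap 𝒪 A)).mapMatrix
        (nd.x.sum fun g c => (residue 𝒪 c) • rb g) := by
    unfold evalGA Finsupp.sum
    rw [map_sum, map_sum]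
    refine Finset.sum_congr rfl fun g _ => ?_
    ext i j
    simp only [RingHom.mapMatrix_apply, Matrix.map_apply, Matrix.smul_apply, smul_eq_mul, map_mul]
    rw [hl g i j]
    congr 1
  rw [h1, nd.hx]
  ext i j
  fin_cases i <;> fin_cases j <;> simp

lemma nf_lifts_conjRep (ρ : GQ →* M2 A) (hl : Lifts rb ρ) (Q : (M2 A)ˣ)
    (hQ : (residue A).mapMatrix (Q : M2 A) = 1) :
    Lifts rb (conjRep Q ρ) := by
  have hQi : (residue A).mapMatrix ((Q⁻¹ : (M2 A)ˣ) : M2 A) = 1 := by
    have h1 : (residue A).mapMatrix (Q : M2 A) * (residue A).mapMatrix ((Q⁻¹ : (M2 A)ˣ) : M2 A)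
        = 1 := by
      rw [← map_mul, Units.mul_inv, map_one]
    rwa [hQ, one_mul] at h1
  intro σ i j
  have h2 : (residue A).mapMatrix (conjRep Q ρ σ) = (residue A).mapMatrix (ρ σ) := by
    rw [conjRep_apply, map_mul, map_mul, hQ, hQi, one_mul, mul_one]
  have h3 := congrFun (congrFun h2 i) j
  simp only [RingHom.mapMatrix_apply, Matrix.map_apply] at h3
  rw [h3, hl σ i j]

/-- A `2 × 2` matrix congruent to `diag(1,0)` over a Henselian local ring can be diagonalised by
a matrix congruent to `1`. -/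
lemma nf_exists_diag [HenselianLocalRing A] (M : M2 A)
    (hM : (residue A).mapMatrix M = !![1, 0; 0, 0]) :
    ∃ Q : (M2 A)ˣ, (residue A).mapMatrix (Q : M2 A) = 1 ∧
      ((Q : M2 A) * M * ((Q⁻¹ : (M2 A)ˣ) : M2 A)) 0 1 = 0 ∧
      ((Q : M2 A) * M * ((Q⁻¹ : (M2 A)ˣ) : M2 A)) 1 0 = 0 := by
  have hent : ∀ i j, residue A (M i j) = (!![1, 0; 0, 0] : M2 (ResidueField A)) i j := by
    intro i j
    have := congrFun (congrFun hM i) j
    simpa only [RingHom.mapMatrix_apply, Matrix.map_apply] using this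
  obtain ⟨a, ha⟩ : ∃ a, a = M 0 0 := ⟨_, rfl⟩
  obtain ⟨b, hb⟩ : ∃ b, b = M 0 1 := ⟨_, rfl⟩
  obtain ⟨c, hc⟩ : ∃ c, c = M 1 0 := ⟨_, rfl⟩
  obtain ⟨d, hd⟩ : ∃ d, d = M 1 1 := ⟨_, rfl⟩
  have ra : residue A a = 1 := by rw [ha]; simpa using hent 0 0
  have rbb : residue A b = 0 := by rw [hb]; simpa using hent 0 1
  have rc : residue A c = 0 := by rw [hc]; simpa using hent 1 0
  have rd : residue A d = 0 := by rw [hd]; simpa using hent 1 1
  have hMeq : M = !![a, b; c, d] := by
    rw [ha, hb, hc, hd]; exact Matrix.eta_fin_two M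
  -- Hensel
  let f : Polynomial A := Polynomial.X ^ 2 - Polynomial.C (a + d) * Polynomial.X
    + Polynomial.C (a * d - b * c)
  have hfmonic : f.Monic := by
    simp only [f]
    monicity!
  have hf0 : f.eval 0 ∈ maximalIdeal A := by
    rw [← residue_eq_zero_iff]
    simp [f, ra, rbb, rc, rd]
  have hf0' : IsUnit (f.derivative.eval 0) := by
    have : residue A (f.derivative.eval 0) ≠ 0 := by
      simp [f, ra, rd]
    rw [Ne, residue_eq_zero_iff] at this
    simpa using this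
  obtain ⟨β, hβroot, hβm⟩ := HenselianLocalRing.is_henselian f hfmonic 0 hf0 hf0'
  have hβ : β ^ 2 - (a + d) * β + (a * d - b * c) = 0 := by
    have := hβroot
    simpa [f, Polynomial.IsRoot] using this
  have rβ : residue A β = 0 := by
    rw [residue_eq_zero_iff]; simpa using hβm
  have hunit1 : IsUnit (a - β) := by
    have : residue A (a - β) ≠ 0 := by simp [ra, rβ]
    rw [Ne, residue_eq_zero_iff] at this
    simpa using this
  obtain ⟨r, hr⟩ := hunit1.exists_left_inv
  have hunit2 : IsUnit (1 + b * c * r ^ 2) := by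
    have : residue A (1 + b * c * r ^ 2) ≠ 0 := by simp [rbb]
    rw [Ne, residue_eq_zero_iff] at this
    simpa using this
  obtain ⟨w, hw⟩ := hunit2.exists_left_inv
  have rw1 : residue A w = 1 := by
    have := congrArg (residue A) hw
    simpa [rbb] using this
  let Q : (M2 A)ˣ :=
    { val := !![w, w * b * r; -(w * c * r), w]
      inv := !![1, -(b * r); c * r, 1]
      val_inv := by
        ext i j
        fin_cases i <;> fin_cases j <;>
          simp [Matrix.mul_apply, Fin.sum_univ_two] <;>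
          first | ring1 | linear_combination hw
      inv_val := by
        ext i j
        fin_cases i <;> fin_cases j <;>
          simp [Matrix.mul_apply, Fin.sum_univ_two] <;>
          first | ring1 | linear_combination hw }
  refine ⟨Q, ?_, ?_, ?_⟩
  · ext i j
    fin_cases i <;> fin_cases j <;> simp [Q, rw1, rbb, rc]
  · show ((!![w, w * b * r; -(w * c * r), w] : M2 A) * M * !![1, -(b * r); c * r, 1]) 0 1 = 0
    rw [hMeq]
    simp only [Matrix.mul_apply, Fin.sum_univ_two, Matrix.of_apply, Matrix.cons_val', Matrix.cons_val_zero,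
      Matrix.cons_val_one, Matrix.cons_val_fin_one]
    linear_combination (w * b * r ^ 2) * hβ - (w * b * (r * (d - β) + 1)) * hr
  · show ((!![w, w * b * r; -(w * c * r), w] : M2 A) * M * !![1, -(b * r); c * r, 1]) 1 0 = 0
    rw [hMeq]
    simp only [Matrix.mul_apply, Fin.sum_univ_two, Matrix.of_apply, Matrix.cons_val', Matrix.cons_val_zero,
      Matrix.cons_val_one, Matrix.cons_val_fin_one]
    linear_combination (w * c * r ^ 2) * hβ - (w * c * (r * (d - β) + 1)) * hr

lemma nf_exists_scale (nd : NormData 𝒪 rb) (ρ : GQ →* M2 A) (hl : Lifts rb ρ) :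
    ∃ s s' : A, s * s' = 1 ∧ residue A s = 1 ∧ s * ρ nd.g0 1 0 = algebraMap 𝒪 A nd.c0 := by
  have h1 : residue A (ρ nd.g0 1 0) = residue A (algebraMap 𝒪 A nd.c0) := by
    rw [hl nd.g0 1 0, ← nd.hc0]
    rfl
  have h2 : residue A (ρ nd.g0 1 0) ≠ 0 := by
    rw [hl nd.g0 1 0]
    exact (map_ne_zero _).mpr nd.hc0'
  have hunit : IsUnit (ρ nd.g0 1 0) := by
    rw [Ne, residue_eq_zero_iff] at h2
    simpa using h2
  obtain ⟨y, hy⟩ := hunit.exists_left_inv
  have hs1 : residue A (algebraMap 𝒪 A nd.c0 * y) = 1 := by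
    rw [map_mul, ← h1, ← map_mul, mul_comm, hy, map_one]
  have hunit2 : IsUnit (algebraMap 𝒪 A nd.c0 * y) := by
    have : residue A (algebraMap 𝒪 A nd.c0 * y) ≠ 0 := by rw [hs1]; exact one_ne_zero
    rw [Ne, residue_eq_zero_iff] at this
    simpa using this
  obtain ⟨s', hs'⟩ := hunit2.exists_right_inv
  exact ⟨_, s', hs', hs1, by linear_combination (algebraMap 𝒪 A nd.c0) * hy⟩

end Local

/-- Existence of the normal form.  Proof idea: `M := evalGA ρ nd.x ≡ diag(1,0)`; Hensel gives a root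
`β ≡ 0` of the char. poly `X² - tr M X + det M`, `α := tr M - β`, `e := (α-β)⁻¹ (M - β)` is an
idempotent `≡ diag(1,0)` (Cayley-Hamilton), `P := [e e₁ | (1-e) e₂] ≡ 1`, `P⁻¹ M P = diag(α,β)`.
Then rescale by `diag(1,s)` to fix the `(1,0)` entry of `ρ g0`. -/
theorem exists_normalize (nd : NormData 𝒪 rb) {A : Type} [CommRing A] [IsLocalRing A]
    [HenselianLocalRing A] [Algebra 𝒪 A] [IsLocalHom (algebraMap 𝒪 A)]
    (ρ : GQ →* M2 A) (hl : Lifts rb ρ) :
    ∃ Q : (M2 A)ˣ, Lifts rb (conjRep Q ρ) ∧ IsNormalized nd (conjRep Q ρ) := by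
  obtain ⟨Q₁, hQ₁, h01, h10⟩ := nf_exists_diag (evalGA ρ nd.x) (nf_residue_evalGA nd ρ hl)
  have hl₁ : Lifts rb (conjRep Q₁ ρ) := nf_lifts_conjRep ρ hl Q₁ hQ₁
  obtain ⟨s, s', hss', hs1, hs⟩ := nf_exists_scale nd (conjRep Q₁ ρ) hl₁
  let Q₂ : (M2 A)ˣ :=
    { val := !![1, 0; 0, s]
      inv := !![1, 0; 0, s']
      val_inv := by
        ext i j
        fin_cases i <;> fin_cases j <;> simp [Matrix.mul_apply, Fin.sum_univ_two, hss']
      inv_val := by
        ext i j
        fin_cases i <;> fin_cases j <;> simp [Matrix.mul_apply, Fin.sum_univ_two, mul_comm s' s, hss'] }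
  have hQ₂ : (residue A).mapMatrix (Q₂ : M2 A) = 1 := by
    ext i j
    fin_cases i <;> fin_cases j <;> simp [Q₂, hs1]
  have hl₂ : Lifts rb (conjRep Q₂ (conjRep Q₁ ρ)) := nf_lifts_conjRep _ hl₁ Q₂ hQ₂
  have hconj : ∀ Y : M2 A, ∀ i j, ((Q₂ : M2 A) * Y * ((Q₂⁻¹ : (M2 A)ˣ) : M2 A)) i j =
      (!![1, 0; 0, s] : M2 A) i i * Y i j * (!![1, 0; 0, s'] : M2 A) j j := by
    intro Y i j
    show ((!![1, 0; 0, s] : M2 A) * Y * !![1, 0; 0, s']) i j = _
    fin_cases i <;> fin_cases j <;>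
      simp only [Matrix.mul_apply, Fin.sum_univ_two, Matrix.of_apply, Matrix.cons_val',
        Matrix.cons_val_zero, Matrix.cons_val_one, Matrix.cons_val_fin_one, Fin.zero_eta,
        Fin.mk_one, Fin.isValue] <;> ring
  refine ⟨Q₂ * Q₁, ?_, ?_⟩
  · rw [← nf_conjRep_conjRep]; exact hl₂
  · rw [← nf_conjRep_conjRep]
    refine ⟨?_, ?_, ?_⟩
    · rw [nf_evalGA_conjRep, hconj, nf_evalGA_conjRep, h01]; simp
    · rw [nf_evalGA_conjRep, hconj, nf_evalGA_conjRep, h10]; simp
    · rw [conjRep_apply Q₂, hconj]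
      simpa using hs

/-- Uniqueness of the normal form: conjugate normalized lifts are equal. -/
theorem normalized_unique (nd : NormData 𝒪 rb) {A : Type} [CommRing A] [IsLocalRing A]
    [Algebra 𝒪 A] [IsLocalHom (algebraMap 𝒪 A)]
    (ρ ρ' : GQ →* M2 A) (hl : Lifts rb ρ) (hl' : Lifts rb ρ')
    (hn : IsNormalized nd ρ) (hn' : IsNormalized nd ρ') (Q : (M2 A)ˣ) (h : ρ' = conjRep Q ρ) :
    ρ' = ρ := by
  obtain ⟨hn01, hn10, hng⟩ := hn
  obtain ⟨hn01', hn10', hng'⟩ := hn'
  have hres := nf_residue_evalGA nd ρ hl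
  have hres' := nf_residue_evalGA nd ρ' hl'
  obtain ⟨M, hM⟩ : ∃ M, M = evalGA ρ nd.x := ⟨_, rfl⟩
  obtain ⟨M', hM'⟩ : ∃ M', M' = evalGA ρ' nd.x := ⟨_, rfl⟩
  rw [← hM] at hn01 hn10 hres
  rw [← hM'] at hn01' hn10' hres'
  have hent : ∀ i j, residue A (M i j) = (!![1, 0; 0, 0] : M2 (ResidueField A)) i j := by
    intro i j
    have := congrFun (congrFun hres i) j
    simpa only [RingHom.mapMatrix_apply, Matrix.map_apply] using this
  have hent' : ∀ i j, residue A (M' i j) = (!![1, 0; 0, 0] : M2 (ResidueField A)) i j := by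
    intro i j
    have := congrFun (congrFun hres' i) j
    simpa only [RingHom.mapMatrix_apply, Matrix.map_apply] using this
  have hcomm : M' * (Q : M2 A) = (Q : M2 A) * M := by
    rw [hM', hM, h, nf_evalGA_conjRep, mul_assoc, Units.inv_mul, mul_one]
  have hcommσ : ∀ σ, ρ' σ * (Q : M2 A) = (Q : M2 A) * ρ σ := by
    intro σ
    rw [h, conjRep_apply, mul_assoc, Units.inv_mul, mul_one]
  have r00 : residue A (M 0 0) = 1 := by simpa using hent 0 0
  have r11 : residue A (M 1 1) = 0 := by simpa using hent 1 1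
  have r00' : residue A (M' 0 0) = 1 := by simpa using hent' 0 0
  have r11' : residue A (M' 1 1) = 0 := by simpa using hent' 1 1
  have e01 := congrFun (congrFun hcomm 0) 1
  have e10 := congrFun (congrFun hcomm 1) 0
  simp only [Matrix.mul_apply, Fin.sum_univ_two, hn01, hn10, hn01', hn10'] at e01 e10
  have hu1 : IsUnit (M' 0 0 - M 1 1) := by
    have : residue A (M' 0 0 - M 1 1) ≠ 0 := by simp [r00', r11]
    rw [Ne, residue_eq_zero_iff] at this
    simpa using this
  have hu2 : IsUnit (M 0 0 - M' 1 1) := by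
    have : residue A (M 0 0 - M' 1 1) ≠ 0 := by simp [r00, r11']
    rw [Ne, residue_eq_zero_iff] at this
    simpa using this
  have hQ01 : (Q : M2 A) 0 1 = 0 := by
    apply hu1.mul_left_cancel
    linear_combination e01
  have hQ10 : (Q : M2 A) 1 0 = 0 := by
    apply hu2.mul_left_cancel
    linear_combination -e10
  have hc0u : IsUnit (algebraMap 𝒪 A nd.c0) := by
    have : residue A (algebraMap 𝒪 A nd.c0) ≠ 0 := by
      rw [← hng, hl nd.g0 1 0]
      exact (map_ne_zero _).mpr nd.hc0'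
    rw [Ne, residue_eq_zero_iff] at this
    simpa using this
  have eg := congrFun (congrFun (hcommσ nd.g0) 1) 0
  simp only [Matrix.mul_apply, Fin.sum_univ_two, hQ10, hng, hng'] at eg
  have hps : (Q : M2 A) 0 0 = (Q : M2 A) 1 1 := by
    apply hc0u.mul_left_cancel
    linear_combination eg
  have hQQ := congrFun (congrFun (Units.mul_inv Q) 0) 0
  simp only [Matrix.mul_apply, Fin.sum_univ_two, hQ01, Matrix.one_apply_eq] at hQQ
  have hpu : IsUnit ((Q : M2 A) 0 0) :=
    IsUnit.of_mul_eq_one (((Q⁻¹ : (M2 A)ˣ) : M2 A) 0 0) (by linear_combination hQQ)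
  ext σ i j
  have e := congrFun (congrFun (hcommσ σ) i) j
  apply hpu.mul_left_cancel
  fin_cases i <;> fin_cases j <;>
    simp only [Matrix.mul_apply, Fin.sum_univ_two, hQ01, hQ10, Fin.zero_eta, Fin.mk_one,
      Fin.isValue, ← hps] at e ⊢ <;> linear_combination e

end Fermat.Agent.S53
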