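import Fermat.Agent.S53.Level
import Fermat.Agent.S53.Compl
import Fermat.Agent.S53.NormalForm

/-!
# S53, module (G): the universal representation and its universal property
-/

set_option autoImplicit false
set_option linter.style.haveILetI false
set_option linter.unusedSectionVars false

noncomputable section

namespace Fermat.Agent.S53

open IsLocalRing GaloisRep

variable {𝒪 : Type} [CommRing 𝒪] [IsLocalRing 𝒪]
variable {rb : GQ →* M2 (ResidueField 𝒪)}

/-- the data produced by modules (E) and (F) -/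
structure UnivCtx (nd : NormData 𝒪 rb)
    (𝒟 : ∀ ⦃A : Type⦄ [CommRing A] [IsLocalRing A] [Algebra 𝒪 A], GaloisRepAdic A → Prop)
    (R : Type) [CommRing R] [IsLocalRing R] [Algebra 𝒪 R] where
  I : ℕ → Ideal (BigB 𝒪)
  Θ : BigB 𝒪 →ₐ[𝒪] R
  hI1 : I 1 = mB rb
  hgood : ∀ n, 1 ≤ n → Good nd 𝒟 (I n)
  hmin : ∀ n, 1 ≤ n → ∀ I', Good nd 𝒟 I' → mB rb ^ n ≤ I' → I n ≤ I'
  hcomap : ∀ n, 1 ≤ n → (maximalIdeal R ^ n).comap Θ = I n
  hdense : ∀ n, ∀ r : R, ∃ b, r - Θ b ∈ maximalIdeal R ^ n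

namespace UnivCtx

variable {nd : NormData 𝒪 rb}
  {𝒟 : ∀ ⦃A : Type⦄ [CommRing A] [IsLocalRing A] [Algebra 𝒪 A], GaloisRepAdic A → Prop}
  {R : Type} [CommRing R] [IsLocalRing R] [Algebra 𝒪 R]
  (U : UnivCtx nd 𝒟 R)

lemma Θ_mem_iff (b : BigB 𝒪) : U.Θ b ∈ maximalIdeal R ↔ b ∈ mB rb := by
  rw [← U.hI1, ← U.hcomap 1 le_rfl, pow_one, Ideal.mem_comap]

include U in
lemma isLocalHom : IsLocalHom (algebraMap 𝒪 R) := by
  constructor
  intro o ho
  by_contra hno
  have h1 : algebraMap 𝒪 (BigB 𝒪) o ∈ mB rb := algebraMap_mem_mB rb hno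
  rw [← U.Θ_mem_iff, AlgHom.commutes] at h1
  exact h1 ho

include U in
lemma residue_surjective : Function.Surjective (residue R ∘ algebraMap 𝒪 R) := by
  intro x
  obtain ⟨r, rfl⟩ := IsLocalRing.residue_surjective x
  obtain ⟨b, hb⟩ := U.hdense 1 r
  obtain ⟨o, ho⟩ := exists_sub_mem_mB rb b
  refine ⟨o, ?_⟩
  rw [← U.Θ_mem_iff, map_sub, AlgHom.commutes] at ho
  rw [pow_one] at hb
  have := Ideal.add_mem _ hb ho
  rw [sub_add_sub_cancel, ← residue_eq_zero_iff, map_sub, sub_eq_zero] at this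
  exact this.symm

variable [IsHausdorff (maximalIdeal R) R]

/-- an element of `BigB` killed by the evaluation at all objects is killed by `Θ` -/
lemma Θ_eq_zero (b : BigB 𝒪) (h : ∀ X : NDObj nd 𝒟, evalHom X.ρ b = 0) : U.Θ b = 0 := by
  apply eq_zero_of_forall_mem_pow (maximalIdeal R)
  intro n
  rcases Nat.eq_zero_or_pos n with rfl | hn
  · simp
  · obtain ⟨X, _, hk⟩ := U.hgood n hn
    rw [← Ideal.mem_comap, U.hcomap n hn, ← hk]
    exact h X

/-- the universal matrix representation -/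
def ρR : GQ →* M2 R where
  toFun σ := Matrix.of fun i j => U.Θ (MvPolynomial.X (σ, i, j))
  map_one' := by
    ext i j
    rw [Matrix.of_apply, ← sub_eq_zero]
    have h1 : (1 : M2 R) i j = U.Θ (if i = j then 1 else 0) := by
      rw [Matrix.one_apply]; split_ifs <;> simp
    rw [h1, ← map_sub]
    apply U.Θ_eq_zero
    intro X
    rw [map_sub, evalHom_X, map_one, Matrix.one_apply]
    split_ifs <;> simp
  map_mul' σ τ := by
    ext i j
    rw [Matrix.of_apply, Matrix.mul_apply, Fin.sum_univ_two, ← sub_eq_zero]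
    simp only [Matrix.of_apply]
    rw [← map_mul, ← map_mul, ← map_add, ← map_sub]
    apply U.Θ_eq_zero
    intro X
    rw [map_sub, map_add, map_mul, map_mul, evalHom_X, evalHom_X, evalHom_X, evalHom_X, evalHom_X,
      map_mul, Matrix.mul_apply, Fin.sum_univ_two, sub_self]

@[simp] lemma ρR_apply (σ : GQ) (i j : Fin 2) : U.ρR σ i j = U.Θ (MvPolynomial.X (σ, i, j)) := rfl

lemma evalHom_ρR : evalHom U.ρR = U.Θ := by
  apply MvPolynomial.algHom_ext
  rintro ⟨σ, i, j⟩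
  simp

lemma isCts_ρR : IsCts U.ρR := by
  intro n
  rcases Nat.eq_zero_or_pos n with rfl | hn
  · exact ⟨⊥, inferInstance, fun σ _ i j => by simp⟩
  · obtain ⟨X, _, hk⟩ := U.hgood n hn
    haveI := X.test.isArtinian
    obtain ⟨L, hL, h1⟩ := X.lift.cts.factors
    refine ⟨L, hL, fun σ hσ i j => ?_⟩
    have h2 : (U.ρR σ - 1) i j = U.Θ (MvPolynomial.X (σ, i, j) - if i = j then 1 else 0) := by
      rw [Matrix.sub_apply, ρR_apply, Matrix.one_apply, map_sub]; split_ifs <;> simp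
    rw [h2, ← Ideal.mem_comap, U.hcomap n hn, ← hk, RingHom.mem_ker]
    change evalHom X.ρ _ = 0
    rw [map_sub, evalHom_X, h1 σ hσ, Matrix.one_apply]
    split_ifs <;> simp

lemma lifts_ρR [IsLocalHom (algebraMap 𝒪 R)] : Lifts rb U.ρR := by
  rw [lifts_iff_algHom (resk U.residue_surjective)]
  intro σ i j
  rw [ρR_apply]
  have key : ∀ b : BigB 𝒪, resk U.residue_surjective (U.Θ b) = evalHom rb b := by
    intro b
    obtain ⟨o, ho⟩ := exists_sub_mem_mB rb b
    have h1 : evalHom rb (b - algebraMap 𝒪 _ o) = 0 := ho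
    have h2 : resk U.residue_surjective (U.Θ (b - algebraMap 𝒪 _ o)) = 0 :=
      (algHom_eq_zero_iff _ _).mpr ((U.Θ_mem_iff _).mpr ho)
    rw [map_sub, sub_eq_zero, AlgHom.commutes] at h1
    rw [map_sub, map_sub, sub_eq_zero, AlgHom.commutes, AlgHom.commutes] at h2
    rw [h1, h2]
  rw [key, evalHom_X]

end UnivCtx

/-- the polynomial computing an entry of `evalGA` -/
def gaPoly (x : GQ →₀ 𝒪) (i j : Fin 2) : BigB 𝒪 :=
  x.sum fun g c => MvPolynomial.C c * MvPolynomial.X (g, i, j)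

lemma evalHom_gaPoly {A : Type} [CommRing A] [Algebra 𝒪 A] (ρ : GQ →* M2 A) (x : GQ →₀ 𝒪)
    (i j : Fin 2) : evalHom ρ (gaPoly x i j) = evalGA ρ x i j := by
  unfold gaPoly evalGA
  rw [Finsupp.sum, Finsupp.sum, map_sum, Matrix.sum_apply]
  refine Finset.sum_congr rfl fun g _ => ?_
  rw [map_mul, evalHom_X, Matrix.smul_apply, smul_eq_mul]
  congr 1
  exact (evalHom ρ).commutes _

namespace UnivCtx

variable {nd : NormData 𝒪 rb}
  {𝒟 : ∀ ⦃A : Type⦄ [CommRing A] [IsLocalRing A] [Algebra 𝒪 A], GaloisRepAdic A → Prop}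
  {R : Type} [CommRing R] [IsLocalRing R] [Algebra 𝒪 R]
  (U : UnivCtx nd 𝒟 R) [IsHausdorff (maximalIdeal R) R]

lemma isNormalized_ρR : IsNormalized nd U.ρR := by
  refine ⟨?_, ?_, ?_⟩
  · rw [← evalHom_gaPoly, evalHom_ρR]
    apply U.Θ_eq_zero
    intro X
    rw [evalHom_gaPoly]; exact X.lift.norm.1
  · rw [← evalHom_gaPoly, evalHom_ρR]
    apply U.Θ_eq_zero
    intro X
    rw [evalHom_gaPoly]; exact X.lift.norm.2.1
  · rw [ρR_apply, ← sub_eq_zero, ← U.Θ.commutes, ← map_sub]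
    apply U.Θ_eq_zero
    intro X
    rw [map_sub, evalHom_X, AlgHom.commutes, sub_eq_zero]
    exact X.lift.norm.2.2

variable [Finite (ResidueField 𝒪)] (h𝒟 : IsDeformationCondition 𝒪 𝒟)

include h𝒟 in
/-- every Artinian quotient of the universal representation is a normalized lift of type `𝒟` -/
theorem isNDLift_mapRep {C : Type} [CommRing C] [IsLocalRing C] [Algebra 𝒪 C]
    [IsLocalHom (algebraMap 𝒪 C)] (hC : IsArtinianTestAlgebra 𝒪 C) (q : R →ₐ[𝒪] C) :
    IsNDLift nd 𝒟 (mapRep (q : R →+* C) U.ρR) := by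
  haveI := hC.isArtinian
  haveI hq : IsLocalHom (q : R →+* C) := isLocalHom_of_algHom hC.residue_surjective q
  obtain ⟨n, hn⟩ := (isArtinianRing_iff_isNilpotent_maximalIdeal C).mp hC.isArtinian
  obtain ⟨X, hs, hk⟩ := U.hgood (n + 1) (by omega)
  have hker : RingHom.ker (evalHom (𝒪 := 𝒪) X.ρ).toRingHom ≤ RingHom.ker (q.comp U.Θ).toRingHom := by
    intro b hb
    have h1 : b ∈ U.I (n + 1) := by rw [← hk]; exact hb
    rw [← U.hcomap (n + 1) (by omega), Ideal.mem_comap] at h1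
    have h2 := map_pow_mem_of_isLocalHom (q : R →+* C) (n + 1) h1
    rw [pow_succ, hn] at h2
    simpa using h2
  let g : X.A →ₐ[𝒪] C := AlgHom.liftOfSurjective (evalHom X.ρ) hs (q.comp U.Θ) hker
  have hg : mapRep (g : X.A →+* C) X.ρ = mapRep (q : R →+* C) U.ρR := by
    ext σ i j
    rw [mapRep_apply, mapRep_apply, ρR_apply, ← evalHom_X (𝒪 := 𝒪) X.ρ]
    exact AlgHom.liftOfSurjective_apply (evalHom X.ρ) hs (q.comp U.Θ) hker _
  rw [← hg]
  exact IsNDLift.map h𝒟 X.test hC X.lift g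

include h𝒟 in
theorem type_ρR [IsNoetherianRing R] [IsAdicComplete (maximalIdeal R) R] :
    𝒟 (toAdic U.ρR U.isCts_ρR) := by
  rw [h𝒟.iff_forall_surjective U.isLocalHom U.residue_surjective]
  intro C _ _ _ hC q hq _
  haveI := hC.isLocalHom
  obtain ⟨e⟩ := toAdic_baseChangeAlong U.ρR U.isCts_ρR (q : R →+* C) hq
  exact h𝒟.of_isEquiv hC ⟨e.symm⟩ (U.isNDLift_mapRep h𝒟 hC q).type

end UnivCtx

end Fermat.Agent.S53

end
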