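import Fermat.Agent.S53.Univ

/-!
# S53, module (G7): the universal property
-/

set_option autoImplicit false
set_option linter.style.haveILetI false
set_option linter.unusedSectionVars false
set_option linter.overlappingInstances false

noncomputable section

namespace Fermat.Agent.S53

open IsLocalRing GaloisRep

variable {𝒪 : Type} [CommRing 𝒪] [IsLocalRing 𝒪] [Finite (ResidueField 𝒪)]

section Quot

variable {A : Type} [CommRing A] [IsLocalRing A] [IsNoetherianRing A] [Algebra 𝒪 A]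
  [IsLocalHom (algebraMap 𝒪 A)]

/-- `A ⧸ m ^ n` is an Artinian test algebra -/
theorem test_quotient_pow (hsA : Function.Surjective (residue A ∘ algebraMap 𝒪 A)) (n : ℕ)
    (hn : 1 ≤ n) :
    ∃ _ : IsLocalRing (A ⧸ maximalIdeal A ^ n), IsArtinianTestAlgebra 𝒪 (A ⧸ maximalIdeal A ^ n) := by
  haveI : Finite (ResidueField A) :=
    Finite.of_surjective (ResidueField.map (algebraMap 𝒪 A)) fun x => by
      obtain ⟨o, ho⟩ := hsA x
      exact ⟨residue 𝒪 o, by rw [ResidueField.map_residue]; exact ho⟩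
  haveI : Finite (A ⧸ maximalIdeal A ^ n) := finite_quotient_iff.mpr ⟨n, le_rfl⟩
  have h0 : ∀ a ∈ maximalIdeal A ^ n, resk hsA a = 0 := fun a ha =>
    (algHom_eq_zero_iff _ a).mpr (Ideal.pow_le_self (by omega) ha)
  let π : (A ⧸ maximalIdeal A ^ n) →ₐ[𝒪] ResidueField 𝒪 :=
    Ideal.Quotient.liftₐ (maximalIdeal A ^ n) (resk hsA) h0
  refine test_of_algHom _ π ?_
  intro c hc
  obtain ⟨a, rfl⟩ := Ideal.Quotient.mk_surjective c
  have h1 : resk hsA a = 0 := hc
  refine ⟨n, ?_⟩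
  rw [← map_pow, Ideal.Quotient.eq_zero_iff_mem]
  exact Ideal.pow_mem_pow ((algHom_eq_zero_iff _ a).mp h1) n

end Quot

variable {rb : GQ →* M2 (ResidueField 𝒪)} {nd : NormData 𝒪 rb}
  {𝒟 : ∀ ⦃A : Type⦄ [CommRing A] [IsLocalRing A] [Algebra 𝒪 A], GaloisRepAdic A → Prop}
  (h𝒟 : IsDeformationCondition 𝒪 𝒟)

section Complete

variable {A : Type} [CommRing A] [IsLocalRing A] [IsNoetherianRing A]
  [IsAdicComplete (maximalIdeal A) A] [Algebra 𝒪 A] [IsLocalHom (algebraMap 𝒪 A)]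

include h𝒟 in
/-- invariance of `𝒟` under equivalence over complete rings -/
theorem type_of_isEquiv (hsA : Function.Surjective (residue A ∘ algebraMap 𝒪 A))
    {r r' : GaloisRepAdic A} (e : r.IsEquiv r') (h : 𝒟 r) : 𝒟 r' := by
  rw [h𝒟.iff_forall_surjective inferInstance hsA] at h ⊢
  intro C _ _ _ hC q hq hqs
  obtain ⟨e⟩ := e
  exact h𝒟.of_isEquiv hC ⟨e.baseChangeAlong _ hq⟩ (h hC q hq hqs)

include h𝒟 in
/-- a normalized lift of type `𝒟` over a complete ring gives objects at every finite level, hence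
its evaluation hom is compatible with the filtrations -/
theorem evalHom_mem_pow {R : Type} [CommRing R] [IsLocalRing R] [Algebra 𝒪 R]
    (U : UnivCtx nd 𝒟 R)
    (hsA : Function.Surjective (residue A ∘ algebraMap 𝒪 A))
    {ρ : GQ →* M2 A} (hρ : IsNDLift nd 𝒟 ρ) (n : ℕ) (b : BigB 𝒪)
    (hb : U.Θ b ∈ maximalIdeal R ^ n) : evalHom ρ b ∈ maximalIdeal A ^ n := by
  rcases Nat.eq_zero_or_pos n with rfl | hn
  · simp
  obtain ⟨hloc, htest⟩ := test_quotient_pow hsA n hn
  haveI := htest.isLocalHom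
  let q : A →ₐ[𝒪] A ⧸ maximalIdeal A ^ n := Ideal.Quotient.mkₐ 𝒪 _
  have hq : IsLocalHom (q : A →+* A ⧸ maximalIdeal A ^ n) :=
    isLocalHom_of_algHom htest.residue_surjective q
  have hqs : Function.Surjective q := Ideal.Quotient.mk_surjective
  have htype := (h𝒟.iff_forall_surjective inferInstance hsA _).mp hρ.type htest q hq hqs
  have hlift : IsNDLift nd 𝒟 (mapRep (q : A →+* A ⧸ maximalIdeal A ^ n) ρ) :=
    ⟨hρ.cts.mapRep _ hq, hρ.lifts.mapRep htest.residue_surjective q, hρ.norm.mapRep q,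
      h𝒟.of_isEquiv htest (toAdic_baseChangeAlong ρ hρ.cts _ hq) htype⟩
  let Y : NDObj nd 𝒟 := ⟨A ⧸ maximalIdeal A ^ n, htest, _, hlift⟩
  have hgood := good_ker h𝒟 Y
  have hpow : mB rb ^ n ≤ RingHom.ker (evalHom (𝒪 := 𝒪) Y.ρ) := by
    rw [← Ideal.map_eq_bot_iff_le_ker, Ideal.map_pow]
    have h1 : (mB rb).map (evalHom (𝒪 := 𝒪) Y.ρ) ≤ maximalIdeal Y.A := by
      rw [Ideal.map_le_iff_le_comap, Y.comap_maximalIdeal]
    have h2 : maximalIdeal Y.A ^ n = ⊥ := by
      have h3 : maximalIdeal (A ⧸ maximalIdeal A ^ n) =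
          (maximalIdeal A).map (q : A →+* A ⧸ maximalIdeal A ^ n) := by
        have h7 := ((local_hom_TFAE (q : A →+* A ⧸ maximalIdeal A ^ n)).out 0 4).mp hq
        have h8 := (Ideal.map_comap_of_surjective (q : A →+* A ⧸ maximalIdeal A ^ n) hqs
          (maximalIdeal (A ⧸ maximalIdeal A ^ n))).symm
        rw [h7] at h8
        exact h8
      change maximalIdeal (A ⧸ maximalIdeal A ^ n) ^ n = ⊥
      rw [h3, ← Ideal.map_pow]
      exact (Ideal.map_eq_bot_iff_le_ker _).mpr (by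
        change _ ≤ RingHom.ker (Ideal.Quotient.mk (maximalIdeal A ^ n))
        rw [Ideal.mk_ker])
    exact le_bot_iff.mp (h2 ▸ Ideal.pow_right_mono h1 n)
  have hle := U.hmin n hn _ hgood hpow
  have hbI : b ∈ U.I n := by rw [← U.hcomap n hn]; exact hb
  have h4 := hle hbI
  rw [RingHom.mem_ker] at h4
  have h5 : evalHom Y.ρ b = q (evalHom ρ b) := evalHom_mapRep_apply q ρ b
  have h6 : q (evalHom ρ b) = 0 := h5 ▸ h4
  exact Ideal.Quotient.eq_zero_iff_mem.mp h6

end Complete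

end Fermat.Agent.S53

end
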