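import Fermat.Agent.S53.Univ2

/-!
# S53, module (G8): the universal property, final form
-/

set_option autoImplicit false
set_option linter.style.haveILetI false
set_option linter.unusedSectionVars false
set_option linter.overlappingInstances false

noncomputable section

namespace Fermat.Agent.S53

open IsLocalRing GaloisRep

variable {𝒪 : Type} [CommRing 𝒪] [IsLocalRing 𝒪] [Finite (ResidueField 𝒪)]
variable (ρbar : ResidualGaloisRep (ResidueField 𝒪))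
  (b : Module.Basis (Fin 2) (ResidueField 𝒪) ρbar.V)
  (nd : NormData 𝒪 (resMat ρbar b))
  {𝒟 : ∀ ⦃A : Type⦄ [CommRing A] [IsLocalRing A] [Algebra 𝒪 A], GaloisRepAdic A → Prop}
  (h𝒟 : IsDeformationCondition 𝒪 𝒟)

section Complete

variable {A : Type} [CommRing A] [IsLocalRing A] [IsNoetherianRing A]
  [IsAdicComplete (maximalIdeal A) A] [Algebra 𝒪 A] [IsLocalHom (algebraMap 𝒪 A)]

include h𝒟 in
/-- every deformation of type `𝒟` is equivalent to a normalized matrix lift -/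
theorem exists_ndLift (hsA : Function.Surjective (residue A ∘ algebraMap 𝒪 A))
    (ρA : GaloisRepAdic A) (hD : 𝒟 ρA)
    (hres : ρA.residual.IsEquiv (ρbar.baseChangeAlong (ResidueField.map (algebraMap 𝒪 A)))) :
    ∃ (ρ : GQ →* M2 A) (h : IsNDLift nd 𝒟 ρ), ρA.IsEquiv (toAdic ρ h.cts) := by
  haveI := henselianLocalRing_of_complete A
  obtain ⟨ρ₀, h₀, ⟨e₀⟩⟩ := exists_toAdic ρA
  obtain ⟨eres⟩ := hres
  obtain ⟨Q₁, hl₁⟩ := exists_conj_lifts ρbar b h₀ ⟨e₀.symm.residual.trans eres⟩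
  obtain ⟨Q₂, hl₂, hn₂⟩ := exists_normalize nd (conjRep Q₁ ρ₀) hl₁
  obtain ⟨e₁⟩ := toAdic_isEquiv_conjRep ρ₀ h₀ Q₁
  obtain ⟨e₂⟩ := toAdic_isEquiv_conjRep (conjRep Q₁ ρ₀) (h₀.conjRep Q₁) Q₂
  have e : ρA.IsEquiv (toAdic (conjRep Q₂ (conjRep Q₁ ρ₀)) ((h₀.conjRep Q₁).conjRep Q₂)) :=
    ⟨(e₀.trans e₁).trans e₂⟩
  exact ⟨_, ⟨_, hl₂, hn₂, type_of_isEquiv h𝒟 hsA e hD⟩, e⟩

variable {ρbar b nd}
variable {R : Type} [CommRing R] [IsLocalRing R] [Algebra 𝒪 R] (U : UnivCtx nd 𝒟 R)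
  [IsNoetherianRing R] [IsAdicComplete (maximalIdeal R) R] [IsLocalHom (algebraMap 𝒪 R)]

include h𝒟 in
theorem UnivCtx.universal (hsA : Function.Surjective (residue A ∘ algebraMap 𝒪 A))
    (ρA : GaloisRepAdic A) (hD : 𝒟 ρA)
    (hres : ρA.residual.IsEquiv (ρbar.baseChangeAlong (ResidueField.map (algebraMap 𝒪 A)))) :
    ∃! φ : R →ₐ[𝒪] A, ∃ hφ : IsLocalHom (φ : R →+* A),
      ((toAdic U.ρR U.isCts_ρR).baseChangeAlong (φ : R →+* A) hφ).IsEquiv ρA := by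
  obtain ⟨ρ, hρ, ⟨e⟩⟩ := exists_ndLift ρbar b nd h𝒟 hsA ρA hD hres
  obtain ⟨φ, hφ⟩ := exists_lift_of_dense (maximalIdeal R) (maximalIdeal A) U.Θ U.hdense
    (evalHom ρ) (fun n b hb => evalHom_mem_pow h𝒟 U hsA hρ n b hb)
  have hloc : ∀ ψ : R →ₐ[𝒪] A, IsLocalHom (ψ : R →+* A) := fun ψ => isLocalHom_of_algHom hsA ψ
  have hmap : mapRep (φ : R →+* A) U.ρR = ρ := by
    ext σ i j
    rw [mapRep_apply, UnivCtx.ρR_apply, ← evalHom_X (𝒪 := 𝒪) ρ, ← hφ]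
    rfl
  refine ⟨φ, ⟨hloc φ, ?_⟩, ?_⟩
  · obtain ⟨e1⟩ := toAdic_baseChangeAlong U.ρR U.isCts_ρR (φ : R →+* A) (hloc φ)
    have e2 : (toAdic (mapRep (φ : R →+* A) U.ρR) (U.isCts_ρR.mapRep _ (hloc φ))).IsEquiv
        (toAdic ρ hρ.cts) := by
      subst hmap
      exact ⟨GaloisRepAdic.Equiv.refl _⟩
    obtain ⟨e2⟩ := e2
    exact ⟨(e1.trans e2).trans e.symm⟩
  · rintro ψ ⟨hψ, ⟨eψ⟩⟩
    obtain ⟨e1⟩ := toAdic_baseChangeAlong U.ρR U.isCts_ρR (ψ : R →+* A) hψ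
    obtain ⟨Q, hQ⟩ := exists_conj_of_isEquiv ⟨(e.symm.trans eψ.symm).trans e1⟩
    have hl : Lifts (resMat ρbar b) (mapRep (ψ : R →+* A) U.ρR) := U.lifts_ρR.mapRep hsA ψ
    have hn : IsNormalized nd (mapRep (ψ : R →+* A) U.ρR) := U.isNormalized_ρR.mapRep ψ
    have heq := normalized_unique nd ρ _ hρ.lifts hl hρ.norm hn Q hQ
    have hcomp : ψ.comp U.Θ = φ.comp U.Θ := by
      rw [hφ]
      apply MvPolynomial.algHom_ext
      rintro ⟨σ, i, j⟩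
      rw [evalHom_X, ← heq]
      rfl
    ext r
    rw [← sub_eq_zero]
    apply eq_zero_of_forall_mem_pow (maximalIdeal A)
    intro n
    obtain ⟨c, hc⟩ := U.hdense n r
    haveI := hloc φ
    haveI := hψ
    have h1 := map_pow_mem_of_isLocalHom (ψ : R →+* A) n hc
    have h2 := map_pow_mem_of_isLocalHom (φ : R →+* A) n hc
    have h3 : ψ (U.Θ c) = φ (U.Θ c) := DFunLike.congr_fun hcomp c
    have h4 : ψ r - φ r = (ψ : R →+* A) (r - U.Θ c) - (φ : R →+* A) (r - U.Θ c) := by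
      simp only [map_sub, RingHom.coe_coe, h3]
      ring
    rw [h4]
    exact Ideal.sub_mem _ h1 h2

end Complete

end Fermat.Agent.S53

end
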